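/-
S05 helper layer (helper5): the `η`-coordinate `η = 2y + a₁x + a₃` on affine points of a
Weierstrass curve over a field, and Mathlib's group law expressed through `(x, η)`.
No valuations here; pure algebra.
-/
import Mathlib

set_option autoImplicit false

namespace Fermat.Agent.S05

open WeierstrassCurve WeierstrassCurve.Affine

variable {K : Type*} [Field K] (W : WeierstrassCurve K)

/-- The `η`-coordinate `2y + a₁x + a₃` of an affine point. -/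
def eta (x y : K) : K := 2 * y + W.a₁ * x + W.a₃

/-- The cubic `4x³ + b₂x² + 2b₄x + b₆`, so that `η² = cub x` on the curve. -/
def cub (x : K) : K := 4 * x ^ 3 + W.b₂ * x ^ 2 + 2 * W.b₄ * x + W.b₆

/-- Half the derivative of `cub`: `6x² + b₂x + b₄`. -/
def dcub (x : K) : K := 6 * x ^ 2 + W.b₂ * x + W.b₄

/-- The numerator of the duplication formula: `x⁴ − b₄x² − 2b₆x − b₈`. -/
def dupNum (x : K) : K := x ^ 4 - W.b₄ * x ^ 2 - 2 * W.b₆ * x - W.b₈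

lemma eta_sq {x y : K} (h : W.toAffine.Equation x y) : eta W x y ^ 2 = cub W x := by
  rw [Affine.equation_iff] at h
  simp only [eta, cub, WeierstrassCurve.b₂, WeierstrassCurve.b₄, WeierstrassCurve.b₆]
  linear_combination 4 * h

lemma eta_negY (x y : K) : eta W x (W.toAffine.negY x y) = -eta W x y := by
  simp only [eta, Affine.negY]; ring

lemma sub_negY (x y : K) : y - W.toAffine.negY x y = eta W x y := by
  simp only [eta, Affine.negY]; ring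

lemma four_dupNum (x : K) :
    4 * dupNum W x = dcub W x ^ 2 - (W.b₂ + 8 * x) * cub W x := by
  simp only [dupNum, dcub, cub]
  linear_combination (-1 : K) * W.b_relation

lemma eta_eq_zero_iff (x y : K) : eta W x y = 0 ↔ y = W.toAffine.negY x y := by
  rw [← sub_negY, sub_eq_zero]

/-- If `η = 0` at a nonsingular point then `dcub ≠ 0` (characteristic `≠ 2`). -/
lemma dcub_ne_zero_of_eta_eq_zero (h2 : (2 : K) ≠ 0) {x y : K} (h : W.toAffine.Nonsingular x y)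
    (hη : eta W x y = 0) : dcub W x ≠ 0 := by
  rw [Affine.nonsingular_iff] at h
  obtain ⟨-, h | h⟩ := h
  · intro hd
    apply h
    simp only [eta] at hη
    simp only [dcub, WeierstrassCurve.b₂, WeierstrassCurve.b₄] at hd
    have : 2 * (W.a₁ * y - (3 * x ^ 2 + 2 * W.a₂ * x + W.a₄)) = 0 := by
      linear_combination W.a₁ * hη - hd
    have := (mul_eq_zero.mp this).resolve_left h2
    exact sub_eq_zero.mp this
  · exact absurd ((eta_eq_zero_iff W x y).mp hη) (by simpa [Affine.negY] using h)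

section Points

variable {W} [DecidableEq K]

/-- Chord addition in `(x, η)`-coordinates. -/
theorem add_of_X_ne {x₁ y₁ x₂ y₂ : K} (h₁ : W.toAffine.Nonsingular x₁ y₁)
    (h₂ : W.toAffine.Nonsingular x₂ y₂) (hx : x₁ ≠ x₂) :
    ∃ (x₃ y₃ : K) (h₃ : W.toAffine.Nonsingular x₃ y₃),
      Point.some x₁ y₁ h₁ + Point.some x₂ y₂ h₂ = Point.some x₃ y₃ h₃ ∧
      4 * x₃ * (x₁ - x₂) ^ 2 =
        (eta W x₁ y₁ - eta W x₂ y₂) ^ 2 - (W.b₂ + 4 * x₁ + 4 * x₂) * (x₁ - x₂) ^ 2 ∧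
      eta W x₃ y₃ * (x₁ - x₂) =
        -((eta W x₁ y₁ - eta W x₂ y₂) * (x₃ - x₁) + eta W x₁ y₁ * (x₁ - x₂)) := by
  have hxy : ¬(x₁ = x₂ ∧ y₁ = W.toAffine.negY x₂ y₂) := fun h => hx h.1
  have hD : x₁ - x₂ ≠ 0 := sub_ne_zero.mpr hx
  refine ⟨_, _, _, Point.add_some hxy, ?_, ?_⟩
  · rw [Affine.slope_of_X_ne hx]
    simp only [Affine.addX, eta, WeierstrassCurve.b₂]
    field_simp
    ring
  · rw [Affine.slope_of_X_ne hx]
    simp only [Affine.addY, Affine.negAddY, Affine.negY, Affine.addX, eta]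
    field_simp
    ring

/-- Chord subtraction in `(x, η)`-coordinates. -/
theorem sub_of_X_ne {x₁ y₁ x₂ y₂ : K} (h₁ : W.toAffine.Nonsingular x₁ y₁)
    (h₂ : W.toAffine.Nonsingular x₂ y₂) (hx : x₁ ≠ x₂) :
    ∃ (x₃ y₃ : K) (h₃ : W.toAffine.Nonsingular x₃ y₃),
      Point.some x₁ y₁ h₁ - Point.some x₂ y₂ h₂ = Point.some x₃ y₃ h₃ ∧
      4 * x₃ * (x₁ - x₂) ^ 2 =
        (eta W x₁ y₁ + eta W x₂ y₂) ^ 2 - (W.b₂ + 4 * x₁ + 4 * x₂) * (x₁ - x₂) ^ 2 ∧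
      eta W x₃ y₃ * (x₁ - x₂) =
        -((eta W x₁ y₁ + eta W x₂ y₂) * (x₃ - x₁) + eta W x₁ y₁ * (x₁ - x₂)) := by
  obtain ⟨x₃, y₃, h₃, hadd, hX, hE⟩ :=
    add_of_X_ne h₁ ((Affine.nonsingular_neg ..).mpr h₂) hx
  refine ⟨x₃, y₃, h₃, ?_, ?_, ?_⟩
  · rw [sub_eq_add_neg, Point.neg_some]; exact hadd
  · rw [hX, eta_negY]; ring
  · rw [hE, eta_negY]; ring

/-- Doubling when `η ≠ 0`. -/
theorem add_self_of_eta_ne {x y : K} (h : W.toAffine.Nonsingular x y) (hη : eta W x y ≠ 0) :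
    ∃ (x₃ y₃ : K) (h₃ : W.toAffine.Nonsingular x₃ y₃),
      Point.some x y h + Point.some x y h = Point.some x₃ y₃ h₃ ∧
      x₃ * eta W x y ^ 2 = dupNum W x := by
  have hy : y ≠ W.toAffine.negY x y := fun hy => hη ((eta_eq_zero_iff W x y).mpr hy)
  have hxy : ¬(x = x ∧ y = W.toAffine.negY x y) := fun h' => hy h'.2
  have hE := (Affine.equation_iff x y).mp h.1
  refine ⟨_, _, _, Point.add_some hxy, ?_⟩
  rw [Affine.slope_of_Y_ne rfl hy, sub_negY]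
  simp only [Affine.addX, dupNum, WeierstrassCurve.b₄, WeierstrassCurve.b₆, WeierstrassCurve.b₈]
  field_simp
  simp only [eta]
  linear_combination (-(W.a₁ ^ 2 + 4 * W.a₂ + 8 * x)) * hE

/-- Doubling when `η = 0`. -/
theorem add_self_of_eta_eq {x y : K} (h : W.toAffine.Nonsingular x y) (hη : eta W x y = 0) :
    Point.some x y h + Point.some x y h = 0 :=
  Point.add_self_of_Y_eq ((eta_eq_zero_iff W x y).mp hη)

/-- The `x`-only (Kummer) identities for the pair `P₁ + P₂`, `P₁ - P₂` when `x₁ ≠ x₂`. -/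
theorem add_sub_X (h2 : (2 : K) ≠ 0) {x₁ y₁ x₂ y₂ : K} (h₁ : W.toAffine.Nonsingular x₁ y₁)
    (h₂ : W.toAffine.Nonsingular x₂ y₂) (hx : x₁ ≠ x₂) :
    ∃ (xs ys : K) (hs : W.toAffine.Nonsingular xs ys) (xd yd : K)
      (hd : W.toAffine.Nonsingular xd yd),
      Point.some x₁ y₁ h₁ + Point.some x₂ y₂ h₂ = Point.some xs ys hs ∧
      Point.some x₁ y₁ h₁ - Point.some x₂ y₂ h₂ = Point.some xd yd hd ∧
      (xs + xd) * (x₁ - x₂) ^ 2 =
        2 * x₁ * x₂ * (x₁ + x₂) + W.b₂ * x₁ * x₂ + W.b₄ * (x₁ + x₂) + W.b₆ ∧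
      xs * xd * (x₁ - x₂) ^ 2 =
        x₁ ^ 2 * x₂ ^ 2 - W.b₄ * x₁ * x₂ - W.b₆ * (x₁ + x₂) - W.b₈ := by
  obtain ⟨xs, ys, hs, hadd, hXs, -⟩ := add_of_X_ne h₁ h₂ hx
  obtain ⟨xd, yd, hd, hsub, hXd, -⟩ := sub_of_X_ne h₁ h₂ hx
  have hη₁ := eta_sq W h₁.1
  have hη₂ := eta_sq W h₂.1
  have hD : x₁ - x₂ ≠ 0 := sub_ne_zero.mpr hx
  have h4 : (4 : K) ≠ 0 := by
    have : (4 : K) = 2 * 2 := by norm_num
    rw [this]; exact mul_ne_zero h2 h2
  refine ⟨xs, ys, hs, xd, yd, hd, hadd, hsub, ?_, ?_⟩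
  · have : 4 * ((xs + xd) * (x₁ - x₂) ^ 2 -
        (2 * x₁ * x₂ * (x₁ + x₂) + W.b₂ * x₁ * x₂ + W.b₄ * (x₁ + x₂) + W.b₆)) = 0 := by
      simp only [cub] at hη₁ hη₂
      linear_combination hXs + hXd + 2 * hη₁ + 2 * hη₂
    exact sub_eq_zero.mp ((mul_eq_zero.mp this).resolve_left h4)
  · have : (16 * (x₁ - x₂) ^ 2) * (xs * xd * (x₁ - x₂) ^ 2 -
        (x₁ ^ 2 * x₂ ^ 2 - W.b₄ * x₁ * x₂ - W.b₆ * (x₁ + x₂) - W.b₈)) = 0 := by
      simp only [cub] at hη₁ hη₂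
      linear_combination (4 * xd * (x₁ - x₂) ^ 2) * hXs +
        ((eta W x₁ y₁ - eta W x₂ y₂) ^ 2 - (W.b₂ + 4 * x₁ + 4 * x₂) * (x₁ - x₂) ^ 2) * hXd +
        ((eta W x₁ y₁ ^ 2 - eta W x₂ y₂ ^ 2 +
            (4 * x₁ ^ 3 + W.b₂ * x₁ ^ 2 + 2 * W.b₄ * x₁ + W.b₆) -
            (4 * x₂ ^ 3 + W.b₂ * x₂ ^ 2 + 2 * W.b₄ * x₂ + W.b₆)) -
          2 * (W.b₂ + 4 * x₁ + 4 * x₂) * (x₁ - x₂) ^ 2) * hη₁ +
        (-(eta W x₁ y₁ ^ 2 - eta W x₂ y₂ ^ 2 +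
            (4 * x₁ ^ 3 + W.b₂ * x₁ ^ 2 + 2 * W.b₄ * x₁ + W.b₆) -
            (4 * x₂ ^ 3 + W.b₂ * x₂ ^ 2 + 2 * W.b₄ * x₂ + W.b₆)) -
          2 * (W.b₂ + 4 * x₁ + 4 * x₂) * (x₁ - x₂) ^ 2) * hη₂ +
        (4 * (x₁ - x₂) ^ 2) * W.b_relation
    have h16 : (16 * (x₁ - x₂) ^ 2 : K) ≠ 0 := by
      have : (16 : K) = 4 * 4 := by norm_num
      rw [this]; exact mul_ne_zero (mul_ne_zero h4 h4) (pow_ne_zero 2 hD)
    exact sub_eq_zero.mp ((mul_eq_zero.mp this).resolve_left h16)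

end Points

end Fermat.Agent.S05
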