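import Mathlib
import Fermat.Prelude.Def_FLTPrelim_FreyPackage
import Fermat.Prelude.Def_FLTPrelim_GaloisRep
import Fermat.Prelude.Def_FLTPrelim_Ramification
import Fermat.Agent.S05.Coords

/-!
# S05: arithmetic of the Frey curve at a place over an odd prime `q`

* integers in a valuation subring `A` over `q`: `(n : L) ∈ A`, `(n : L) ∈ 𝔪 ↔ q ∣ n`;
* coefficients and `b`-invariants of `P.freyCurve⁄L`, the factorisation of the cubic `cub`;
* at most one of `a, b, c` is divisible by `q`;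
* Galois fixes rational numbers.
-/

set_option autoImplicit false
set_option linter.unusedSectionVars false
set_option linter.unnecessarySimpa false

namespace Fermat.Agent.S05

open WeierstrassCurve

section IntCast

variable {L : Type*} [Field L] (A : ValuationSubring L) {q : ℕ}

/-- `1 ∉ 𝔪`. -/
theorem one_not_mem_nonunits' : (1 : L) ∉ A.nonunits := by
  intro h
  rw [ValuationSubring.mem_nonunits_iff] at h
  simp at h

/-- `𝔪` is stable under multiplication by `A` (left factor in `A`). -/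
theorem mul_mem_nonunits_of_mem_right {a m : L} (ha : a ∈ A) (hm : m ∈ A.nonunits) :
    a * m ∈ A.nonunits := by
  rw [ValuationSubring.mem_nonunits_iff] at hm ⊢
  rw [map_mul]
  have h1 : A.valuation a ≤ 1 := (A.valuation_le_one_iff a).2 ha
  exact mul_lt_one_of_nonneg_of_lt_one_right h1 zero_le hm

/-- `𝔪` is stable under addition. -/
theorem add_mem_nonunits' {x y : L} (hx : x ∈ A.nonunits) (hy : y ∈ A.nonunits) :
    x + y ∈ A.nonunits := by
  rw [ValuationSubring.mem_nonunits_iff] at hx hy ⊢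
  exact lt_of_le_of_lt (Valuation.map_add _ _ _) (max_lt hx hy)

/-- Multiples of `q` lie in `𝔪`. -/
theorem intCast_mem_nonunits_of_dvd (hA : A.LiesOverPrime q) {n : ℤ} (h : (q : ℤ) ∣ n) :
    (n : L) ∈ A.nonunits := by
  obtain ⟨m, rfl⟩ := h
  have hq' : ((q : ℕ) : L) ∈ A.nonunits := hA
  have : (((q : ℤ) * m : ℤ) : L) = (m : L) * ((q : ℕ) : L) := by push_cast; ring
  rw [this]
  exact mul_mem_nonunits_of_mem_right A (intCast_mem A m) hq'

/-- Integers prime to `q` are units of `A`. -/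
theorem intCast_not_mem_nonunits_of_not_dvd (hq : q.Prime) (hA : A.LiesOverPrime q) {n : ℤ}
    (h : ¬ (q : ℤ) ∣ n) : (n : L) ∉ A.nonunits := by
  intro hn
  have hcop : IsCoprime (q : ℤ) n :=
    (Prime.coprime_iff_not_dvd (Nat.prime_iff_prime_int.mp hq)).mpr h
  obtain ⟨u, v, huv⟩ := hcop
  have h1 : (u : L) * ((q : ℕ) : L) + (v : L) * (n : L) = 1 := by
    have := congrArg (fun t : ℤ => (t : L)) huv
    simpa using this
  have hq' : ((q : ℕ) : L) ∈ A.nonunits := hA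
  have hmem : (u : L) * ((q : ℕ) : L) + (v : L) * (n : L) ∈ A.nonunits :=
    add_mem_nonunits' A (mul_mem_nonunits_of_mem_right A (intCast_mem A u) hq')
      (mul_mem_nonunits_of_mem_right A (intCast_mem A v) hn)
  rw [h1] at hmem
  exact one_not_mem_nonunits' A hmem

/-- **(a)** `(n : L) ∈ 𝔪 ↔ q ∣ n`. -/
theorem intCast_mem_nonunits_iff (hq : q.Prime) (hA : A.LiesOverPrime q) (n : ℤ) :
    (n : L) ∈ A.nonunits ↔ (q : ℤ) ∣ n :=
  ⟨fun h => by_contra fun hn => intCast_not_mem_nonunits_of_not_dvd A hq hA hn h,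
    fun h => intCast_mem_nonunits_of_dvd A hA h⟩

/-- **(a)** `v (n : L) = 1 ↔ ¬ q ∣ n`. -/
theorem valuation_intCast_eq_one_iff (hq : q.Prime) (hA : A.LiesOverPrime q) (n : ℤ) :
    A.valuation (n : L) = 1 ↔ ¬ (q : ℤ) ∣ n := by
  rw [← intCast_mem_nonunits_iff A hq hA, ValuationSubring.mem_nonunits_iff, not_lt]
  have h1 : A.valuation (n : L) ≤ 1 := (A.valuation_le_one_iff _).2 (intCast_mem A n)
  exact ⟨fun h => h.ge, fun h => le_antisymm h1 h⟩

/-- **(a)** `v (n : L) < 1 ↔ q ∣ n`. -/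
theorem valuation_intCast_lt_one_iff (hq : q.Prime) (hA : A.LiesOverPrime q) (n : ℤ) :
    A.valuation (n : L) < 1 ↔ (q : ℤ) ∣ n := by
  rw [← intCast_mem_nonunits_iff A hq hA, ValuationSubring.mem_nonunits_iff]

/-- **(a)** natural-number version. -/
theorem natCast_mem_nonunits_iff (hq : q.Prime) (hA : A.LiesOverPrime q) (n : ℕ) :
    (n : L) ∈ A.nonunits ↔ q ∣ n := by
  have := intCast_mem_nonunits_iff A hq hA (n : ℤ)
  rw [Int.natCast_dvd_natCast] at this
  simpa using this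

/-- **(a)** natural-number version. -/
theorem valuation_natCast_eq_one_iff (hq : q.Prime) (hA : A.LiesOverPrime q) (n : ℕ) :
    A.valuation (n : L) = 1 ↔ ¬ q ∣ n := by
  have := valuation_intCast_eq_one_iff A hq hA (n : ℤ)
  rw [Int.natCast_dvd_natCast] at this
  simpa using this

/-- `v 2 = 1` for odd `q`. -/
theorem valuation_two_eq_one (hq : q.Prime) (hA : A.LiesOverPrime q) (hq2 : q ≠ 2) :
    A.valuation (2 : L) = 1 := by
  have := (valuation_natCast_eq_one_iff A hq hA 2).2 (fun h =>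
    hq2 ((Nat.prime_dvd_prime_iff_eq hq Nat.prime_two).1 h))
  simpa using this

/-- `v 4 = 1` for odd `q`. -/
theorem valuation_four_eq_one (hq : q.Prime) (hA : A.LiesOverPrime q) (hq2 : q ≠ 2) :
    A.valuation (4 : L) = 1 := by
  have h2 := valuation_two_eq_one A hq hA hq2
  have : (4 : L) = 2 * 2 := by norm_num
  rw [this, map_mul, h2, one_mul]

/-- `v 8 = 1` for odd `q`. -/
theorem valuation_eight_eq_one (hq : q.Prime) (hA : A.LiesOverPrime q) (hq2 : q ≠ 2) :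
    A.valuation (8 : L) = 1 := by
  have h2 := valuation_two_eq_one A hq hA hq2
  have : (8 : L) = 2 * 2 * 2 := by norm_num
  rw [this, map_mul, map_mul, h2, one_mul, one_mul]

/-- `v 16 = 1` for odd `q`. -/
theorem valuation_sixteen_eq_one (hq : q.Prime) (hA : A.LiesOverPrime q) (hq2 : q ≠ 2) :
    A.valuation (16 : L) = 1 := by
  have h4 := valuation_four_eq_one A hq hA hq2
  have : (16 : L) = 4 * 4 := by norm_num
  rw [this, map_mul, h4, one_mul]

/-- `v p = 1` for a prime `p ≠ q`. -/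
theorem valuation_prime_eq_one (hq : q.Prime) (hA : A.LiesOverPrime q) {p : ℕ} (hp : p.Prime)
    (hqp : q ≠ p) : A.valuation (p : L) = 1 :=
  (valuation_natCast_eq_one_iff A hq hA p).2 (fun h =>
    hqp ((Nat.prime_dvd_prime_iff_eq hq hp).1 h))

/-- Powers: `v (n ^ k) = 1` if `q ∤ n`. -/
theorem valuation_intCast_pow_eq_one (hq : q.Prime) (hA : A.LiesOverPrime q) {n : ℤ}
    (h : ¬ (q : ℤ) ∣ n) (k : ℕ) : A.valuation ((n : L) ^ k) = 1 := by
  rw [map_pow, (valuation_intCast_eq_one_iff A hq hA n).2 h, one_pow]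

/-- Powers: `v (n ^ k) < 1` if `q ∣ n` and `k ≠ 0`. -/
theorem valuation_intCast_pow_lt_one (hq : q.Prime) (hA : A.LiesOverPrime q) {n : ℤ}
    (h : (q : ℤ) ∣ n) {k : ℕ} (hk : k ≠ 0) : A.valuation ((n : L) ^ k) < 1 := by
  rw [map_pow]
  exact pow_lt_one₀ zero_le ((valuation_intCast_lt_one_iff A hq hA n).2 h) hk

/-- Dividing by a unit of `A` does not change the valuation. -/
theorem valuation_div_of_eq_one {x u : L} (hu : A.valuation u = 1) :
    A.valuation (x / u) = A.valuation x := by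
  rw [map_div₀, hu, div_one]

end IntCast

section Galois

variable {L : Type*} [Field L] [Algebra ℚ L]

/-- **(e)** Galois fixes rational numbers. -/
theorem galois_fixes_rat (σ : L ≃ₐ[ℚ] L) (r : ℚ) :
    σ (algebraMap ℚ L r) = algebraMap ℚ L r := σ.commutes r

/-- **(e)** Galois fixes integers. -/
theorem galois_fixes_int (σ : L ≃ₐ[ℚ] L) (n : ℤ) : σ (n : L) = (n : L) := map_intCast σ n

/-- **(e)** Galois fixes natural numbers. -/
theorem galois_fixes_nat (σ : L ≃ₐ[ℚ] L) (n : ℕ) : σ (n : L) = (n : L) := map_natCast σ n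

end Galois

section Frey

variable (P : FreyPackage) (L : Type*) [Field L] [Algebra ℚ L]

/-- The Frey curve base-changed to `L` (this is what `P.freyCurve⁄L` unfolds to). -/
theorem frey_baseChange_eq :
    (P.freyCurve.baseChange L) = P.freyCurve.map (algebraMap ℚ L) := rfl

/-- `L` has characteristic zero (it is a `ℚ`-algebra). -/
theorem charZero_of_algebraRat : CharZero L := algebraRat.charZero L

/-- **(b)** `a₁ = 1`. -/
theorem frey_a₁ : (P.freyCurve.baseChange L).a₁ = 1 := by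
  simp [WeierstrassCurve.baseChange, FreyPackage.freyCurve]

/-- **(b)** `a₂ = (b^p - 1 - a^p) / 4`. -/
theorem frey_a₂ :
    (P.freyCurve.baseChange L).a₂ = ((P.b : L) ^ P.p - 1 - (P.a : L) ^ P.p) / 4 := by
  have := charZero_of_algebraRat L
  simp only [WeierstrassCurve.baseChange, FreyPackage.freyCurve, WeierstrassCurve.map_a₂,
    eq_ratCast]
  push_cast
  ring

/-- **(b)** `a₃ = 0`. -/
theorem frey_a₃ : (P.freyCurve.baseChange L).a₃ = 0 := by
  simp [WeierstrassCurve.baseChange, FreyPackage.freyCurve]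

/-- **(b)** `a₄ = -(a^p b^p) / 16`. -/
theorem frey_a₄ :
    (P.freyCurve.baseChange L).a₄ = -((P.a : L) ^ P.p) * (P.b : L) ^ P.p / 16 := by
  have := charZero_of_algebraRat L
  simp only [WeierstrassCurve.baseChange, FreyPackage.freyCurve, WeierstrassCurve.map_a₄,
    eq_ratCast]
  push_cast
  ring

/-- **(b)** `a₆ = 0`. -/
theorem frey_a₆ : (P.freyCurve.baseChange L).a₆ = 0 := by
  simp [WeierstrassCurve.baseChange, FreyPackage.freyCurve]

/-- **(c)** `b₂ = b^p - a^p`. -/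
theorem frey_b₂ : (P.freyCurve.baseChange L).b₂ = (P.b : L) ^ P.p - (P.a : L) ^ P.p := by
  have := charZero_of_algebraRat L
  rw [WeierstrassCurve.b₂, frey_a₁, frey_a₂]
  field_simp
  ring

/-- **(c)** `b₄ = -(a^p b^p) / 8`. -/
theorem frey_b₄ : (P.freyCurve.baseChange L).b₄ = -((P.a : L) ^ P.p) * (P.b : L) ^ P.p / 8 := by
  have := charZero_of_algebraRat L
  rw [WeierstrassCurve.b₄, frey_a₁, frey_a₃, frey_a₄]
  field_simp
  ring

/-- **(c)** `b₆ = 0`. -/
theorem frey_b₆ : (P.freyCurve.baseChange L).b₆ = 0 := by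
  rw [WeierstrassCurve.b₆, frey_a₃, frey_a₆]
  ring

/-- **(c)** `b₈ = -(a^p b^p)² / 256`. -/
theorem frey_b₈ :
    (P.freyCurve.baseChange L).b₈ = -(((P.a : L) ^ P.p) * (P.b : L) ^ P.p) ^ 2 / 256 := by
  have := charZero_of_algebraRat L
  rw [WeierstrassCurve.b₈, frey_a₁, frey_a₂, frey_a₃, frey_a₄, frey_a₆]
  field_simp
  ring

/-- **(d)** the Fermat equation in `L`. -/
theorem frey_flt_cast : (P.a : L) ^ P.p + (P.b : L) ^ P.p = (P.c : L) ^ P.p := by
  have := congrArg (fun t : ℤ => (t : L)) P.hFLT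
  simpa using this

/-- **(c)** the cubic of the Frey curve: `cub x = 4 x (x - a^p/4) (x + b^p/4)`. -/
theorem frey_cub (x : L) :
    cub (P.freyCurve.baseChange L) x =
      4 * x * (x - (P.a : L) ^ P.p / 4) * (x + (P.b : L) ^ P.p / 4) := by
  have := charZero_of_algebraRat L
  rw [cub, frey_b₂, frey_b₄, frey_b₆]
  field_simp
  ring

/-- **(c)** the cubic in the shape `4 (x - r₁) (x - r₁ - e₂) (x - r₁ - e₃)`,
instance `(r₁, e₂, e₃) = (0, a^p/4, -b^p/4)` (used when `q ∣ a`). -/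
theorem frey_cub_a (x : L) :
    cub (P.freyCurve.baseChange L) x =
      4 * (x - 0) * (x - 0 - (P.a : L) ^ P.p / 4) * (x - 0 - (-((P.b : L) ^ P.p) / 4)) := by
  rw [frey_cub]; ring

/-- **(c)** instance `(r₁, e₂, e₃) = (0, -b^p/4, a^p/4)` (used when `q ∣ b`). -/
theorem frey_cub_b (x : L) :
    cub (P.freyCurve.baseChange L) x =
      4 * (x - 0) * (x - 0 - (-((P.b : L) ^ P.p) / 4)) * (x - 0 - (P.a : L) ^ P.p / 4) := by
  rw [frey_cub]; ring

/-- **(c)** instance `(r₁, e₂, e₃) = (a^p/4, -c^p/4, -a^p/4)` (used when `q ∣ c`). -/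
theorem frey_cub_c (x : L) :
    cub (P.freyCurve.baseChange L) x =
      4 * (x - (P.a : L) ^ P.p / 4) * (x - (P.a : L) ^ P.p / 4 - (-((P.c : L) ^ P.p) / 4)) *
        (x - (P.a : L) ^ P.p / 4 - (-((P.a : L) ^ P.p) / 4)) := by
  rw [frey_cub, ← frey_flt_cast P L]; ring

variable {L}

/-- **(b)** all coefficients of the Frey curve lie in a valuation subring over an odd prime. -/
theorem frey_coeff_mem (A : ValuationSubring L) {q : ℕ} (hq : q.Prime) (hq2 : q ≠ 2)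
    (hA : A.LiesOverPrime q) :
    (P.freyCurve.baseChange L).a₁ ∈ A ∧ (P.freyCurve.baseChange L).a₂ ∈ A ∧
      (P.freyCurve.baseChange L).a₃ ∈ A ∧ (P.freyCurve.baseChange L).a₄ ∈ A ∧
      (P.freyCurve.baseChange L).a₆ ∈ A := by
  have h4 := valuation_four_eq_one A hq hA hq2
  have h16 := valuation_sixteen_eq_one A hq hA hq2
  have ha : (P.a : L) ∈ A := intCast_mem A P.a
  have hb : (P.b : L) ∈ A := intCast_mem A P.b
  refine ⟨?_, ?_, ?_, ?_, ?_⟩
  · rw [frey_a₁]; exact one_mem A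
  · rw [frey_a₂, ← A.valuation_le_one_iff, valuation_div_of_eq_one A h4, A.valuation_le_one_iff]
    exact sub_mem (sub_mem (pow_mem hb _) (one_mem A)) (pow_mem ha _)
  · rw [frey_a₃]; exact zero_mem A
  · rw [frey_a₄, ← A.valuation_le_one_iff, valuation_div_of_eq_one A h16, A.valuation_le_one_iff]
    exact mul_mem (neg_mem (pow_mem ha _)) (pow_mem hb _)
  · rw [frey_a₆]; exact zero_mem A

/-- **(b)** the `b`-invariants of the Frey curve lie in `A`. -/
theorem frey_b_mem (A : ValuationSubring L) {q : ℕ} (hq : q.Prime) (hq2 : q ≠ 2)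
    (hA : A.LiesOverPrime q) :
    (P.freyCurve.baseChange L).b₂ ∈ A ∧ (P.freyCurve.baseChange L).b₄ ∈ A ∧
      (P.freyCurve.baseChange L).b₆ ∈ A ∧ (P.freyCurve.baseChange L).b₈ ∈ A := by
  obtain ⟨h1, h2, h3, h4, h6⟩ := frey_coeff_mem P A hq hq2 hA
  have hn : ∀ n : ℕ, (n : L) ∈ A := fun n => natCast_mem A n
  have two : (2 : L) ∈ A := by simpa using hn 2
  have four : (4 : L) ∈ A := by simpa using hn 4
  refine ⟨?_, ?_, ?_, ?_⟩
  · rw [WeierstrassCurve.b₂]
    exact add_mem (pow_mem h1 _) (mul_mem four h2)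
  · rw [WeierstrassCurve.b₄]
    exact add_mem (mul_mem two h4) (mul_mem h1 h3)
  · rw [WeierstrassCurve.b₆]
    exact add_mem (pow_mem h3 _) (mul_mem four h6)
  · rw [WeierstrassCurve.b₈]
    exact sub_mem (add_mem (sub_mem (add_mem (mul_mem (pow_mem h1 _) h6)
      (mul_mem (mul_mem four h2) h6)) (mul_mem (mul_mem h1 h3) h4)) (mul_mem h2 (pow_mem h3 _)))
      (pow_mem h4 _)

end Frey

section Coprime

variable (P : FreyPackage)

/-- A prime cannot divide two coprime integers. -/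
theorem not_dvd_of_gcd_eq_one {x y : ℤ} (h : gcd x y = 1) {q : ℕ} (hq : q.Prime)
    (hx : (q : ℤ) ∣ x) : ¬ (q : ℤ) ∣ y := by
  intro hy
  have h1 : (q : ℤ) ∣ gcd x y := dvd_gcd hx hy
  rw [h] at h1
  have h2 : (q : ℤ) ≤ 1 := Int.le_of_dvd one_pos h1
  have := hq.two_le
  omega

/-- **(d)** if `q ∣ a` then `q ∤ b` and `q ∤ c`. -/
theorem frey_not_dvd_of_dvd_a {q : ℕ} (hq : q.Prime) (h : (q : ℤ) ∣ P.a) :
    ¬ (q : ℤ) ∣ P.b ∧ ¬ (q : ℤ) ∣ P.c :=
  ⟨not_dvd_of_gcd_eq_one P.hgcdab hq h, not_dvd_of_gcd_eq_one P.hgcdac hq h⟩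

/-- **(d)** if `q ∣ b` then `q ∤ a` and `q ∤ c`. -/
theorem frey_not_dvd_of_dvd_b {q : ℕ} (hq : q.Prime) (h : (q : ℤ) ∣ P.b) :
    ¬ (q : ℤ) ∣ P.a ∧ ¬ (q : ℤ) ∣ P.c :=
  ⟨fun ha => not_dvd_of_gcd_eq_one P.hgcdab hq ha h, not_dvd_of_gcd_eq_one P.hgcdbc hq h⟩

/-- **(d)** if `q ∣ c` then `q ∤ a` and `q ∤ b`. -/
theorem frey_not_dvd_of_dvd_c {q : ℕ} (hq : q.Prime) (h : (q : ℤ) ∣ P.c) :
    ¬ (q : ℤ) ∣ P.a ∧ ¬ (q : ℤ) ∣ P.b :=
  ⟨fun ha => not_dvd_of_gcd_eq_one P.hgcdac hq ha h,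
    fun hb => not_dvd_of_gcd_eq_one P.hgcdbc hq hb h⟩

/-- **(d)** the four cases at a prime `q`: good reduction, or exactly one of `a, b, c` is
divisible by `q`. -/
theorem frey_cases {q : ℕ} (hq : q.Prime) :
    (¬ (q : ℤ) ∣ P.a ∧ ¬ (q : ℤ) ∣ P.b ∧ ¬ (q : ℤ) ∣ P.c) ∨
    ((q : ℤ) ∣ P.a ∧ ¬ (q : ℤ) ∣ P.b ∧ ¬ (q : ℤ) ∣ P.c) ∨
    (¬ (q : ℤ) ∣ P.a ∧ (q : ℤ) ∣ P.b ∧ ¬ (q : ℤ) ∣ P.c) ∨
    (¬ (q : ℤ) ∣ P.a ∧ ¬ (q : ℤ) ∣ P.b ∧ (q : ℤ) ∣ P.c) := by
  by_cases ha : (q : ℤ) ∣ P.a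
  · exact Or.inr (Or.inl ⟨ha, frey_not_dvd_of_dvd_a P hq ha⟩)
  by_cases hb : (q : ℤ) ∣ P.b
  · exact Or.inr (Or.inr (Or.inl ⟨ha, hb, (frey_not_dvd_of_dvd_b P hq hb).2⟩))
  by_cases hc : (q : ℤ) ∣ P.c
  · exact Or.inr (Or.inr (Or.inr ⟨ha, hb, hc⟩))
  · exact Or.inl ⟨ha, hb, hc⟩

end Coprime

section FreyValuations

variable (P : FreyPackage) {L : Type*} [Field L] [Algebra ℚ L] (A : ValuationSubring L) {q : ℕ}

/-- `v (n^p / 4) = 1` when `q ∤ n` (`q` odd). -/
theorem valuation_pow_div_four_eq_one (hq : q.Prime) (hq2 : q ≠ 2) (hA : A.LiesOverPrime q)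
    {n : ℤ} (h : ¬ (q : ℤ) ∣ n) (k : ℕ) : A.valuation ((n : L) ^ k / 4) = 1 := by
  rw [valuation_div_of_eq_one A (valuation_four_eq_one A hq hA hq2),
    valuation_intCast_pow_eq_one A hq hA h]

/-- `v (-(n^p) / 4) = 1` when `q ∤ n` (`q` odd). -/
theorem valuation_neg_pow_div_four_eq_one (hq : q.Prime) (hq2 : q ≠ 2) (hA : A.LiesOverPrime q)
    {n : ℤ} (h : ¬ (q : ℤ) ∣ n) (k : ℕ) : A.valuation (-((n : L) ^ k) / 4) = 1 := by
  rw [valuation_div_of_eq_one A (valuation_four_eq_one A hq hA hq2), Valuation.map_neg,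
    valuation_intCast_pow_eq_one A hq hA h]

/-- `0 < v (n^p / 4) < 1` when `q ∣ n`, `n ≠ 0`, `k ≠ 0` (`q` odd). -/
theorem valuation_pow_div_four_lt_one (hq : q.Prime) (hq2 : q ≠ 2) (hA : A.LiesOverPrime q)
    {n : ℤ} (hn : n ≠ 0) (h : (q : ℤ) ∣ n) {k : ℕ} (hk : k ≠ 0) :
    A.valuation ((n : L) ^ k / 4) ≠ 0 ∧ A.valuation ((n : L) ^ k / 4) < 1 := by
  have := charZero_of_algebraRat L
  rw [valuation_div_of_eq_one A (valuation_four_eq_one A hq hA hq2)]
  refine ⟨?_, valuation_intCast_pow_lt_one A hq hA h hk⟩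
  rw [Valuation.ne_zero_iff]
  exact pow_ne_zero _ (by exact_mod_cast hn)

/-- `0 < v (-(n^p) / 4) < 1` when `q ∣ n`, `n ≠ 0`, `k ≠ 0` (`q` odd). -/
theorem valuation_neg_pow_div_four_lt_one (hq : q.Prime) (hq2 : q ≠ 2) (hA : A.LiesOverPrime q)
    {n : ℤ} (hn : n ≠ 0) (h : (q : ℤ) ∣ n) {k : ℕ} (hk : k ≠ 0) :
    A.valuation (-((n : L) ^ k) / 4) ≠ 0 ∧ A.valuation (-((n : L) ^ k) / 4) < 1 := by
  have := valuation_pow_div_four_lt_one A hq hq2 hA hn h hk
  rw [neg_div, Valuation.map_neg]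
  exact this

end FreyValuations

end Fermat.Agent.S05
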