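import Mathlib
import Fermat.Prelude.Def_FLTPrelim_GaloisRep
import Fermat.Prelude.Def_FLTPrelim_Ramification

/-!
# S05, piece I: inertia plumbing

For a valuation subring `A` of `L` and `σ` in the inertia subgroup (in the prelude's sense
`A.inertiaSubgroupIn K`, a subgroup of `L ≃ₐ[K] L`):

* `σ x ∈ A ↔ x ∈ A`, `σ x ∈ A.nonunits ↔ x ∈ A.nonunits`;
* `σ x - x ∈ A.nonunits` for `x ∈ A`;
* `A.valuation (σ x) = A.valuation x` when `L / K` is algebraic;
* the Galois action on points is coordinatewise.
-/

set_option autoImplicit false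

open scoped Pointwise

namespace Fermat.Agent.S05

section Decomposition

variable {K L : Type*} [Field K] [Field L] [Algebra K L]

/-- Elements of the decomposition group stabilise `A` as a set. -/
theorem apply_mem_of_mem_decomposition {A : ValuationSubring L} {σ : L ≃ₐ[K] L}
    (hσ : σ ∈ A.decompositionSubgroup K) {x : L} (hx : x ∈ A) : σ x ∈ A := by
  have h1 : σ • A = A := hσ
  have h2 : σ • x ∈ σ • A := ValuationSubring.smul_mem_pointwise_smul σ x A hx
  rw [h1] at h2
  exact h2

/-- Membership in `A` is invariant under the decomposition group. -/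
theorem apply_mem_iff_of_mem_decomposition {A : ValuationSubring L} {σ : L ≃ₐ[K] L}
    (hσ : σ ∈ A.decompositionSubgroup K) (x : L) : σ x ∈ A ↔ x ∈ A := by
  refine ⟨fun h => ?_, fun h => apply_mem_of_mem_decomposition hσ h⟩
  have hinv : σ⁻¹ ∈ A.decompositionSubgroup K := Subgroup.inv_mem _ hσ
  have := apply_mem_of_mem_decomposition hinv h
  simpa using this

/-- Units of `A` are preserved by the decomposition group. -/
theorem apply_mem_nonunits_iff_of_mem_decomposition {A : ValuationSubring L} {σ : L ≃ₐ[K] L}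
    (hσ : σ ∈ A.decompositionSubgroup K) (x : L) : σ x ∈ A.nonunits ↔ x ∈ A.nonunits := by
  rw [ValuationSubring.mem_nonunits_iff_or, ValuationSubring.mem_nonunits_iff_or, ← map_inv₀,
    apply_mem_iff_of_mem_decomposition hσ]
  simp

end Decomposition

section Inertia

variable {K L : Type*} [Field K] [Field L] [Algebra K L]

/-- The prelude's inertia subgroup lies in the decomposition subgroup. -/
theorem mem_decomposition_of_mem_inertiaIn {A : ValuationSubring L} {σ : L ≃ₐ[K] L}
    (hσ : σ ∈ A.inertiaSubgroupIn K) : σ ∈ A.decompositionSubgroup K := by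
  obtain ⟨τ, -, rfl⟩ := hσ
  exact τ.2

/-- `σ x ∈ A ↔ x ∈ A` for `σ` in the inertia subgroup. -/
theorem inertia_apply_mem_iff {A : ValuationSubring L} {σ : L ≃ₐ[K] L}
    (hσ : σ ∈ A.inertiaSubgroupIn K) (x : L) : σ x ∈ A ↔ x ∈ A :=
  apply_mem_iff_of_mem_decomposition (mem_decomposition_of_mem_inertiaIn hσ) x

/-- `σ x ∈ 𝔪 ↔ x ∈ 𝔪` for `σ` in the inertia subgroup. -/
theorem inertia_apply_mem_nonunits_iff {A : ValuationSubring L} {σ : L ≃ₐ[K] L}
    (hσ : σ ∈ A.inertiaSubgroupIn K) (x : L) : σ x ∈ A.nonunits ↔ x ∈ A.nonunits :=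
  apply_mem_nonunits_iff_of_mem_decomposition (mem_decomposition_of_mem_inertiaIn hσ) x

/-- Inertia acts trivially on the residue field: `σ x - x ∈ 𝔪` for `x ∈ A`. -/
theorem inertia_apply_sub_mem_nonunits {A : ValuationSubring L} {σ : L ≃ₐ[K] L}
    (hσ : σ ∈ A.inertiaSubgroupIn K) {x : L} (hx : x ∈ A) : σ x - x ∈ A.nonunits := by
  obtain ⟨τ, hτ, rfl⟩ := hσ
  -- `τ` acts trivially on the residue field
  have h1 : MulSemiringAction.toRingAut (A.decompositionSubgroup K) (IsLocalRing.ResidueField A) τ
      = 1 := hτ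
  have h2 : τ • (IsLocalRing.residue A ⟨x, hx⟩) = IsLocalRing.residue A ⟨x, hx⟩ := by
    have := congrArg (fun f : RingAut (IsLocalRing.ResidueField A) =>
      f (IsLocalRing.residue A ⟨x, hx⟩)) h1
    simpa using this
  have h3 : IsLocalRing.residue A (τ • (⟨x, hx⟩ : A)) = IsLocalRing.residue A ⟨x, hx⟩ := h2
  have h4 : IsLocalRing.residue A (τ • (⟨x, hx⟩ : A) - ⟨x, hx⟩) = 0 := by
    rw [map_sub, h3, sub_self]
  have h5 : (τ • (⟨x, hx⟩ : A) - ⟨x, hx⟩) ∈ IsLocalRing.maximalIdeal A :=
    (IsLocalRing.residue_eq_zero_iff _).1 h4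
  have h6 : ((τ • (⟨x, hx⟩ : A) - ⟨x, hx⟩ : A) : L) ∈ A.nonunits := by
    rw [ValuationSubring.mem_nonunits_iff_exists_mem_maximalIdeal]
    exact ⟨(τ • (⟨x, hx⟩ : A) - ⟨x, hx⟩ : A).2, h5⟩
  exact h6

/-- The inertia subgroup (prelude form) is closed under inverses. -/
theorem inv_mem_inertiaIn {A : ValuationSubring L} {σ : L ≃ₐ[K] L}
    (hσ : σ ∈ A.inertiaSubgroupIn K) : σ⁻¹ ∈ A.inertiaSubgroupIn K :=
  Subgroup.inv_mem _ hσ

end Inertia

section Valuation

variable {K L : Type*} [Field K] [Field L] [Algebra K L]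

/-- `v z = 1` iff `z ∈ A` and `z ∉ 𝔪`. -/
theorem valuation_eq_one_iff_mem_not_mem (A : ValuationSubring L) (z : L) :
    A.valuation z = 1 ↔ z ∈ A ∧ z ∉ A.nonunits := by
  rw [← A.valuation_le_one_iff, ValuationSubring.mem_nonunits_iff, not_lt]
  exact ⟨fun h => ⟨h.le, h.ge⟩, fun h => le_antisymm h.1 h.2⟩

/-- The decomposition group preserves the units of `A`. -/
theorem valuation_apply_eq_one_iff {A : ValuationSubring L} {σ : L ≃ₐ[K] L}
    (hσ : σ ∈ A.decompositionSubgroup K) (z : L) :
    A.valuation (σ z) = 1 ↔ A.valuation z = 1 := by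
  rw [valuation_eq_one_iff_mem_not_mem, valuation_eq_one_iff_mem_not_mem,
    apply_mem_iff_of_mem_decomposition hσ, apply_mem_nonunits_iff_of_mem_decomposition hσ]

/-- A nonzero algebraic element has a positive power whose valuation is the valuation of a
nonzero element of the base field. -/
theorem exists_pow_valuation_eq_algebraMap (A : ValuationSubring L) {x : L} (hx : x ≠ 0)
    (halg : IsAlgebraic K x) :
    ∃ n : ℕ, 0 < n ∧ ∃ c : K, c ≠ 0 ∧ A.valuation (x ^ n) = A.valuation (algebraMap K L c) := by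
  classical
  obtain ⟨P, hP0, hPx⟩ := halg
  set f : ℕ → L := fun i => algebraMap K L (P.coeff i) * x ^ i with hf
  have hsum : ∑ i ∈ P.support, f i = 0 := by
    rw [← hPx, Polynomial.aeval_def, Polynomial.eval₂_eq_sum, Polynomial.sum_def]
  have hne : P.support.Nonempty := Polynomial.support_nonempty.mpr hP0
  have hfne : ∀ i ∈ P.support, f i ≠ 0 := by
    intro i hi
    have hc : P.coeff i ≠ 0 := Polynomial.mem_support_iff.1 hi
    have : algebraMap K L (P.coeff i) ≠ 0 := by
      simpa using hc
    exact mul_ne_zero this (pow_ne_zero _ hx)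
  obtain ⟨j, hj, hjmax⟩ := Finset.exists_max_image P.support (fun i => A.valuation (f i)) hne
  -- some other term has the same valuation
  have hex : ∃ i ∈ P.support, i ≠ j ∧ A.valuation (f i) = A.valuation (f j) := by
    by_contra hcon
    push Not at hcon
    have hlt : ∀ i ∈ P.support \ {j}, A.valuation (f i) < A.valuation (f j) := by
      intro i hi
      rw [Finset.mem_sdiff, Finset.mem_singleton] at hi
      exact lt_of_le_of_ne (hjmax i hi.1) (hcon i hi.1 hi.2)
    have := Valuation.map_sum_eq_of_lt A.valuation hj hlt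
    rw [hsum, map_zero] at this
    exact (Valuation.ne_zero_iff _).2 (hfne j hj) this.symm
  obtain ⟨i, hi, hij, hval⟩ := hex
  have hci : P.coeff i ≠ 0 := Polynomial.mem_support_iff.1 hi
  have hcj : P.coeff j ≠ 0 := Polynomial.mem_support_iff.1 hj
  have hvx : A.valuation x ≠ 0 := (Valuation.ne_zero_iff _).2 hx
  have hvci : A.valuation (algebraMap K L (P.coeff i)) ≠ 0 :=
    (Valuation.ne_zero_iff _).2 (by simpa using hci)
  have hvcj : A.valuation (algebraMap K L (P.coeff j)) ≠ 0 :=
    (Valuation.ne_zero_iff _).2 (by simpa using hcj)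
  simp only [hf, map_mul, map_pow] at hval
  -- general statement for `a < b`
  have key : ∀ a b : ℕ, a < b → ∀ ca cb : K, ca ≠ 0 → cb ≠ 0 →
      A.valuation (algebraMap K L ca) * A.valuation x ^ a =
        A.valuation (algebraMap K L cb) * A.valuation x ^ b →
      ∃ n : ℕ, 0 < n ∧ ∃ c : K, c ≠ 0 ∧
        A.valuation (x ^ n) = A.valuation (algebraMap K L c) := by
    intro a b hab ca cb hca hcb h
    refine ⟨b - a, Nat.sub_pos_of_lt hab, ca / cb, div_ne_zero hca hcb, ?_⟩
    have hvcb : A.valuation (algebraMap K L cb) ≠ 0 :=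
      (Valuation.ne_zero_iff _).2 (by simpa using hcb)
    have hb : b = (b - a) + a := by omega
    rw [hb, pow_add] at h
    rw [map_pow, map_div₀, map_div₀]
    have hxa : A.valuation x ^ a ≠ 0 := pow_ne_zero _ hvx
    -- cancel `v x ^ a`
    have h2 : A.valuation (algebraMap K L ca) =
        A.valuation (algebraMap K L cb) * A.valuation x ^ (b - a) := by
      have h3 : A.valuation (algebraMap K L ca) * A.valuation x ^ a =
          (A.valuation (algebraMap K L cb) * A.valuation x ^ (b - a)) * A.valuation x ^ a := by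
        rw [h, mul_assoc]
      exact mul_right_cancel₀ hxa h3
    rw [h2, mul_div_assoc, mul_comm, div_mul_cancel₀]
    · exact hvcb
  rcases Nat.lt_or_gt_of_ne hij with h | h
  · exact key i j h _ _ hci hcj hval
  · exact key j i h _ _ hcj hci hval.symm

/-- **The decomposition group preserves the valuation** (for `L / K` algebraic). -/
theorem valuation_apply_of_mem_decomposition [Algebra.IsAlgebraic K L]
    {A : ValuationSubring L} {σ : L ≃ₐ[K] L}
    (hσ : σ ∈ A.decompositionSubgroup K) (x : L) :
    A.valuation (σ x) = A.valuation x := by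
  by_cases hx : x = 0
  · subst hx; simp
  obtain ⟨n, hn, c, hc, hval⟩ :=
    exists_pow_valuation_eq_algebraMap (K := K) A hx (Algebra.IsAlgebraic.isAlgebraic x)
  have hcL : algebraMap K L c ≠ 0 := by simpa using hc
  have hvc : A.valuation (algebraMap K L c) ≠ 0 := (Valuation.ne_zero_iff _).2 hcL
  -- `z := x ^ n / c` is a unit of `A`
  have hz : A.valuation (x ^ n / algebraMap K L c) = 1 := by
    rw [map_div₀, hval, div_self hvc]
  have hσz : A.valuation (σ (x ^ n / algebraMap K L c)) = 1 :=
    (valuation_apply_eq_one_iff hσ _).2 hz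
  rw [map_div₀, map_pow, AlgEquiv.commutes, map_div₀, div_eq_one_iff_eq hvc, ← hval] at hσz
  rw [map_pow, map_pow] at hσz
  exact pow_left_injective hn.ne' hσz

/-- **Inertia preserves the valuation** (for `L / K` algebraic). -/
theorem inertia_valuation_apply [Algebra.IsAlgebraic K L]
    {A : ValuationSubring L} {σ : L ≃ₐ[K] L}
    (hσ : σ ∈ A.inertiaSubgroupIn K) (x : L) :
    A.valuation (σ x) = A.valuation x :=
  valuation_apply_of_mem_decomposition (mem_decomposition_of_mem_inertiaIn hσ) x

/-- For `σ` in the decomposition group and `x ≠ 0`, the quotient `σ x / x` is a unit of `A`. -/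
theorem valuation_apply_div_self [Algebra.IsAlgebraic K L]
    {A : ValuationSubring L} {σ : L ≃ₐ[K] L}
    (hσ : σ ∈ A.decompositionSubgroup K) {x : L} (hx : x ≠ 0) :
    A.valuation (σ x / x) = 1 := by
  rw [map_div₀, valuation_apply_of_mem_decomposition hσ,
    div_self ((Valuation.ne_zero_iff _).2 hx)]

/-- If `x` has the valuation of a nonzero element of the base field, inertia moves `x` by
something strictly smaller: `v (σ x - x) < v x`. -/
theorem inertia_valuation_apply_sub_lt {A : ValuationSubring L} {σ : L ≃ₐ[K] L}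
    (hσ : σ ∈ A.inertiaSubgroupIn K) {x : L} {c : K} (hc : c ≠ 0)
    (hxc : A.valuation x = A.valuation (algebraMap K L c)) :
    A.valuation (σ x - x) < A.valuation x := by
  have hcL : algebraMap K L c ≠ 0 := by simpa using hc
  have hvc : A.valuation (algebraMap K L c) ≠ 0 := (Valuation.ne_zero_iff _).2 hcL
  have hu : A.valuation (x / algebraMap K L c) = 1 := by
    rw [map_div₀, hxc, div_self hvc]
  have huA : x / algebraMap K L c ∈ A := ((valuation_eq_one_iff_mem_not_mem A _).1 hu).1
  have h1 := inertia_apply_sub_mem_nonunits hσ huA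
  rw [map_div₀, AlgEquiv.commutes, ← sub_div, ValuationSubring.mem_nonunits_iff, map_div₀,
    div_lt_one₀ (zero_lt_iff.mpr hvc)] at h1
  rw [hxc]
  exact h1

/-- Inertia moves a unit `u` of `A` by an element of `𝔪`; hence `σ u / u ∈ 1 + 𝔪`. -/
theorem inertia_apply_div_sub_one_mem_nonunits {A : ValuationSubring L} {σ : L ≃ₐ[K] L}
    (hσ : σ ∈ A.inertiaSubgroupIn K) {u : L} (hu : A.valuation u = 1) :
    σ u / u - 1 ∈ A.nonunits := by
  have hu0 : u ≠ 0 := by
    rintro rfl
    simp at hu
  have huA : u ∈ A := ((valuation_eq_one_iff_mem_not_mem A _).1 hu).1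
  have h1 := inertia_apply_sub_mem_nonunits hσ huA
  rw [ValuationSubring.mem_nonunits_iff] at h1 ⊢
  have : σ u / u - 1 = (σ u - u) / u := by field_simp
  rw [this, map_div₀, hu, div_one]
  exact h1

end Valuation

section Rat

/-- `ℚ̄ / ℚ` is algebraic, for ANY `ℚ`-algebra structure on `ℚ̄` (the frozen statements
elaborate to `DivisionRing.toRatAlgebra`, for which instance search does not find this). -/
theorem isAlgebraic_rat_qbar_of (inst : Algebra ℚ (AlgebraicClosure ℚ)) :
    @Algebra.IsAlgebraic ℚ (AlgebraicClosure ℚ) _ _ inst := by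
  have h : inst = AlgebraicClosure.instAlgebra ℚ := Subsingleton.elim _ _
  subst h
  infer_instance

/-- `ℚ̄ / ℚ` is algebraic (default instance of this file). -/
theorem isAlgebraic_rat_qbar : Algebra.IsAlgebraic ℚ (AlgebraicClosure ℚ) :=
  isAlgebraic_rat_qbar_of _

/-- Combined form over `ℚ̄ / ℚ`, as requested for S05; generic in the `ℚ`-algebra instance. -/
theorem inertia_mem_iff [inst : Algebra ℚ (AlgebraicClosure ℚ)]
    {A : ValuationSubring (AlgebraicClosure ℚ)}
    {σ : AlgebraicClosure ℚ ≃ₐ[ℚ] AlgebraicClosure ℚ} (hσ : σ ∈ A.inertiaSubgroupIn ℚ) :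
    (∀ x, x ∈ A ↔ σ x ∈ A) ∧ (∀ x ∈ A, σ x - x ∈ A.nonunits) ∧
      (∀ x, x ∈ A.nonunits ↔ σ x ∈ A.nonunits) ∧
      (∀ x, A.valuation (σ x) = A.valuation x) :=
  ⟨fun x => (inertia_apply_mem_iff hσ x).symm,
    fun _ hx => inertia_apply_sub_mem_nonunits hσ hx,
    fun x => (inertia_apply_mem_nonunits_iff hσ x).symm,
    fun x => haveI := isAlgebraic_rat_qbar_of inst; inertia_valuation_apply hσ x⟩

end Rat

section Points

open WeierstrassCurve WeierstrassCurve.Affine WeierstrassCurve.Affine.Point

universe r s v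

variable {R : Type r} {S : Type s} {K : Type v} [CommRing R] [CommRing S] [Field K]
  [DecidableEq K] {W' : Affine R} [Algebra R S] [Algebra R K] [Algebra S K]
  [IsScalarTower R S K]

/-- The Galois action (prelude) on an affine point is coordinatewise. -/
theorem galois_smul_some (σ : K ≃ₐ[S] K) {x y : K} (h : (W'⁄K).Nonsingular x y) :
    σ • (Point.some x y h : (W'⁄K).Point) =
      Point.some (σ x) (σ y)
        ((W'.baseChange_nonsingular (f := σ.toAlgHom) σ.toAlgHom.injective x y).mpr h) :=
  rfl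

/-- The Galois action (prelude) fixes the point at infinity. -/
theorem galois_smul_zero (σ : K ≃ₐ[S] K) : σ • (0 : (W'⁄K).Point) = 0 :=
  rfl

/-- A point is fixed by `σ` as soon as its coordinates are. -/
theorem galois_smul_some_eq_self (σ : K ≃ₐ[S] K) {x y : K} (h : (W'⁄K).Nonsingular x y)
    (hx : σ x = x) (hy : σ y = y) :
    σ • (Point.some x y h : (W'⁄K).Point) = Point.some x y h := by
  rw [galois_smul_some]
  congr 1

end Points

end Fermat.Agent.S05
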