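import Mathlib

/-!
# x-only arithmetic on a Weierstrass curve (S05, piece F1 support)

For affine nonsingular points `P₁ = (x₁, y₁)`, `P₂ = (x₂, y₂)` with `x₁ ≠ x₂` we prove the
classical formulas for `x(P₁ + P₂) * x(P₁ - P₂)` and `x(P₁ + P₂) + x(P₁ - P₂)`, and the
duplication formula for `x(2P)`.
-/

set_option autoImplicit false

namespace Fermat.Agent.S05

open WeierstrassCurve

variable {K : Type*} [Field K] (W : WeierstrassCurve K)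

/-- numerator of `x(P₁+P₂) * x(P₁-P₂)` -/
def xoF (x₁ x₂ : K) : K := (x₁ * x₂) ^ 2 - W.b₄ * (x₁ * x₂) - W.b₆ * (x₁ + x₂) - W.b₈

/-- numerator of `x(P₁+P₂) + x(P₁-P₂)` -/
def xoG (x₁ x₂ : K) : K :=
  2 * (x₁ * x₂) * (x₁ + x₂) + W.b₂ * (x₁ * x₂) + W.b₄ * (x₁ + x₂) + W.b₆

variable {W}

theorem xo_poly_mul {x₁ y₁ x₂ y₂ a₁ a₂ a₃ a₄ a₆ : K}
    (h₁ : y₁ ^ 2 + a₁ * x₁ * y₁ + a₃ * y₁ = x₁ ^ 3 + a₂ * x₁ ^ 2 + a₄ * x₁ + a₆)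
    (h₂ : y₂ ^ 2 + a₁ * x₂ * y₂ + a₃ * y₂ = x₂ ^ 3 + a₂ * x₂ ^ 2 + a₄ * x₂ + a₆) :
    ((y₁ - y₂) ^ 2 + a₁ * (y₁ - y₂) * (x₁ - x₂) - (a₂ + x₁ + x₂) * (x₁ - x₂) ^ 2) *
    ((y₁ + y₂ + a₁ * x₂ + a₃) ^ 2 + a₁ * (y₁ + y₂ + a₁ * x₂ + a₃) * (x₁ - x₂)
        - (a₂ + x₁ + x₂) * (x₁ - x₂) ^ 2)
    = ((x₁ * x₂) ^ 2 - (2 * a₄ + a₁ * a₃) * (x₁ * x₂) - (a₃ ^ 2 + 4 * a₆) * (x₁ + x₂)
       - (a₁ ^ 2 * a₆ + 4 * a₂ * a₆ - a₁ * a₃ * a₄ + a₂ * a₃ ^ 2 - a₄ ^ 2)) * (x₁ - x₂) ^ 2 := by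
  grind

theorem xo_poly_add {x₁ y₁ x₂ y₂ a₁ a₂ a₃ a₄ a₆ : K}
    (h₁ : y₁ ^ 2 + a₁ * x₁ * y₁ + a₃ * y₁ = x₁ ^ 3 + a₂ * x₁ ^ 2 + a₄ * x₁ + a₆)
    (h₂ : y₂ ^ 2 + a₁ * x₂ * y₂ + a₃ * y₂ = x₂ ^ 3 + a₂ * x₂ ^ 2 + a₄ * x₂ + a₆) :
    ((y₁ - y₂) ^ 2 + a₁ * (y₁ - y₂) * (x₁ - x₂) - (a₂ + x₁ + x₂) * (x₁ - x₂) ^ 2) +
    ((y₁ + y₂ + a₁ * x₂ + a₃) ^ 2 + a₁ * (y₁ + y₂ + a₁ * x₂ + a₃) * (x₁ - x₂)
        - (a₂ + x₁ + x₂) * (x₁ - x₂) ^ 2)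
    = 2 * (x₁ * x₂) * (x₁ + x₂) + (a₁ ^ 2 + 4 * a₂) * (x₁ * x₂) + (2 * a₄ + a₁ * a₃) * (x₁ + x₂)
      + (a₃ ^ 2 + 4 * a₆) := by
  grind

/-- `(x₁ - x₂)² · x(P₁ + P₂)` as a polynomial. -/
theorem xo_addX_sq {x₁ y₁ x₂ y₂ : K} (hx : x₁ ≠ x₂) :
    W.toAffine.addX x₁ x₂ ((y₁ - y₂) / (x₁ - x₂)) * (x₁ - x₂) ^ 2 =
      (y₁ - y₂) ^ 2 + W.a₁ * (y₁ - y₂) * (x₁ - x₂) - (W.a₂ + x₁ + x₂) * (x₁ - x₂) ^ 2 := by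
  have hne : x₁ - x₂ ≠ 0 := sub_ne_zero.mpr hx
  simp only [Affine.addX]
  field_simp
  ring

theorem xo_addX_mul {x₁ y₁ x₂ y₂ : K} (h₁ : W.toAffine.Equation x₁ y₁)
    (h₂ : W.toAffine.Equation x₂ y₂) (hx : x₁ ≠ x₂) :
    W.toAffine.addX x₁ x₂ ((y₁ - y₂) / (x₁ - x₂)) *
      W.toAffine.addX x₁ x₂ ((y₁ - W.toAffine.negY x₂ y₂) / (x₁ - x₂)) * (x₁ - x₂) ^ 2
      = xoF W x₁ x₂ := by
  have hne : x₁ - x₂ ≠ 0 := sub_ne_zero.mpr hx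
  have hne2 : (x₁ - x₂) ^ 2 ≠ 0 := pow_ne_zero 2 hne
  rw [Affine.equation_iff] at h₁ h₂
  have e1 := xo_addX_sq (W := W) (y₁ := y₁) (y₂ := y₂) hx
  have e2 := xo_addX_sq (W := W) (y₁ := y₁) (y₂ := W.toAffine.negY x₂ y₂) hx
  have key := xo_poly_mul h₁ h₂
  apply mul_right_cancel₀ hne2
  have : W.toAffine.addX x₁ x₂ ((y₁ - y₂) / (x₁ - x₂)) *
      W.toAffine.addX x₁ x₂ ((y₁ - W.toAffine.negY x₂ y₂) / (x₁ - x₂)) * (x₁ - x₂) ^ 2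
      * (x₁ - x₂) ^ 2 =
      (W.toAffine.addX x₁ x₂ ((y₁ - y₂) / (x₁ - x₂)) * (x₁ - x₂) ^ 2) *
      (W.toAffine.addX x₁ x₂ ((y₁ - W.toAffine.negY x₂ y₂) / (x₁ - x₂)) * (x₁ - x₂) ^ 2) := by
    ring
  rw [this, e1, e2]
  simp only [Affine.negY, xoF, WeierstrassCurve.b₄, WeierstrassCurve.b₆, WeierstrassCurve.b₈]
  rw [← key]
  ring

theorem xo_addX_add {x₁ y₁ x₂ y₂ : K} (h₁ : W.toAffine.Equation x₁ y₁)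
    (h₂ : W.toAffine.Equation x₂ y₂) (hx : x₁ ≠ x₂) :
    (W.toAffine.addX x₁ x₂ ((y₁ - y₂) / (x₁ - x₂)) +
      W.toAffine.addX x₁ x₂ ((y₁ - W.toAffine.negY x₂ y₂) / (x₁ - x₂))) * (x₁ - x₂) ^ 2
      = xoG W x₁ x₂ := by
  rw [Affine.equation_iff] at h₁ h₂
  have e1 := xo_addX_sq (W := W) (y₁ := y₁) (y₂ := y₂) hx
  have e2 := xo_addX_sq (W := W) (y₁ := y₁) (y₂ := W.toAffine.negY x₂ y₂) hx
  have key := xo_poly_add h₁ h₂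
  rw [add_mul, e1, e2]
  simp only [Affine.negY, xoG, WeierstrassCurve.b₂, WeierstrassCurve.b₄, WeierstrassCurve.b₆]
  rw [← key]
  ring

end Fermat.Agent.S05

namespace Fermat.Agent.S05

open WeierstrassCurve

variable {K : Type*} [Field K] {W : WeierstrassCurve K}

theorem xo_poly_dbl {x y a₁ a₂ a₃ a₄ a₆ : K}
    (h : y ^ 2 + a₁ * x * y + a₃ * y = x ^ 3 + a₂ * x ^ 2 + a₄ * x + a₆) :
    ((3 * x ^ 2 + 2 * a₂ * x + a₄ - a₁ * y) ^ 2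
      + a₁ * (3 * x ^ 2 + 2 * a₂ * x + a₄ - a₁ * y) * (2 * y + a₁ * x + a₃)
      - (a₂ + x + x) * (2 * y + a₁ * x + a₃) ^ 2)
    = x ^ 4 - (2 * a₄ + a₁ * a₃) * x ^ 2 - 2 * (a₃ ^ 2 + 4 * a₆) * x
       - (a₁ ^ 2 * a₆ + 4 * a₂ * a₆ - a₁ * a₃ * a₄ + a₂ * a₃ ^ 2 - a₄ ^ 2) := by
  grind

theorem xo_poly_psi {x y a₁ a₂ a₃ a₄ a₆ : K}
    (h : y ^ 2 + a₁ * x * y + a₃ * y = x ^ 3 + a₂ * x ^ 2 + a₄ * x + a₆) :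
    (2 * y + a₁ * x + a₃) ^ 2 =
      4 * x ^ 3 + (a₁ ^ 2 + 4 * a₂) * x ^ 2 + 2 * (2 * a₄ + a₁ * a₃) * x + (a₃ ^ 2 + 4 * a₆) := by
  grind

/-- the `2`-division polynomial `Ψ₂²` evaluated at `x` -/
def xoPsi (W : WeierstrassCurve K) (x : K) : K := 4 * x ^ 3 + W.b₂ * x ^ 2 + 2 * W.b₄ * x + W.b₆

/-- the numerator `Φ₂` of the duplication formula evaluated at `x` -/
def xoPhi (W : WeierstrassCurve K) (x : K) : K := x ^ 4 - W.b₄ * x ^ 2 - 2 * W.b₆ * x - W.b₈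

theorem xo_psi_eq {x y : K} (h : W.toAffine.Equation x y) :
    (y - W.toAffine.negY x y) ^ 2 = xoPsi W x := by
  rw [Affine.equation_iff] at h
  have key := xo_poly_psi h
  simp only [Affine.negY, xoPsi, WeierstrassCurve.b₂, WeierstrassCurve.b₄, WeierstrassCurve.b₆]
  rw [← key]
  ring

theorem xo_dblX {x y : K} (h : W.toAffine.Equation x y) (hy : y ≠ W.toAffine.negY x y) :
    W.toAffine.addX x x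
      ((3 * x ^ 2 + 2 * W.a₂ * x + W.a₄ - W.a₁ * y) / (y - W.toAffine.negY x y)) * xoPsi W x
      = xoPhi W x := by
  have hne : y - W.toAffine.negY x y ≠ 0 := sub_ne_zero.mpr hy
  rw [← xo_psi_eq h]
  rw [Affine.equation_iff] at h
  have key := xo_poly_dbl h
  have hpsi : y - W.toAffine.negY x y = 2 * y + W.a₁ * x + W.a₃ := by
    simp only [Affine.negY]; ring
  rw [hpsi] at hne ⊢
  generalize 2 * y + W.a₁ * x + W.a₃ = ψ at hne key ⊢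
  simp only [Affine.addX, xoPhi, WeierstrassCurve.b₄, WeierstrassCurve.b₆, WeierstrassCurve.b₈]
  rw [← key]
  field_simp
  ring

end Fermat.Agent.S05
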