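import Mathlib
import Fermat.Agent.S05.XOnly

/-!
# S05, piece F1: the kernel of reduction has no `n`-torsion for `n` a unit

`Fermat.Agent.S05.no_torsion_of_not_mem`: for a Weierstrass curve with coefficients in a valuation
subring `A` of a field `K` and `n` a unit of `A`, an affine point `P = (x, y)` with `n • P = 0`
has `x ∈ A`.

Proof: x-only induction. If `x ∉ A`, then for all `m`, either `m • P = 0` and `m ∈ 𝔪`, or
`m • P = (x', y')` is affine and `c := x / x' ∈ A` with `c ≡ m² mod 𝔪`.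
-/

set_option autoImplicit false

namespace Fermat.Agent.S05

open WeierstrassCurve

variable {K : Type*} [Field K]

section Points

variable [DecidableEq K] {W : WeierstrassCurve K}

theorem xo_add_sub_points {x₁ y₁ x₂ y₂ : K} (h₁ : W.toAffine.Nonsingular x₁ y₁)
    (h₂ : W.toAffine.Nonsingular x₂ y₂) (hx : x₁ ≠ x₂) :
    ∃ (Xp Yp Xm Ym : K) (hp : W.toAffine.Nonsingular Xp Yp) (hm : W.toAffine.Nonsingular Xm Ym),
      Affine.Point.some x₁ y₁ h₁ + Affine.Point.some x₂ y₂ h₂ = Affine.Point.some Xp Yp hp ∧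
      Affine.Point.some x₁ y₁ h₁ - Affine.Point.some x₂ y₂ h₂ = Affine.Point.some Xm Ym hm ∧
      Xp * Xm * (x₁ - x₂) ^ 2 = xoF W x₁ x₂ ∧ (Xp + Xm) * (x₁ - x₂) ^ 2 = xoG W x₁ x₂ := by
  refine ⟨_, _, _, _, Affine.nonsingular_add h₁ h₂ fun hxy => hx hxy.left,
    Affine.nonsingular_add h₁ ((Affine.nonsingular_neg ..).mpr h₂) fun hxy => hx hxy.left,
    Affine.Point.add_of_X_ne hx, ?_, ?_, ?_⟩
  · rw [sub_eq_add_neg, Affine.Point.neg_some, Affine.Point.add_of_X_ne hx]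
  · rw [Affine.slope_of_X_ne hx, Affine.slope_of_X_ne hx]
    exact xo_addX_mul h₁.1 h₂.1 hx
  · rw [Affine.slope_of_X_ne hx, Affine.slope_of_X_ne hx]
    exact xo_addX_add h₁.1 h₂.1 hx

theorem xo_dbl_points {x y : K} (h : W.toAffine.Nonsingular x y)
    (hy : y ≠ W.toAffine.negY x y) :
    ∃ (X Y : K) (h' : W.toAffine.Nonsingular X Y),
      Affine.Point.some x y h + Affine.Point.some x y h = Affine.Point.some X Y h' ∧
      X * xoPsi W x = xoPhi W x ∧ xoPsi W x ≠ 0 := by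
  refine ⟨_, _, Affine.nonsingular_add h h fun hxy => hy hxy.right,
    Affine.Point.add_self_of_Y_ne hy, ?_, ?_⟩
  · rw [Affine.slope_of_Y_ne rfl hy]
    exact xo_dblX h.1 hy
  · rw [← xo_psi_eq h.1]
    exact pow_ne_zero 2 (sub_ne_zero.mpr hy)

theorem xo_dbl_zero {x y : K} (h : W.toAffine.Nonsingular x y)
    (hy : y = W.toAffine.negY x y) :
    Affine.Point.some x y h + Affine.Point.some x y h = 0 ∧ xoPsi W x = 0 := by
  refine ⟨Affine.Point.add_self_of_Y_eq hy, ?_⟩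
  rw [← xo_psi_eq h.1, sub_eq_zero.mpr hy]
  ring

end Points

section Val

variable (A : ValuationSubring K)

theorem vs_mul_mem_nonunits {a s : K} (ha : a ∈ A) (hs : s ∈ A.nonunits) :
    a * s ∈ A.nonunits := by
  rw [ValuationSubring.mem_nonunits_iff] at hs ⊢
  rw [map_mul]
  exact Right.mul_lt_one_of_le_of_lt ((A.valuation_le_one_iff a).2 ha) hs

theorem vs_mul_mem_nonunits' {a s : K} (hs : s ∈ A.nonunits) (ha : a ∈ A) :
    s * a ∈ A.nonunits := by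
  rw [mul_comm]; exact vs_mul_mem_nonunits A ha hs

theorem vs_nonunits_sub {a b : K} (ha : a ∈ A.nonunits) (hb : b ∈ A.nonunits) :
    a - b ∈ A.nonunits := sub_mem ha hb

theorem vs_nonunits_add {a b : K} (ha : a ∈ A.nonunits) (hb : b ∈ A.nonunits) :
    a + b ∈ A.nonunits := add_mem ha hb

theorem vs_mem_of_nonunits {a : K} (ha : a ∈ A.nonunits) : a ∈ A :=
  A.nonunits_subset ha

theorem vs_one_add {s : K} (hs : s ∈ A.nonunits) :
    1 + s ≠ 0 ∧ (1 + s) ∈ A ∧ (1 + s)⁻¹ ∈ A := by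
  have h1 : A.valuation (1 + s) = 1 :=
    Valuation.map_one_add_of_lt A.valuation (A.mem_nonunits_iff.1 hs)
  have hne : 1 + s ≠ 0 := by
    intro h0
    rw [h0, map_zero] at h1
    exact zero_ne_one h1
  refine ⟨hne, (A.valuation_le_one_iff _).1 h1.le, (A.valuation_le_one_iff _).1 ?_⟩
  rw [map_inv₀, h1, inv_one]

theorem vs_prime {a b : K} (ha : a ∈ A) (hb : b ∈ A) (h : a * b ∈ A.nonunits) :
    a ∈ A.nonunits ∨ b ∈ A.nonunits := by
  rw [ValuationSubring.mem_nonunits_iff, map_mul] at h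
  have h1 := (A.valuation_le_one_iff a).2 ha
  have h2 := (A.valuation_le_one_iff b).2 hb
  by_contra hcon
  rw [not_or, ValuationSubring.mem_nonunits_iff, ValuationSubring.mem_nonunits_iff,
    not_lt, not_lt] at hcon
  have e1 : A.valuation a = 1 := le_antisymm h1 hcon.1
  have e2 : A.valuation b = 1 := le_antisymm h2 hcon.2
  rw [e1, e2] at h
  simp at h

theorem vs_sq_nonunits {a : K} (ha : a ∈ A) (h : a ^ 2 ∈ A.nonunits) : a ∈ A.nonunits := by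
  rw [pow_two] at h
  rcases vs_prime A ha ha h with h | h <;> exact h

theorem vs_inv_of_not_mem {x : K} (hx : x ∉ A) : x ≠ 0 ∧ x⁻¹ ∈ A.nonunits := by
  refine ⟨fun h0 => hx (h0 ▸ A.zero_mem), ?_⟩
  rw [ValuationSubring.inv_mem_nonunits_iff]
  exact Or.inr hx

end Val


section Step

variable (A : ValuationSubring K)

/-- the doubling step: `x ∉ A`, `X = x(2P)` -/
theorem kernel_step_dbl {b₂ b₄ b₆ b₈ : K} (hb₂ : b₂ ∈ A) (hb₄ : b₄ ∈ A)
    (hb₆ : b₆ ∈ A) (hb₈ : b₈ ∈ A) {x X : K} (hx : x ∉ A)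
    (hX : X * (4 * x ^ 3 + b₂ * x ^ 2 + 2 * b₄ * x + b₆) =
      x ^ 4 - b₄ * x ^ 2 - 2 * b₆ * x - b₈)
    (hpsi : 4 * x ^ 3 + b₂ * x ^ 2 + 2 * b₄ * x + b₆ ≠ 0) :
    ∃ c ∈ A, c * X = x ∧ c - 4 ∈ A.nonunits := by
  obtain ⟨hx0, hu⟩ := vs_inv_of_not_mem A hx
  set u := x⁻¹ with hu_def
  have huA : u ∈ A := vs_mem_of_nonunits A hu
  -- φ̃ - 1
  have hs : -(b₄ * u ^ 2) - 2 * b₆ * u ^ 3 - b₈ * u ^ 4 ∈ A.nonunits := by
    have e : -(b₄ * u ^ 2) - 2 * b₆ * u ^ 3 - b₈ * u ^ 4 =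
        (-(b₄ * u) - 2 * b₆ * u ^ 2 - b₈ * u ^ 3) * u := by ring
    rw [e]
    refine vs_mul_mem_nonunits A ?_ hu
    exact sub_mem (sub_mem (neg_mem (mul_mem hb₄ huA))
      (mul_mem (mul_mem (ofNat_mem A 2) hb₆) (pow_mem huA 2))) (mul_mem hb₈ (pow_mem huA 3))
  obtain ⟨hφ0, hφA, hφinv⟩ := vs_one_add A hs
  set φ := 1 + (-(b₄ * u ^ 2) - 2 * b₆ * u ^ 3 - b₈ * u ^ 4) with hφ_def
  have ht : b₂ * u + 2 * b₄ * u ^ 2 + b₆ * u ^ 3 ∈ A.nonunits := by
    have e : b₂ * u + 2 * b₄ * u ^ 2 + b₆ * u ^ 3 = (b₂ + 2 * b₄ * u + b₆ * u ^ 2) * u := by ring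
    rw [e]
    refine vs_mul_mem_nonunits A ?_ hu
    exact add_mem (add_mem hb₂ (mul_mem (mul_mem (ofNat_mem A 2) hb₄) huA))
      (mul_mem hb₆ (pow_mem huA 2))
  set ψ := 4 + (b₂ * u + 2 * b₄ * u ^ 2 + b₆ * u ^ 3) with hψ_def
  have hxu : x * u = 1 := mul_inv_cancel₀ hx0
  have hΦ : x ^ 4 - b₄ * x ^ 2 - 2 * b₆ * x - b₈ = x ^ 4 * φ := by
    have : x ^ 4 * φ = x ^ 4 - b₄ * x ^ 2 * (x * u) ^ 2 - 2 * b₆ * x * (x * u) ^ 3
        - b₈ * (x * u) ^ 4 := by rw [hφ_def]; ring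
    rw [this, hxu]; ring
  have hΨ : 4 * x ^ 3 + b₂ * x ^ 2 + 2 * b₄ * x + b₆ = x ^ 3 * ψ := by
    have : x ^ 3 * ψ = 4 * x ^ 3 + b₂ * x ^ 2 * (x * u) + 2 * b₄ * x * (x * u) ^ 2
        + b₆ * (x * u) ^ 3 := by rw [hψ_def]; ring
    rw [this, hxu]; ring
  have hψA : ψ ∈ A := add_mem (ofNat_mem A 4) (vs_mem_of_nonunits A ht)
  rw [hΦ, hΨ] at hX
  rw [hΨ] at hpsi
  have hψ0 : ψ ≠ 0 := fun h => hpsi (by rw [h, mul_zero])
  refine ⟨ψ * φ⁻¹, mul_mem hψA hφinv, ?_, ?_⟩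
  · -- ψ φ⁻¹ X = x
    have hx3 : x ^ 3 ≠ 0 := pow_ne_zero 3 hx0
    have : X * ψ = x * φ := by
      apply mul_left_cancel₀ hx3
      linear_combination hX
    field_simp
    linear_combination this
  · have e : ψ * φ⁻¹ - 4 = ((b₂ * u + 2 * b₄ * u ^ 2 + b₆ * u ^ 3)
        - 4 * (-(b₄ * u ^ 2) - 2 * b₆ * u ^ 3 - b₈ * u ^ 4)) * φ⁻¹ := by
      field_simp
      rw [hψ_def, hφ_def]; ring
    rw [e]
    exact vs_mul_mem_nonunits' A (sub_mem ht (vs_mul_mem_nonunits A (ofNat_mem A 4) hs)) hφinv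

/-- if `x ∉ A` is the `x`-coordinate of a `2`-torsion point then `2 ∈ 𝔪` -/
theorem kernel_two_of_psi_zero {b₂ b₄ b₆ : K} (hb₂ : b₂ ∈ A) (hb₄ : b₄ ∈ A)
    (hb₆ : b₆ ∈ A) {x : K} (hx : x ∉ A)
    (hpsi : 4 * x ^ 3 + b₂ * x ^ 2 + 2 * b₄ * x + b₆ = 0) : (2 : K) ∈ A.nonunits := by
  obtain ⟨hx0, hu⟩ := vs_inv_of_not_mem A hx
  set u := x⁻¹ with hu_def
  have huA : u ∈ A := vs_mem_of_nonunits A hu
  have ht : b₂ * u + 2 * b₄ * u ^ 2 + b₆ * u ^ 3 ∈ A.nonunits := by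
    have e : b₂ * u + 2 * b₄ * u ^ 2 + b₆ * u ^ 3 = (b₂ + 2 * b₄ * u + b₆ * u ^ 2) * u := by ring
    rw [e]
    refine vs_mul_mem_nonunits A ?_ hu
    exact add_mem (add_mem hb₂ (mul_mem (mul_mem (ofNat_mem A 2) hb₄) huA))
      (mul_mem hb₆ (pow_mem huA 2))
  have hxu : x * u = 1 := mul_inv_cancel₀ hx0
  have h4 : (4 : K) = -(b₂ * u + 2 * b₄ * u ^ 2 + b₆ * u ^ 3) := by
    have : (4 * x ^ 3 + b₂ * x ^ 2 + 2 * b₄ * x + b₆) * u ^ 3 =
        4 * (x * u) ^ 3 + b₂ * u * (x * u) ^ 2 + 2 * b₄ * u ^ 2 * (x * u) + b₆ * u ^ 3 := by ring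
    rw [hpsi, hxu] at this
    linear_combination -this
  have h4' : (2 : K) ^ 2 ∈ A.nonunits := by
    have : (2 : K) ^ 2 = 4 := by norm_num
    rw [this, h4]
    exact neg_mem ht
  exact vs_sq_nonunits A (ofNat_mem A 2) h4'

end Step


section StepGeneric

variable (A : ValuationSubring K)

/-- the generic step of the x-only induction -/
theorem kernel_step_generic {b₂ b₄ b₆ b₈ : K} (hb₂ : b₂ ∈ A) (hb₄ : b₄ ∈ A)
    (hb₆ : b₆ ∈ A) (hb₈ : b₈ ∈ A) {x x₁ Xp Xm c cm : K} (hx : x ∉ A) (hc : c ∈ A)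
    (hcm : cm ∈ A) (hcx : c * x₁ = x) (hcmx : cm * Xm = x) (hne : x₁ ≠ x)
    (hmul : Xp * Xm * (x₁ - x) ^ 2 = (x₁ * x) ^ 2 - b₄ * (x₁ * x) - b₆ * (x₁ + x) - b₈)
    (hadd : (Xp + Xm) * (x₁ - x) ^ 2 =
      2 * (x₁ * x) * (x₁ + x) + b₂ * (x₁ * x) + b₄ * (x₁ + x) + b₆) :
    ∃ cp ∈ A, cp * Xp = x ∧ cp + cm - 2 * (1 + c) ∈ A.nonunits := by
  obtain ⟨hx0, hu⟩ := vs_inv_of_not_mem A hx
  set u := x⁻¹ with hu_def
  have huA : u ∈ A := vs_mem_of_nonunits A hu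
  have hxu : x * u = 1 := mul_inv_cancel₀ hx0
  have hc0 : c ≠ 0 := fun h => hx0 (by rw [← hcx, h, zero_mul])
  have hx₁0 : x₁ ≠ 0 := fun h => hx0 (by rw [← hcx, h, mul_zero])
  have hcm0 : cm ≠ 0 := fun h => hx0 (by rw [← hcmx, h, zero_mul])
  have hXm0 : Xm ≠ 0 := fun h => hx0 (by rw [← hcmx, h, mul_zero])
  have hD : (x₁ - x) ^ 2 ≠ 0 := pow_ne_zero 2 (sub_ne_zero.mpr hne)
  -- e - 1
  have hs : -(b₄ * c * u ^ 2) - b₆ * (c + c ^ 2) * u ^ 3 - b₈ * c ^ 2 * u ^ 4 ∈ A.nonunits := by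
    have e : -(b₄ * c * u ^ 2) - b₆ * (c + c ^ 2) * u ^ 3 - b₈ * c ^ 2 * u ^ 4 =
        (-(b₄ * c * u) - b₆ * (c + c ^ 2) * u ^ 2 - b₈ * c ^ 2 * u ^ 3) * u := by ring
    rw [e]
    refine vs_mul_mem_nonunits A ?_ hu
    exact sub_mem (sub_mem (neg_mem (mul_mem (mul_mem hb₄ hc) huA))
      (mul_mem (mul_mem hb₆ (add_mem hc (pow_mem hc 2))) (pow_mem huA 2)))
      (mul_mem (mul_mem hb₈ (pow_mem hc 2)) (pow_mem huA 3))
  obtain ⟨he0, heA, heinv⟩ := vs_one_add A hs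
  set e := 1 + (-(b₄ * c * u ^ 2) - b₆ * (c + c ^ 2) * u ^ 3 - b₈ * c ^ 2 * u ^ 4) with he_def
  -- g - 2(1+c)
  have ht : b₂ * c * u + b₄ * (c + c ^ 2) * u ^ 2 + b₆ * c ^ 2 * u ^ 3 ∈ A.nonunits := by
    have e' : b₂ * c * u + b₄ * (c + c ^ 2) * u ^ 2 + b₆ * c ^ 2 * u ^ 3 =
        (b₂ * c + b₄ * (c + c ^ 2) * u + b₆ * c ^ 2 * u ^ 2) * u := by ring
    rw [e']
    refine vs_mul_mem_nonunits A ?_ hu
    exact add_mem (add_mem (mul_mem hb₂ hc) (mul_mem (mul_mem hb₄ (add_mem hc (pow_mem hc 2))) huA))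
      (mul_mem (mul_mem hb₆ (pow_mem hc 2)) (pow_mem huA 2))
  set g := 2 * (1 + c) + (b₂ * c * u + b₄ * (c + c ^ 2) * u ^ 2 + b₆ * c ^ 2 * u ^ 3) with hg_def
  have hx₁ : x₁ = x / c := by
    rw [eq_div_iff hc0, mul_comm]; exact hcx
  have hF : ((x₁ * x) ^ 2 - b₄ * (x₁ * x) - b₆ * (x₁ + x) - b₈) * c ^ 2 = x ^ 4 * e := by
    have : x ^ 4 * e = x ^ 4 - b₄ * c * x ^ 2 * (x * u) ^ 2 - b₆ * (c + c ^ 2) * x * (x * u) ^ 3
        - b₈ * c ^ 2 * (x * u) ^ 4 := by rw [he_def]; ring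
    rw [this, hxu, hx₁]
    field_simp
  have hG : (2 * (x₁ * x) * (x₁ + x) + b₂ * (x₁ * x) + b₄ * (x₁ + x) + b₆) * c ^ 2 =
      x ^ 3 * g := by
    have : x ^ 3 * g = 2 * (1 + c) * x ^ 3 + b₂ * c * x ^ 2 * (x * u)
        + b₄ * (c + c ^ 2) * x * (x * u) ^ 2 + b₆ * c ^ 2 * (x * u) ^ 3 := by rw [hg_def]; ring
    rw [this, hxu, hx₁]
    field_simp
  have hF0 : (x₁ * x) ^ 2 - b₄ * (x₁ * x) - b₆ * (x₁ + x) - b₈ ≠ 0 := by
    intro h0
    rw [h0, zero_mul] at hF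
    exact mul_ne_zero (pow_ne_zero 4 hx0) he0 hF.symm
  have hXp0 : Xp ≠ 0 := by
    intro h0
    rw [h0, zero_mul, zero_mul] at hmul
    exact hF0 hmul.symm
  -- key relation: (Xp + Xm) * x * e = Xp * Xm * g
  have key : (Xp + Xm) * (x * e) = Xp * Xm * g := by
    have h1 : (Xp + Xm) * (x ^ 4 * e) * (x₁ - x) ^ 2 = Xp * Xm * (x ^ 3 * g) * (x₁ - x) ^ 2 := by
      rw [← hF, ← hG, ← hmul, ← hadd]; ring
    have h2 := mul_right_cancel₀ hD h1
    apply mul_left_cancel₀ (pow_ne_zero 3 hx0)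
    linear_combination h2
  refine ⟨x / Xp, ?_, div_mul_cancel₀ x hXp0, ?_⟩
  · -- x / Xp = g * e⁻¹ - cm
    have hval : x / Xp = g * e⁻¹ - cm := by
      have hcm' : cm = x / Xm := by rw [eq_div_iff hXm0]; exact hcmx
      rw [hcm']
      field_simp
      linear_combination key
    rw [hval]
    exact sub_mem (mul_mem (add_mem (mul_mem (ofNat_mem A 2) (add_mem A.one_mem hc))
      (vs_mem_of_nonunits A ht)) heinv) hcm
  · have hval : x / Xp + cm - 2 * (1 + c) =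
        ((b₂ * c * u + b₄ * (c + c ^ 2) * u ^ 2 + b₆ * c ^ 2 * u ^ 3)
          - 2 * (1 + c) * (-(b₄ * c * u ^ 2) - b₆ * (c + c ^ 2) * u ^ 3 - b₈ * c ^ 2 * u ^ 4))
          * e⁻¹ := by
      have hcm' : cm = x / Xm := by rw [eq_div_iff hXm0]; exact hcmx
      have h3 : x / Xp + cm = g * e⁻¹ := by
        rw [hcm']
        field_simp
        linear_combination key
      rw [h3]
      field_simp
      rw [hg_def, he_def]; ring
    rw [hval]
    refine vs_mul_mem_nonunits' A (sub_mem ht (vs_mul_mem_nonunits A ?_ hs)) heinv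
    exact mul_mem (ofNat_mem A 2) (add_mem A.one_mem hc)

end StepGeneric


section Main

variable {W : WeierstrassCurve K}

theorem kernel_b_mem (A : ValuationSubring K) (h₁ : W.a₁ ∈ A) (h₂ : W.a₂ ∈ A) (h₃ : W.a₃ ∈ A)
    (h₄ : W.a₄ ∈ A) (h₆ : W.a₆ ∈ A) : W.b₂ ∈ A ∧ W.b₄ ∈ A ∧ W.b₆ ∈ A ∧ W.b₈ ∈ A := by
  refine ⟨?_, ?_, ?_, ?_⟩
  · rw [WeierstrassCurve.b₂]
    exact add_mem (pow_mem h₁ 2) (mul_mem (ofNat_mem A 4) h₂)
  · rw [WeierstrassCurve.b₄]
    exact add_mem (mul_mem (ofNat_mem A 2) h₄) (mul_mem h₁ h₃)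
  · rw [WeierstrassCurve.b₆]
    exact add_mem (pow_mem h₃ 2) (mul_mem (ofNat_mem A 4) h₆)
  · rw [WeierstrassCurve.b₈]
    exact sub_mem (add_mem (sub_mem (add_mem (mul_mem (pow_mem h₁ 2) h₆)
      (mul_mem (mul_mem (ofNat_mem A 4) h₂) h₆)) (mul_mem (mul_mem h₁ h₃) h₄))
      (mul_mem h₂ (pow_mem h₃ 2))) (pow_mem h₄ 2)

variable [DecidableEq K]

/-- The induction predicate: `m • P` is either `0` with `m ∈ 𝔪`, or affine with
`x(P) / x(m • P) ∈ A` congruent to `m²` modulo `𝔪`. -/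
def KernelQ (A : ValuationSubring K) (W : WeierstrassCurve K) (x : K)
    (P : W.toAffine.Point) (m : ℕ) : Prop :=
  (m • P = 0 ∧ (m : K) ∈ A.nonunits) ∨
    ∃ (x' y' : K) (h' : W.toAffine.Nonsingular x' y'), m • P = Affine.Point.some x' y' h' ∧
      ∃ c ∈ A, c * x' = x ∧ c - (m : K) ^ 2 ∈ A.nonunits



theorem kernelQ_step (A : ValuationSubring K) (h₁ : W.a₁ ∈ A) (h₂ : W.a₂ ∈ A) (h₃ : W.a₃ ∈ A)
    (h₄ : W.a₄ ∈ A) (h₆ : W.a₆ ∈ A) {x y : K} (h : W.toAffine.Nonsingular x y) (hx : x ∉ A)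
    (m : ℕ) (hm : KernelQ A W x (Affine.Point.some x y h) m)
    (hm1 : KernelQ A W x (Affine.Point.some x y h) (m + 1)) :
    KernelQ A W x (Affine.Point.some x y h) (m + 2) := by
  obtain ⟨hb₂, hb₄, hb₆, hb₈⟩ := kernel_b_mem A h₁ h₂ h₃ h₄ h₆
  obtain ⟨hx0, hu⟩ := vs_inv_of_not_mem A hx
  have hP2 : (m + 2) • Affine.Point.some x y h =
      (m + 1) • Affine.Point.some x y h + Affine.Point.some x y h := succ_nsmul _ (m + 1)
  have hP0 : m • Affine.Point.some x y h =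
      (m + 1) • Affine.Point.some x y h - Affine.Point.some x y h := by
    rw [succ_nsmul, add_sub_cancel_right]
  have hmA : (m : K) ∈ A := natCast_mem A m
  rcases hm1 with ⟨hz, hsmall⟩ | ⟨x₁, y₁, h₁', hx₁eq, c, hc, hcx, hcc⟩
  · -- (m+1) • P = 0
    right
    refine ⟨x, y, h, by rw [hP2, hz, zero_add], 1, A.one_mem, one_mul x, ?_⟩
    have e : (1 : K) - ((m + 2 : ℕ) : K) ^ 2 = ((m + 1 : ℕ) : K) * (-((m : K) + 3)) := by
      push_cast; ring
    rw [e]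
    exact vs_mul_mem_nonunits' A hsmall (neg_mem (add_mem hmA (ofNat_mem A 3)))
  · by_cases hxx : x₁ = x
    · have hc1 : c = 1 := by
        have : c * x = 1 * x := by rw [one_mul, ← hxx]; exact hxx ▸ hcx
        exact mul_right_cancel₀ hx0 this
      rw [hc1] at hcc
      by_cases hy1 : y₁ = y
      · -- (m+1) • P = P
        have hPP : (m + 1) • Affine.Point.some x y h = Affine.Point.some x y h := by
          rw [hx₁eq]; subst hxx; subst hy1; rfl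
        have hm0 : m • Affine.Point.some x y h = 0 := by rw [hP0, hPP, sub_self]
        have hmsmall : (m : K) ∈ A.nonunits := by
          rcases hm with ⟨-, hs⟩ | ⟨x', y', h', he, -⟩
          · exact hs
          · rw [hm0] at he; exact absurd he.symm (Affine.Point.some_ne_zero h')
        rw [hPP] at hP2
        by_cases hy2 : y = W.toAffine.negY x y
        · obtain ⟨hz, hpsi⟩ := xo_dbl_zero h hy2
          left
          refine ⟨by rw [hP2, hz], ?_⟩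
          have h2 := kernel_two_of_psi_zero A hb₂ hb₄ hb₆ hx hpsi
          have e : ((m + 2 : ℕ) : K) = (m : K) + 2 := by push_cast; ring
          rw [e]
          exact add_mem hmsmall h2
        · obtain ⟨X, Y, h', hadd, hX, hpsi⟩ := xo_dbl_points h hy2
          obtain ⟨c₂, hc₂, hc₂X, hc₂4⟩ := kernel_step_dbl A hb₂ hb₄ hb₆ hb₈ hx hX hpsi
          right
          refine ⟨X, Y, h', by rw [hP2, hadd], c₂, hc₂, hc₂X, ?_⟩
          have e : c₂ - ((m + 2 : ℕ) : K) ^ 2 = (c₂ - 4) - (m : K) * ((m : K) + 4) := by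
            push_cast; ring
          rw [e]
          exact sub_mem hc₂4 (vs_mul_mem_nonunits' A hmsmall (add_mem hmA (ofNat_mem A 4)))
      · -- (m+1) • P = -P
        have hyy : y₁ = W.toAffine.negY x y :=
          (Affine.Y_eq_of_X_eq h₁'.1 h.1 hxx).resolve_left hy1
        have hy2 : y ≠ W.toAffine.negY x y := fun hy2 => hy1 (hyy.trans hy2.symm)
        have hPP : (m + 1) • Affine.Point.some x y h = -Affine.Point.some x y h := by
          rw [hx₁eq, Affine.Point.neg_some]; subst hxx; subst hyy; rfl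
        obtain ⟨X, Y, h', hadd, hX, hpsi⟩ := xo_dbl_points h hy2
        obtain ⟨c₂, hc₂, hc₂X, hc₂4⟩ := kernel_step_dbl A hb₂ hb₄ hb₆ hb₈ hx hX hpsi
        have hX0 : X ≠ 0 := fun h0 => hx0 (by rw [← hc₂X, h0, mul_zero])
        have hm' : m • Affine.Point.some x y h = -Affine.Point.some X Y h' := by
          rw [hP0, hPP, ← hadd, neg_add, sub_eq_add_neg]
        rw [Affine.Point.neg_some] at hm'
        have hcm : c₂ - (m : K) ^ 2 ∈ A.nonunits := by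
          rcases hm with ⟨hz, -⟩ | ⟨x', y', h'', he, c', hc', hc'x, hc'm⟩
          · rw [hz] at hm'; exact absurd hm' (Affine.Point.some_ne_zero _).symm
          · rw [he] at hm'
            injection hm' with hxe hye
            have : c' = c₂ := by
              apply mul_right_cancel₀ hX0
              rw [hc₂X, ← hxe]; exact hc'x
            rw [← this]; exact hc'm
        left
        refine ⟨by rw [hP2, hPP, neg_add_cancel], ?_⟩
        have hsq : ((m + 2 : ℕ) : K) ^ 2 ∈ A.nonunits := by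
          have e : ((m + 2 : ℕ) : K) ^ 2 =
              -(2 * (1 - ((m + 1 : ℕ) : K) ^ 2)) - ((c₂ - 4) - (c₂ - (m : K) ^ 2)) := by
            push_cast; ring
          rw [e]
          exact sub_mem (neg_mem (vs_mul_mem_nonunits A (ofNat_mem A 2) hcc)) (sub_mem hc₂4 hcm)
        exact vs_sq_nonunits A (natCast_mem A _) hsq
    · -- generic case
      obtain ⟨Xp, Yp, Xm, Ym, hp, hm', hadd, hsub, hmul, hsum⟩ := xo_add_sub_points h₁' h hxx
      rw [hx₁eq] at hP2 hP0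
      rw [hadd] at hP2
      rw [hsub] at hP0
      rcases hm with ⟨hz, -⟩ | ⟨x', y', h'', he, cm, hcm, hcmx, hcmm⟩
      · rw [hz] at hP0; exact absurd hP0.symm (Affine.Point.some_ne_zero _)
      · rw [he] at hP0
        injection hP0 with hxe hye
        rw [hxe] at hcmx
        simp only [xoF, xoG] at hmul hsum
        obtain ⟨cp, hcp, hcpX, hcpc⟩ :=
          kernel_step_generic A hb₂ hb₄ hb₆ hb₈ hx hc hcm hcx hcmx hxx hmul hsum
        right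
        refine ⟨Xp, Yp, hp, hP2, cp, hcp, hcpX, ?_⟩
        have e : cp - ((m + 2 : ℕ) : K) ^ 2 =
            (cp + cm - 2 * (1 + c)) - (cm - (m : K) ^ 2) + 2 * (c - ((m + 1 : ℕ) : K) ^ 2) := by
          push_cast; ring
        rw [e]
        exact add_mem (sub_mem hcpc hcmm) (vs_mul_mem_nonunits A (ofNat_mem A 2) hcc)

theorem kernelQ_all (A : ValuationSubring K) (h₁ : W.a₁ ∈ A) (h₂ : W.a₂ ∈ A) (h₃ : W.a₃ ∈ A)
    (h₄ : W.a₄ ∈ A) (h₆ : W.a₆ ∈ A) {x y : K} (h : W.toAffine.Nonsingular x y) (hx : x ∉ A)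
    (m : ℕ) : KernelQ A W x (Affine.Point.some x y h) m ∧
      KernelQ A W x (Affine.Point.some x y h) (m + 1) := by
  induction m with
  | zero =>
    refine ⟨Or.inl ⟨zero_nsmul _, ?_⟩, Or.inr ⟨x, y, h, one_nsmul _, 1, A.one_mem, one_mul x, ?_⟩⟩
    · rw [Nat.cast_zero]; exact zero_mem _
    · have : (1 : K) - ((0 + 1 : ℕ) : K) ^ 2 = 0 := by push_cast; ring
      rw [this]; exact zero_mem _
  | succ m ih =>
    exact ⟨ih.2, kernelQ_step A h₁ h₂ h₃ h₄ h₆ h hx m ih.1 ih.2⟩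

/-- **F1**: the kernel of reduction has no `n`-torsion when `n` is a unit of `A`.
If `n • (x, y) = 0` on a Weierstrass curve with coefficients in the valuation subring `A`
and `n` is not in the maximal ideal, then `x ∈ A`. -/
theorem no_torsion_of_not_mem (A : ValuationSubring K) (W : WeierstrassCurve K)
    (h₁ : W.a₁ ∈ A) (h₂ : W.a₂ ∈ A) (h₃ : W.a₃ ∈ A) (h₄ : W.a₄ ∈ A) (h₆ : W.a₆ ∈ A)
    (n : ℕ) (hn : (n : K) ∉ A.nonunits) {x y : K} (h : W.toAffine.Nonsingular x y)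
    (htors : n • (WeierstrassCurve.Affine.Point.some x y h) = 0) : x ∈ A := by
  by_contra hx
  rcases (kernelQ_all A h₁ h₂ h₃ h₄ h₆ h hx n).1 with ⟨-, hs⟩ | ⟨x', y', h', he, -⟩
  · exact hn hs
  · rw [htors] at he
    exact Affine.Point.some_ne_zero h' he.symm

/-- Variant of F1 giving both coordinates: a torsion point of order prime to the residue
characteristic has integral coordinates. -/
theorem no_torsion_of_not_mem_y (A : ValuationSubring K) (W : WeierstrassCurve K)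
    (h₁ : W.a₁ ∈ A) (h₂ : W.a₂ ∈ A) (h₃ : W.a₃ ∈ A) (h₄ : W.a₄ ∈ A) (h₆ : W.a₆ ∈ A)
    (n : ℕ) (hn : (n : K) ∉ A.nonunits) {x y : K} (h : W.toAffine.Nonsingular x y)
    (htors : n • (WeierstrassCurve.Affine.Point.some x y h) = 0) : y ∈ A := by
  have hxA := no_torsion_of_not_mem A W h₁ h₂ h₃ h₄ h₆ n hn h htors
  -- `y` is a root of a monic quadratic with coefficients in `A`
  by_contra hy
  obtain ⟨hy0, hv⟩ := vs_inv_of_not_mem A hy
  have heq := (Affine.equation_iff _ _).1 h.1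
  -- 1 = y⁻¹ * (stuff in A)
  have key : (1 : K) = y⁻¹ * ((x ^ 3 + W.a₂ * x ^ 2 + W.a₄ * x + W.a₆) * y⁻¹
      - W.a₁ * x - W.a₃) := by
    field_simp
    linear_combination heq
  have hmem : y⁻¹ * ((x ^ 3 + W.a₂ * x ^ 2 + W.a₄ * x + W.a₆) * y⁻¹
      - W.a₁ * x - W.a₃) ∈ A.nonunits := by
    refine vs_mul_mem_nonunits' A hv ?_
    exact sub_mem (sub_mem (mul_mem (add_mem (add_mem (add_mem (pow_mem hxA 3)
      (mul_mem h₂ (pow_mem hxA 2))) (mul_mem h₄ hxA)) h₆) (vs_mem_of_nonunits A hv))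
      (mul_mem h₁ hxA)) h₃
  rw [← key] at hmem
  have : A.valuation (1 : K) < 1 := A.mem_nonunits_iff.1 hmem
  rw [map_one] at this
  exact lt_irrefl _ this

end Main

end Fermat.Agent.S05
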