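/-
S05, tropical step (helper5): Newton-polygon lemmas for a quadratic and the interior-interior
case of the quasi-parallelogram law. Pure valuation theory, no curves.
-/
import Mathlib

set_option autoImplicit false

namespace Fermat.Agent.S05

section Val

variable {K : Type*} [Field K] {Γ₀ : Type*} [LinearOrderedCommGroupWithZero Γ₀]
  (v : Valuation K Γ₀)

/-- Newton polygon, balanced case. -/
lemma np_balanced {s t : K} (h : v (s + t) ^ 2 ≤ v (s * t)) : v s = v t := by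
  by_contra hne
  rcases lt_or_gt_of_ne hne with hlt | hlt
  · have h1 : v (s + t) = v t := Valuation.map_add_eq_of_lt_right v hlt
    have ht0 : 0 < v t := lt_of_le_of_lt zero_le hlt
    have : v (s * t) < v (s + t) ^ 2 := by
      rw [h1, map_mul, sq]
      exact mul_lt_mul_of_pos_right hlt ht0
    exact absurd h (not_le.mpr this)
  · have h1 : v (s + t) = v s := Valuation.map_add_eq_of_lt_left v hlt
    have hs0 : 0 < v s := lt_of_le_of_lt zero_le hlt
    have : v (s * t) < v (s + t) ^ 2 := by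
      rw [h1, map_mul, sq, mul_comm (v s) (v t)]
      exact mul_lt_mul_of_pos_right hlt hs0
    exact absurd h (not_le.mpr this)

/-- Newton polygon, unbalanced case. -/
lemma np_unbalanced {s t : K} (h : v (s * t) < v (s + t) ^ 2) :
    (v s = v (s + t) ∧ v t * v (s + t) = v (s * t)) ∨
    (v t = v (s + t) ∧ v s * v (s + t) = v (s * t)) := by
  rcases lt_trichotomy (v s) (v t) with hlt | heq | hlt
  · right
    have h1 : v (s + t) = v t := Valuation.map_add_eq_of_lt_right v hlt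
    exact ⟨h1.symm, by rw [h1, map_mul]⟩
  · exfalso
    have h1 : v (s + t) ≤ v s := by
      refine Valuation.map_add_le v le_rfl (le_of_eq heq.symm)
    have : v (s + t) ^ 2 ≤ v (s * t) := by
      rw [map_mul, sq]
      exact mul_le_mul' h1 (heq ▸ h1)
    exact absurd h (not_lt.mpr this)
  · left
    have h1 : v (s + t) = v s := Valuation.map_add_eq_of_lt_left v hlt
    exact ⟨h1.symm, by rw [h1, map_mul, mul_comm]⟩

variable {e₂ e₃ X₁ X₂ Xs Xd : K}

/-- Both points in the interior region: the cancellation case. -/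
theorem trop_int_int (h2 : v 2 = 1) (he₃ : v e₃ = 1) (he₂0 : e₂ ≠ 0) (hne : X₁ ≠ X₂)
    (hS : (Xs + Xd) * (X₁ - X₂) ^ 2 =
      2 * ((X₁ + X₂) * (X₁ * X₂ + e₂ * e₃) - 2 * (e₂ + e₃) * (X₁ * X₂)))
    (hP : Xs * Xd * (X₁ - X₂) ^ 2 = (X₁ * X₂ - e₂ * e₃) ^ 2)
    (h₁l : v e₂ < v X₁) (h₁u : v X₁ < 1) (h₂l : v e₂ < v X₂) (h₂u : v X₂ < 1) :
    ∃ A B : Γ₀, ((v Xs = A ∧ v Xd = B) ∨ (v Xs = B ∧ v Xd = A)) ∧
      A * v (X₁ - X₂) ^ 2 = v X₁ * v X₂ ∧
      B * (v X₁ * v X₂) = v (X₁ * X₂ - e₂ * e₃) ^ 2 := by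
  set a := v X₁ with ha
  set b := v X₂ with hb
  set ε := v e₂ with hε
  have hε0 : 0 < ε := by rw [hε]; exact zero_lt_iff.mpr ((Valuation.ne_zero_iff v).mpr he₂0)
  have ha0 : 0 < a := lt_trans hε0 h₁l
  have hb0 : 0 < b := lt_trans hε0 h₂l
  have hab0 : 0 < a * b := mul_pos ha0 hb0
  have hD0 : X₁ - X₂ ≠ 0 := sub_ne_zero.mpr hne
  set δ := v (X₁ - X₂) with hδ
  have hδ0 : 0 < δ := by rw [hδ]; exact zero_lt_iff.mpr ((Valuation.ne_zero_iff v).mpr hD0)
  -- `max a b < 1`, and `ε < a`, `ε < b`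
  have hδle : δ ≤ max a b := Valuation.map_sub v X₁ X₂
  have hMlt : max a b < 1 := max_lt h₁u h₂u
  have hsum : v (X₁ + X₂) ≤ max a b := Valuation.map_add v X₁ X₂
  -- key bound: `max a b * max (a*b) ε < a * b`
  have key : max a b * max (a * b) ε < a * b := by
    rcases le_total a b with hle | hle
    · rw [max_eq_right hle]
      rcases le_total (a * b) ε with h' | h'
      · rw [max_eq_right h', mul_comm]
        exact mul_lt_mul_of_pos_right h₁l hb0
      · rw [max_eq_left h']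
        calc b * (a * b) < 1 * (a * b) := mul_lt_mul_of_pos_right h₂u hab0
          _ = a * b := one_mul _
    · rw [max_eq_left hle]
      rcases le_total (a * b) ε with h' | h'
      · rw [max_eq_right h']
        calc a * ε < a * b := by
              rw [mul_comm a ε, mul_comm a b]; exact mul_lt_mul_of_pos_right h₂l ha0
          _ = a * b := rfl
      · rw [max_eq_left h']
        calc a * (a * b) < 1 * (a * b) := mul_lt_mul_of_pos_right h₁u hab0
          _ = a * b := one_mul _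
  have hπle : v (X₁ * X₂ - e₂ * e₃) ≤ max (a * b) ε := by
    refine le_trans (Valuation.map_sub v _ _) ?_
    rw [map_mul, map_mul, he₃, mul_one]
  have hπle' : v (X₁ * X₂ + e₂ * e₃) ≤ max (a * b) ε := by
    refine le_trans (Valuation.map_add v _ _) ?_
    rw [map_mul, map_mul, he₃, mul_one]
  -- Step 1: valuation of the numerator of the sum
  have hN : v ((X₁ + X₂) * (X₁ * X₂ + e₂ * e₃) - 2 * (e₂ + e₃) * (X₁ * X₂)) = a * b := by
    have e1 : (X₁ + X₂) * (X₁ * X₂ + e₂ * e₃) - 2 * (e₂ + e₃) * (X₁ * X₂) =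
        ((X₁ + X₂) * (X₁ * X₂ + e₂ * e₃) - 2 * e₂ * (X₁ * X₂)) - 2 * e₃ * (X₁ * X₂) := by ring
    have hmain : v (2 * e₃ * (X₁ * X₂)) = a * b := by
      rw [map_mul, map_mul, map_mul, h2, he₃, one_mul, one_mul]
    have hR : v ((X₁ + X₂) * (X₁ * X₂ + e₂ * e₃) - 2 * e₂ * (X₁ * X₂)) < a * b := by
      refine Valuation.map_sub_lt v ?_ ?_
      · rw [map_mul]
        exact lt_of_le_of_lt (mul_le_mul' hsum hπle') key
      · rw [map_mul, map_mul, map_mul, h2, one_mul]
        calc ε * (a * b) < 1 * (a * b) := mul_lt_mul_of_pos_right (lt_trans h₁l h₁u) hab0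
          _ = a * b := one_mul _
    rw [e1, Valuation.map_sub_eq_of_lt_right v (hmain ▸ hR), hmain]
  have hSv : v (Xs + Xd) * δ ^ 2 = a * b := by
    have := congrArg v hS
    rw [map_mul, map_pow, map_mul, h2, one_mul, hN] at this
    exact this
  have hPv : v (Xs * Xd) * δ ^ 2 = v (X₁ * X₂ - e₂ * e₃) ^ 2 := by
    have := congrArg v hP
    rw [map_mul, map_pow, map_pow] at this
    exact this
  -- Step 3: unbalanced
  have hunb : v (Xs * Xd) < v (Xs + Xd) ^ 2 := by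
    have hδ2 : 0 < δ ^ 2 := pow_pos hδ0 2
    have hδ4 : 0 < δ ^ 2 * δ ^ 2 := mul_pos hδ2 hδ2
    have h1 : v (Xs * Xd) * (δ ^ 2 * δ ^ 2) < v (Xs + Xd) ^ 2 * (δ ^ 2 * δ ^ 2) := by
      have e2 : v (Xs + Xd) ^ 2 * (δ ^ 2 * δ ^ 2) = (a * b) ^ 2 := by
        rw [← hSv, mul_pow, sq (δ ^ 2)]
      have e3 : v (Xs * Xd) * (δ ^ 2 * δ ^ 2) = (v (X₁ * X₂ - e₂ * e₃) * δ) ^ 2 := by
        rw [← mul_assoc, hPv, mul_pow]
      rw [e2, e3]
      refine pow_lt_pow_left₀ ?_ zero_le two_ne_zero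
      calc v (X₁ * X₂ - e₂ * e₃) * δ ≤ max (a * b) ε * max a b := mul_le_mul' hπle hδle
        _ = max a b * max (a * b) ε := mul_comm _ _
        _ < a * b := key
    exact lt_of_mul_lt_mul_right h1 zero_le
  -- Step 4
  have hSv0 : v (Xs + Xd) ≠ 0 := by
    intro h0
    rw [h0, zero_mul] at hSv
    exact (ne_of_gt hab0) hSv.symm
  rcases np_unbalanced v hunb with ⟨h1, h2'⟩ | ⟨h1, h2'⟩
  · refine ⟨v (Xs + Xd), v Xd, Or.inl ⟨h1, rfl⟩, hSv, ?_⟩
    rw [← hSv, ← mul_assoc, h2', hPv]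
  · refine ⟨v (Xs + Xd), v Xs, Or.inr ⟨rfl, h1⟩, hSv, ?_⟩
    rw [← hSv, ← mul_assoc, h2', hPv]

end Val

end Fermat.Agent.S05
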