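/-
S05, tropical step (helper5): definitions and basic lemmas.
* `clip ε γ`  : clip `γ` to the interval `[ε, 1]`;
* `Sim ε a b` : `a = b·ε^{2k}` or `a·b = ε^{2k}` (i.e. `a ≡ ±b` mod `ε^{2ℤ}`, multiplicatively);
* `nu v r₁ ε P` : the clipped valuation of `x(P) - r₁` (`1` at the origin).
-/
import Mathlib
import Fermat.Agent.S05.Coords
import Fermat.Agent.S05.TropNP

set_option autoImplicit false

namespace Fermat.Agent.S05

open WeierstrassCurve WeierstrassCurve.Affine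

section ClipSec

variable {Γ₀ : Type*} [LinearOrderedCommGroupWithZero Γ₀]

/-- clip to the interval `[ε, 1]` -/
def clip (ε γ : Γ₀) : Γ₀ := min 1 (max ε γ)

lemma clip_of_ge {ε γ : Γ₀} (h : 1 ≤ γ) : clip ε γ = 1 :=
  min_eq_left (le_trans h (le_max_right _ _))

lemma clip_of_mid {ε γ : Γ₀} (hl : ε ≤ γ) (hu : γ ≤ 1) : clip ε γ = γ := by
  rw [clip, max_eq_right hl, min_eq_right hu]

lemma clip_of_le {ε γ : Γ₀} (hε : ε ≤ 1) (h : γ ≤ ε) : clip ε γ = ε := by
  rw [clip, max_eq_left h, min_eq_right hε]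

lemma clip_le_one (ε γ : Γ₀) : clip ε γ ≤ 1 := min_le_left _ _

lemma le_clip {ε : Γ₀} (hε : ε ≤ 1) (γ : Γ₀) : ε ≤ clip ε γ := le_min hε (le_max_left _ _)

/-- `a ∼ b`: `a = b·ε^{2k}` or `a·b = ε^{2k}` for some integer `k`
(i.e. `a ≡ ±b` modulo `ε^{2ℤ}`, written multiplicatively). -/
def Sim (ε a b : Γ₀) : Prop := ∃ k : ℤ, a = b * ε ^ (2 * k) ∨ a * b = ε ^ (2 * k)

lemma Sim.refl (ε a : Γ₀) : Sim ε a a := ⟨0, Or.inl (by simp)⟩

lemma Sim.of_eq {ε a b : Γ₀} (h : a = b) : Sim ε a b := h ▸ Sim.refl ε a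

lemma Sim.of_mul_eq_one {ε a b : Γ₀} (h : a * b = 1) : Sim ε a b := ⟨0, Or.inr (by simpa using h)⟩

lemma Sim.of_mul_eq_sq {ε a b : Γ₀} (h : a * b = ε ^ 2) : Sim ε a b :=
  ⟨1, Or.inr (by rw [h]; norm_cast)⟩

lemma Sim.symm {ε a b : Γ₀} (hε : ε ≠ 0) (h : Sim ε a b) : Sim ε b a := by
  obtain ⟨k, h | h⟩ := h
  · refine ⟨-k, Or.inl ?_⟩
    rw [h, mul_assoc, ← zpow_add₀ hε]
    simp
  · exact ⟨k, Or.inr (by rw [mul_comm]; exact h)⟩

lemma Sim.trans {ε a b c : Γ₀} (hε : ε ≠ 0) (h₁ : Sim ε a b) (h₂ : Sim ε b c) : Sim ε a c := by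
  obtain ⟨k, h₁ | h₁⟩ := h₁ <;> obtain ⟨j, h₂ | h₂⟩ := h₂
  · refine ⟨j + k, Or.inl ?_⟩
    rw [h₁, h₂, mul_assoc, ← zpow_add₀ hε]
    congr 2; ring
  · refine ⟨j + k, Or.inr ?_⟩
    rw [h₁, mul_right_comm, h₂, ← zpow_add₀ hε]
    congr 1; ring
  · refine ⟨k - j, Or.inr ?_⟩
    have hj : ε ^ (2 * j) ≠ 0 := zpow_ne_zero _ hε
    apply mul_right_cancel₀ hj
    rw [mul_assoc, ← h₂, h₁, ← zpow_add₀ hε]
    congr 1; ring
  · refine ⟨k - j, Or.inl ?_⟩
    have hj : ε ^ (2 * j) ≠ 0 := zpow_ne_zero _ hε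
    apply mul_right_cancel₀ hj
    rw [mul_assoc, ← zpow_add₀ hε, ← h₂, ← mul_assoc, h₁, mul_comm]
    congr 2; ring

/-- The induction step in exponent form. -/
lemma Sim.step {ε ν a : Γ₀} (hν : ν ≠ 0) (m : ℤ) (h : Sim ε a (ν ^ m)) :
    (Sim ε (a * ν) (ν ^ (m + 1)) ∧ Sim ε (a / ν) (ν ^ (m - 1))) ∨
    (Sim ε (a * ν) (ν ^ (m - 1)) ∧ Sim ε (a / ν) (ν ^ (m + 1))) := by
  obtain ⟨k, h | h⟩ := h
  · left
    refine ⟨⟨k, Or.inl ?_⟩, ⟨k, Or.inl ?_⟩⟩
    · rw [h, zpow_add_one₀ hν]; ac_rfl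
    · rw [h, zpow_sub_one₀ hν, div_eq_mul_inv]; ac_rfl
  · right
    refine ⟨⟨k, Or.inr ?_⟩, ⟨k, Or.inr ?_⟩⟩
    · rw [zpow_sub_one₀ hν, ← h]
      calc a * ν * (ν ^ m * ν⁻¹) = a * ν ^ m * (ν * ν⁻¹) := by ac_rfl
        _ = a * ν ^ m := by rw [mul_inv_cancel₀ hν, mul_one]
    · rw [zpow_add_one₀ hν, ← h, div_eq_mul_inv]
      calc a * ν⁻¹ * (ν ^ m * ν) = a * ν ^ m * (ν⁻¹ * ν) := by ac_rfl
        _ = a * ν ^ m := by rw [inv_mul_cancel₀ hν, mul_one]


/-- interior × interior: the `A`-value (quotient). -/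
lemma sim_quot {ε a b δ A : Γ₀} (hε0 : 0 < ε) (ha : ε < a) (ha1 : a < 1) (hb : ε < b)
    (hb1 : b < 1) (hδ0 : 0 < δ) (hδ : (a < b → δ = b) ∧ (b < a → δ = a) ∧ (a = b → δ ≤ a))
    (hA : A * δ ^ 2 = a * b) : Sim ε (clip ε A) (a / b) := by
  have ha0 : 0 < a := lt_trans hε0 ha
  have hb0 : 0 < b := lt_trans hε0 hb
  rcases lt_trichotomy a b with hlt | heq | hlt
  · -- δ = b, A = a / b
    have hδb := hδ.1 hlt
    have hAb : A * b = a := by
      rw [hδb, sq, ← mul_assoc] at hA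
      exact mul_right_cancel₀ (ne_of_gt hb0) hA
    have hA' : A = a / b := eq_div_of_mul_eq (ne_of_gt hb0) hAb
    have hA1 : A ≤ 1 := by
      by_contra h; rw [not_le] at h
      have : b < A * b := by
        calc b = 1 * b := (one_mul b).symm
          _ < A * b := mul_lt_mul_of_pos_right h hb0
      rw [hAb] at this
      exact absurd hlt (not_lt.mpr this.le)
    have hAε : ε ≤ A := by
      by_contra h; rw [not_le] at h
      have : A * b < a := by
        calc A * b ≤ A * 1 := mul_le_mul' le_rfl hb1.le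
          _ = A := mul_one A
          _ < ε := h
          _ < a := ha
      rw [hAb] at this
      exact lt_irrefl _ this
    rw [clip_of_mid hAε hA1]
    exact Sim.of_eq hA'
  · -- δ ≤ a, A ≥ 1
    have hδa := hδ.2.2 heq
    have hA1 : 1 ≤ A := by
      by_contra h; rw [not_le] at h
      have h1 : A * δ ^ 2 < 1 * δ ^ 2 := mul_lt_mul_of_pos_right h (pow_pos hδ0 2)
      rw [one_mul, hA, ← heq, ← sq] at h1
      have h2 : δ ^ 2 ≤ a ^ 2 := pow_le_pow_left₀ zero_le hδa 2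
      exact absurd h1 (not_lt.mpr h2)
    rw [clip_of_ge hA1, heq, div_self (ne_of_gt hb0)]
    exact Sim.refl _ _
  · -- δ = a, A = b / a
    have hδa := hδ.2.1 hlt
    have hAa : A * a = b := by
      rw [hδa, sq, ← mul_assoc, mul_comm a b] at hA
      exact mul_right_cancel₀ (ne_of_gt ha0) hA
    have hA1 : A ≤ 1 := by
      by_contra h; rw [not_le] at h
      have : a < A * a := by
        calc a = 1 * a := (one_mul a).symm
          _ < A * a := mul_lt_mul_of_pos_right h ha0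
      rw [hAa] at this
      exact absurd hlt (not_lt.mpr this.le)
    have hAε : ε ≤ A := by
      by_contra h; rw [not_le] at h
      have : A * a < b := by
        calc A * a ≤ A * 1 := mul_le_mul' le_rfl ha1.le
          _ = A := mul_one A
          _ < ε := h
          _ < b := hb
      rw [hAa] at this
      exact lt_irrefl _ this
    rw [clip_of_mid hAε hA1]
    refine Sim.of_mul_eq_one ?_
    rw [div_eq_mul_inv, ← mul_assoc, hAa, mul_inv_cancel₀ (ne_of_gt hb0)]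

/-- interior × interior: the `B`-value (product). -/
lemma sim_prod {ε a b π B : Γ₀} (hε0 : 0 < ε) (ha : ε < a) (ha1 : a < 1) (hb : ε < b)
    (hb1 : b < 1)
    (hπ : (ε < a * b → π = a * b) ∧ (a * b < ε → π = ε) ∧ (a * b = ε → π ≤ ε))
    (hB : B * (a * b) = π ^ 2) : Sim ε (clip ε B) (a * b) := by
  have ha0 : 0 < a := lt_trans hε0 ha
  have hb0 : 0 < b := lt_trans hε0 hb
  have hab0 : 0 < a * b := mul_pos ha0 hb0
  have hε1 : ε < 1 := lt_trans ha ha1
  have hab1 : a * b ≤ 1 := by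
    calc a * b ≤ 1 * 1 := mul_le_mul' ha1.le hb1.le
      _ = 1 := one_mul 1
  have hεε : ε * ε < a * b := by
    calc ε * ε < a * ε := mul_lt_mul_of_pos_right ha hε0
      _ = ε * a := mul_comm _ _
      _ < b * a := mul_lt_mul_of_pos_right hb ha0
      _ = a * b := mul_comm _ _
  rcases lt_trichotomy (a * b) ε with hlt | heq | hlt
  · have hπε := hπ.2.1 hlt
    rw [hπε] at hB
    have hBε : ε ≤ B := by
      by_contra h; rw [not_le] at h
      have : B * (a * b) < ε ^ 2 := by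
        calc B * (a * b) ≤ ε * (a * b) := mul_le_mul' h.le le_rfl
          _ = (a * b) * ε := mul_comm _ _
          _ < ε * ε := mul_lt_mul_of_pos_right hlt hε0
          _ = ε ^ 2 := (sq ε).symm
      rw [hB] at this
      exact lt_irrefl _ this
    have hB1 : B ≤ 1 := by
      by_contra h; rw [not_le] at h
      have : ε ^ 2 < B * (a * b) := by
        calc ε ^ 2 = ε * ε := sq ε
          _ < a * b := hεε
          _ = 1 * (a * b) := (one_mul _).symm
          _ < B * (a * b) := mul_lt_mul_of_pos_right h hab0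
      rw [hB] at this
      exact lt_irrefl _ this
    rw [clip_of_mid hBε hB1]
    exact Sim.of_mul_eq_sq hB
  · have hπε := hπ.2.2 heq
    have hBε : B ≤ ε := by
      have h1 : B * (a * b) ≤ ε * (a * b) := by
        rw [hB, heq, sq]
        exact mul_le_mul' hπε hπε
      exact le_of_mul_le_mul_right h1 hab0
    rw [clip_of_le hε1.le hBε]
    exact Sim.of_eq heq.symm
  · have hπab := hπ.1 hlt
    rw [hπab, sq] at hB
    have hB' : B = a * b := mul_right_cancel₀ (ne_of_gt hab0) hB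
    rw [hB', clip_of_mid hlt.le hab1]
    exact Sim.refl _ _

end ClipSec

section NuSec
variable {K : Type*} [Field K] {Γ₀ : Type*} [LinearOrderedCommGroupWithZero Γ₀]
  (v : Valuation K Γ₀) {W : WeierstrassCurve K} (r₁ : K) (ε : Γ₀)

/-- The clipped valuation of `x(P) - r₁`: `1` on `E₀`, `ε` on `T₀`, `v (x - r₁)` in between. -/
noncomputable def nu : W.toAffine.Point → Γ₀
  | .zero => 1
  | .some x _ _ => clip ε (v (x - r₁))

@[simp] lemma nu_zero : nu v r₁ ε (0 : W.toAffine.Point) = 1 := rfl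

lemma nu_some {x y : K} (h : W.toAffine.Nonsingular x y) :
    nu v r₁ ε (Point.some x y h) = clip ε (v (x - r₁)) := rfl

lemma nu_neg (P : W.toAffine.Point) : nu v r₁ ε (-P) = nu v r₁ ε P := by
  cases P <;> rfl

lemma nu_le_one (P : W.toAffine.Point) : nu v r₁ ε P ≤ 1 := by
  cases P
  · exact le_rfl
  · exact clip_le_one _ _

lemma le_nu (hε : ε ≤ 1) (P : W.toAffine.Point) : ε ≤ nu v r₁ ε P := by
  cases P
  · exact hε
  · exact le_clip hε _

lemma nu_of_ge {x y : K} (h : W.toAffine.Nonsingular x y) (hx : 1 ≤ v (x - r₁)) :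
    nu v r₁ ε (Point.some x y h) = 1 := by
  rw [nu_some, clip_of_ge hx]

lemma nu_of_mid {x y : K} (h : W.toAffine.Nonsingular x y) (hl : ε ≤ v (x - r₁))
    (hu : v (x - r₁) ≤ 1) : nu v r₁ ε (Point.some x y h) = v (x - r₁) := by
  rw [nu_some, clip_of_mid hl hu]

lemma nu_of_le {x y : K} (hε : ε ≤ 1) (h : W.toAffine.Nonsingular x y) (hx : v (x - r₁) ≤ ε) :
    nu v r₁ ε (Point.some x y h) = ε := by
  rw [nu_some, clip_of_le hε hx]

/-- If `nu P < 1` then `P` is affine with `v (x - r₁) < 1`. -/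
lemma exists_of_nu_lt_one {P : W.toAffine.Point} (hP : nu v r₁ ε P < 1) :
    ∃ (x y : K) (h : W.toAffine.Nonsingular x y), P = Point.some x y h ∧ v (x - r₁) < 1 := by
  cases P with
  | zero => exact absurd hP (lt_irrefl _)
  | some x y h =>
    refine ⟨x, y, h, rfl, ?_⟩
    rw [nu_some] at hP
    by_contra hx
    rw [not_lt] at hx
    rw [clip_of_ge hx] at hP
    exact lt_irrefl _ hP

end NuSec

end Fermat.Agent.S05
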