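/-
S05, tropical step (helper63): the induction `ν(m•P) ∼ ν(P)^m` from the quasi-parallelogram
law (taken as a hypothesis `hqp`), and the resulting statement on odd torsion points.
-/
import Mathlib
import Fermat.Agent.S05.TropDefs

set_option autoImplicit false

namespace Fermat.Agent.S05

open WeierstrassCurve WeierstrassCurve.Affine

section TropIndSec

variable {K : Type*} [Field K] [DecidableEq K] {Γ₀ : Type*} [LinearOrderedCommGroupWithZero Γ₀]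

/-- The induction: from the quasi-parallelogram law, `ν(m•P) ∼ ν(P)^m` for all `m`. -/
theorem tropInd_sim_nsmul (v : Valuation K Γ₀) {W : WeierstrassCurve K} {r₁ e₂ : K}
    (he₂0 : e₂ ≠ 0)
    (hqp : ∀ P₁ P₂ : W.toAffine.Point, nu v r₁ (v e₂) P₂ < 1 →
       (Sim (v e₂) (nu v r₁ (v e₂) (P₁ + P₂)) (nu v r₁ (v e₂) P₁ * nu v r₁ (v e₂) P₂) ∧
         Sim (v e₂) (nu v r₁ (v e₂) (P₁ - P₂)) (nu v r₁ (v e₂) P₁ / nu v r₁ (v e₂) P₂)) ∨
       (Sim (v e₂) (nu v r₁ (v e₂) (P₁ + P₂)) (nu v r₁ (v e₂) P₁ / nu v r₁ (v e₂) P₂) ∧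
         Sim (v e₂) (nu v r₁ (v e₂) (P₁ - P₂)) (nu v r₁ (v e₂) P₁ * nu v r₁ (v e₂) P₂)))
    (P : W.toAffine.Point) (hP : nu v r₁ (v e₂) P < 1) (hP0 : nu v r₁ (v e₂) P ≠ 0) (m : ℕ) :
    Sim (v e₂) (nu v r₁ (v e₂) (m • P)) (nu v r₁ (v e₂) P ^ (m : ℤ)) ∧
      Sim (v e₂) (nu v r₁ (v e₂) ((m + 1) • P)) (nu v r₁ (v e₂) P ^ ((m : ℤ) + 1)) := by
  have hε : v e₂ ≠ 0 := (Valuation.ne_zero_iff v).mpr he₂0
  induction m with
  | zero =>
    refine ⟨?_, ?_⟩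
    · rw [zero_smul, nu_zero]
      exact Sim.of_eq (by simp)
    · rw [zero_add, one_smul]
      exact Sim.of_eq (by simp)
  | succ m ih =>
    obtain ⟨ih0, ih1⟩ := ih
    refine ⟨by exact_mod_cast ih1, ?_⟩
    have hsum : (m + 1 + 1) • P = (m + 1) • P + P := succ_nsmul P (m + 1)
    have hdiff : (m + 1) • P - P = m • P := by
      rw [succ_nsmul]; abel
    have hcast : (((m + 1 : ℕ) : ℤ) + 1) = (m : ℤ) + 1 + 1 := by push_cast; ring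
    have hm1 : ((m : ℤ) + 1 - 1) = (m : ℤ) := by ring
    rw [hsum, hcast]
    have hstep := Sim.step (ε := v e₂) hP0 ((m : ℤ) + 1) ih1
    rw [hm1] at hstep
    rcases hqp ((m + 1) • P) P hP with ⟨hA1, hA2⟩ | ⟨hB1, hB2⟩
    · rcases hstep with ⟨hi1, _⟩ | ⟨hii1, hii2⟩
      · exact Sim.trans hε hA1 hi1
      · rw [hdiff] at hA2
        -- N((m+2)P) ∼ a*ν ∼ ν^m ∼ N(mP) ∼ a/ν ∼ ν^(m+2)
        exact Sim.trans hε (Sim.trans hε (Sim.trans hε (Sim.trans hε hA1 hii1)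
          (Sim.symm hε ih0)) hA2) hii2
    · rcases hstep with ⟨hi1, hi2⟩ | ⟨_, hii2⟩
      · rw [hdiff] at hB2
        -- N((m+2)P) ∼ a/ν ∼ ν^m ∼ N(mP) ∼ a*ν ∼ ν^(m+2)
        exact Sim.trans hε (Sim.trans hε (Sim.trans hε (Sim.trans hε hB1 hi2)
          (Sim.symm hε ih0)) hB2) hi1
      · exact Sim.trans hε hB1 hii2

/-- **Tropical step from the quasi-parallelogram law.** An odd-torsion point with
`v (x - r₁) < 1` satisfies `v e₂ < v (x - r₁)` and `v (x - r₁) ^ p ∈ (v e₂) ^ (2ℤ)`. -/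
theorem tropical_torsion_of_qp (v : Valuation K Γ₀) {W : WeierstrassCurve K} {r₁ e₂ : K}
    (he₂ : v e₂ < 1) (he₂0 : e₂ ≠ 0)
    (hqp : ∀ P₁ P₂ : W.toAffine.Point, nu v r₁ (v e₂) P₂ < 1 →
       (Sim (v e₂) (nu v r₁ (v e₂) (P₁ + P₂)) (nu v r₁ (v e₂) P₁ * nu v r₁ (v e₂) P₂) ∧
         Sim (v e₂) (nu v r₁ (v e₂) (P₁ - P₂)) (nu v r₁ (v e₂) P₁ / nu v r₁ (v e₂) P₂)) ∨
       (Sim (v e₂) (nu v r₁ (v e₂) (P₁ + P₂)) (nu v r₁ (v e₂) P₁ / nu v r₁ (v e₂) P₂) ∧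
         Sim (v e₂) (nu v r₁ (v e₂) (P₁ - P₂)) (nu v r₁ (v e₂) P₁ * nu v r₁ (v e₂) P₂)))
    {p : ℕ} (hp : Odd p) {x y : K} (h : W.toAffine.Nonsingular x y)
    (htors : p • (Point.some x y h) = 0) (hx : v (x - r₁) < 1) :
    v e₂ < v (x - r₁) ∧ ∃ k : ℤ, v (x - r₁) ^ p = v e₂ ^ (2 * k) := by
  have hε : v e₂ ≠ 0 := (Valuation.ne_zero_iff v).mpr he₂0
  have hε0 : 0 < v e₂ := zero_lt_iff.mpr hε
  -- ν := N P
  have hν1 : nu v r₁ (v e₂) (Point.some x y h) < 1 := by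
    rw [nu_some, clip]
    exact lt_of_le_of_lt (min_le_right _ _) (max_lt he₂ hx)
  have hνε : v e₂ ≤ nu v r₁ (v e₂) (Point.some x y h) := le_nu v r₁ (v e₂) he₂.le _
  have hν0 : nu v r₁ (v e₂) (Point.some x y h) ≠ 0 := ne_of_gt (lt_of_lt_of_le hε0 hνε)
  have hind := (tropInd_sim_nsmul v he₂0 hqp (Point.some x y h) hν1 hν0 p).1
  rw [htors, nu_zero] at hind
  -- ν ^ p = ε ^ (2k)
  have hpow : ∃ k : ℤ, nu v r₁ (v e₂) (Point.some x y h) ^ (p : ℤ) = v e₂ ^ (2 * k) := by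
    obtain ⟨k, hk | hk⟩ := hind
    · refine ⟨-k, ?_⟩
      have hk0 : v e₂ ^ (2 * k) ≠ 0 := zpow_ne_zero _ hε
      apply mul_right_cancel₀ hk0
      rw [← hk, ← zpow_add₀ hε]
      have : 2 * -k + 2 * k = 0 := by ring
      rw [this, zpow_zero]
    · exact ⟨k, by rw [← hk, one_mul]⟩
  have hlt : v e₂ < v (x - r₁) := by
    by_contra hcon
    rw [not_lt] at hcon
    rw [nu_of_le v r₁ (v e₂) he₂.le h hcon] at hpow
    obtain ⟨k, hk⟩ := hpow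
    have hinj : (p : ℤ) = 2 * k := by
      rcases lt_trichotomy (p : ℤ) (2 * k) with hlt' | heq | hgt
      · exact absurd hk (ne_of_gt (zpow_lt_zpow_right_of_lt_one₀ hε0 he₂ hlt'))
      · exact heq
      · exact absurd hk (ne_of_lt (zpow_lt_zpow_right_of_lt_one₀ hε0 he₂ hgt))
    obtain ⟨j, hj⟩ := hp
    rw [hj] at hinj
    push_cast at hinj
    omega
  refine ⟨hlt, ?_⟩
  rw [nu_of_mid v r₁ (v e₂) h hlt.le hx.le] at hpow
  obtain ⟨k, hk⟩ := hpow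
  exact ⟨k, by rw [← hk, zpow_natCast]⟩

end TropIndSec

end Fermat.Agent.S05
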