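/-
S05, tropical step (helper5): the `x`-only identities of `Coords.lean`, translated to the
coordinate `X = x - r₁` centred at the node, when the 2-division cubic of `W` is
`4 (x - r₁) (x - r₁ - e₂) (x - r₁ - e₃)`.  Pure algebra.
-/
import Mathlib
import Fermat.Agent.S05.Coords

set_option autoImplicit false

namespace Fermat.Agent.S05

open WeierstrassCurve WeierstrassCurve.Affine

section Algebra

variable {K : Type*} [Field K] {W : WeierstrassCurve K} {r₁ e₂ e₃ : K}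

lemma tropAlg_four_ne_zero (h2 : (2 : K) ≠ 0) : (4 : K) ≠ 0 := by
  have : (4 : K) = 2 * 2 := by norm_num
  rw [this]; exact mul_ne_zero h2 h2

/-- The cubic in root form. -/
lemma cub_eq_of_roots (hb₂ : W.b₂ = -4 * (3 * r₁ + e₂ + e₃))
    (hb₄ : W.b₄ = 2 * (r₁ * (r₁ + e₂) + r₁ * (r₁ + e₃) + (r₁ + e₂) * (r₁ + e₃)))
    (hb₆ : W.b₆ = -4 * (r₁ * (r₁ + e₂) * (r₁ + e₃))) (x : K) :
    cub W x = 4 * ((x - r₁) * ((x - r₁) - e₂) * ((x - r₁) - e₃)) := by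
  simp only [cub, hb₂, hb₄, hb₆]; ring

/-- Translated product identity. -/
lemma prod_identity' (h2 : (2 : K) ≠ 0) (hb₂ : W.b₂ = -4 * (3 * r₁ + e₂ + e₃))
    (hb₄ : W.b₄ = 2 * (r₁ * (r₁ + e₂) + r₁ * (r₁ + e₃) + (r₁ + e₂) * (r₁ + e₃)))
    (hb₆ : W.b₆ = -4 * (r₁ * (r₁ + e₂) * (r₁ + e₃))) {x₁ x₂ xs xd : K}
    (hS : (xs + xd) * (x₁ - x₂) ^ 2 =
      2 * x₁ * x₂ * (x₁ + x₂) + W.b₂ * x₁ * x₂ + W.b₄ * (x₁ + x₂) + W.b₆)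
    (hP : xs * xd * (x₁ - x₂) ^ 2 =
      x₁ ^ 2 * x₂ ^ 2 - W.b₄ * x₁ * x₂ - W.b₆ * (x₁ + x₂) - W.b₈) :
    (xs - r₁) * (xd - r₁) * ((x₁ - r₁) - (x₂ - r₁)) ^ 2 =
      ((x₁ - r₁) * (x₂ - r₁) - e₂ * e₃) ^ 2 := by
  have h4 := tropAlg_four_ne_zero h2
  have hb8 := W.b_relation
  rw [hb₂, hb₄, hb₆] at hb8
  rw [hb₂, hb₄, hb₆] at hS
  rw [hb₄, hb₆] at hP
  have : 4 * ((xs - r₁) * (xd - r₁) * ((x₁ - r₁) - (x₂ - r₁)) ^ 2 -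
      ((x₁ - r₁) * (x₂ - r₁) - e₂ * e₃) ^ 2) = 0 := by
    linear_combination 4 * hP - 4 * r₁ * hS - hb8
  exact sub_eq_zero.mp ((mul_eq_zero.mp this).resolve_left h4)

/-- Translated sum identity. -/
lemma sum_identity' (hb₂ : W.b₂ = -4 * (3 * r₁ + e₂ + e₃))
    (hb₄ : W.b₄ = 2 * (r₁ * (r₁ + e₂) + r₁ * (r₁ + e₃) + (r₁ + e₂) * (r₁ + e₃)))
    (hb₆ : W.b₆ = -4 * (r₁ * (r₁ + e₂) * (r₁ + e₃))) {x₁ x₂ xs xd : K}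
    (hS : (xs + xd) * (x₁ - x₂) ^ 2 =
      2 * x₁ * x₂ * (x₁ + x₂) + W.b₂ * x₁ * x₂ + W.b₄ * (x₁ + x₂) + W.b₆) :
    ((xs - r₁) + (xd - r₁)) * ((x₁ - r₁) - (x₂ - r₁)) ^ 2 =
      2 * (((x₁ - r₁) + (x₂ - r₁)) * ((x₁ - r₁) * (x₂ - r₁) + e₂ * e₃)
        - 2 * (e₂ + e₃) * ((x₁ - r₁) * (x₂ - r₁))) := by
  rw [hb₂, hb₄, hb₆] at hS
  linear_combination hS

/-- Translated duplication identity. -/
lemma dup_identity' (h2 : (2 : K) ≠ 0) (hb₂ : W.b₂ = -4 * (3 * r₁ + e₂ + e₃))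
    (hb₄ : W.b₄ = 2 * (r₁ * (r₁ + e₂) + r₁ * (r₁ + e₃) + (r₁ + e₂) * (r₁ + e₃)))
    (hb₆ : W.b₆ = -4 * (r₁ * (r₁ + e₂) * (r₁ + e₃))) {x x₃ η : K}
    (hη : η ^ 2 = cub W x) (hD : x₃ * η ^ 2 = dupNum W x) :
    (x₃ - r₁) * η ^ 2 = ((x - r₁) ^ 2 - e₂ * e₃) ^ 2 := by
  have h4 := tropAlg_four_ne_zero h2
  have hb8 := W.b_relation
  rw [hb₂, hb₄, hb₆] at hb8
  simp only [dupNum, hb₄, hb₆] at hD
  simp only [cub, hb₂, hb₄, hb₆] at hη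
  have : 4 * ((x₃ - r₁) * η ^ 2 - ((x - r₁) ^ 2 - e₂ * e₃) ^ 2) = 0 := by
    linear_combination 4 * hD - 4 * r₁ * hη - hb8
  exact sub_eq_zero.mp ((mul_eq_zero.mp this).resolve_left h4)

end Algebra

end Fermat.Agent.S05
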