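import Mathlib

/-!
# S05, tropical step: pure valuation case lemmas

`Xs`, `Xd` stand for `x(P₁ + P₂) - r₁`, `x(P₁ - P₂) - r₁` on the curve
`η² = 4 X (X - e₂) (X - e₃)` (`X = x - r₁`); they satisfy the x-only sum/product identities
`hS`, `hP`.  Regions for `X`: `E₀ = {1 ≤ v X}`, interior `= {v e₂ < v X < 1}`,
`T₀ = {v X ≤ v e₂}`.
-/

set_option autoImplicit false
set_option linter.unusedVariables false

namespace Fermat.Agent.S05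

variable {K : Type*} [Field K] {Γ₀ : Type*} [LinearOrderedCommGroupWithZero Γ₀]
  (v : Valuation K Γ₀) {e₂ e₃ X₁ X₂ Xs Xd : K}

/-- Newton polygon of a quadratic, equal slopes: if `v (s + d) ^ 2 ≤ v s * v d` then
`v s = v d`. -/
theorem trop_np_eq {s d : K} (h : v (s + d) ^ 2 ≤ v s * v d) : v s = v d := by
  by_contra hne
  rcases lt_or_gt_of_ne hne with hlt | hlt
  · have h1 : v (s + d) = v d := v.map_add_eq_of_lt_right hlt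
    rw [h1] at h
    have hd0 : 0 < v d := lt_of_le_of_lt zero_le hlt
    have : v s * v d < v d * v d := mul_lt_mul_of_pos_right hlt hd0
    rw [pow_two] at h
    exact absurd h (not_le.2 this)
  · have h1 : v (s + d) = v s := v.map_add_eq_of_lt_left hlt
    rw [h1] at h
    have hs0 : 0 < v s := lt_of_le_of_lt zero_le hlt
    have : v s * v d < v s * v s := mul_lt_mul_of_pos_left hlt hs0
    rw [pow_two] at h
    exact absurd h (not_le.2 this)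


theorem trop_E0_int (h2 : v (2 : K) = 1) (he₃ : v e₃ = 1) (he₂ : v e₂ < 1) (he₂0 : e₂ ≠ 0)
    (hne : X₁ ≠ X₂)
    (hS : (Xs + Xd) * (X₁ - X₂) ^ 2 =
      2 * ((X₁ + X₂) * (X₁ * X₂ + e₂ * e₃) - 2 * (e₂ + e₃) * (X₁ * X₂)))
    (hP : Xs * Xd * (X₁ - X₂) ^ 2 = (X₁ * X₂ - e₂ * e₃) ^ 2)
    (h₁ : 1 ≤ v X₁) (h₂l : v e₂ < v X₂) (h₂u : v X₂ < 1) :
    v Xs = v X₂ ∧ v Xd = v X₂ := by
  have ha0 : 0 < v X₁ := lt_of_lt_of_le zero_lt_one h₁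
  have hb0 : 0 < v X₂ := lt_of_le_of_lt zero_le h₂l
  have hlt : v X₂ < v X₁ := lt_of_lt_of_le h₂u h₁
  -- δ = v X₁
  have hδ : v (X₁ - X₂) = v X₁ := v.map_sub_eq_of_lt_left hlt
  -- v (X₁ X₂ - e₂ e₃) = v X₁ * v X₂
  have hee : v (e₂ * e₃) = v e₂ := by rw [v.map_mul, he₃, mul_one]
  have hprod : v (X₁ * X₂) = v X₁ * v X₂ := v.map_mul _ _
  have hlt2 : v (e₂ * e₃) < v (X₁ * X₂) := by
    rw [hee, hprod]
    calc v e₂ < v X₂ := h₂l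
      _ = 1 * v X₂ := (one_mul _).symm
      _ ≤ v X₁ * v X₂ := by gcongr
  have hnum : v (X₁ * X₂ - e₂ * e₃) = v X₁ * v X₂ := by
    rw [v.map_sub_eq_of_lt_left hlt2, hprod]
  -- v Π = v X₂ ^ 2
  have hPi : v Xs * v Xd = v X₂ ^ 2 := by
    have : v (Xs * Xd * (X₁ - X₂) ^ 2) = v ((X₁ * X₂ - e₂ * e₃) ^ 2) := by rw [hP]
    rw [v.map_mul, v.map_mul, v.map_pow, v.map_pow, hδ, hnum, mul_pow] at this
    have h3 : v X₁ ^ 2 ≠ 0 := pow_ne_zero 2 ha0.ne'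
    exact mul_right_cancel₀ h3 (this.trans (mul_comm _ _))
  -- v S ≤ v X₂
  have hSle : v (Xs + Xd) ≤ v X₂ := by
    have : v ((Xs + Xd) * (X₁ - X₂) ^ 2) =
        v (2 * ((X₁ + X₂) * (X₁ * X₂ + e₂ * e₃) - 2 * (e₂ + e₃) * (X₁ * X₂))) := by rw [hS]
    rw [v.map_mul, v.map_pow, hδ, v.map_mul, h2, one_mul] at this
    have hA : v ((X₁ + X₂) * (X₁ * X₂ + e₂ * e₃)) ≤ v X₁ ^ 2 * v X₂ := by
      rw [v.map_mul]
      have hA1 : v (X₁ + X₂) ≤ v X₁ := by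
        rw [v.map_add_eq_of_lt_left hlt]
      have hA2 : v (X₁ * X₂ + e₂ * e₃) ≤ v X₁ * v X₂ := by
        rw [v.map_add_eq_of_lt_left hlt2, hprod]
      calc v (X₁ + X₂) * v (X₁ * X₂ + e₂ * e₃) ≤ v X₁ * (v X₁ * v X₂) := by gcongr
        _ = v X₁ ^ 2 * v X₂ := by rw [pow_two, mul_assoc]
    have hB : v (2 * (e₂ + e₃) * (X₁ * X₂)) ≤ v X₁ ^ 2 * v X₂ := by
      rw [v.map_mul, v.map_mul, h2, one_mul, hprod]
      have : v (e₂ + e₃) ≤ 1 := v.map_add_le he₂.le he₃.le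
      calc v (e₂ + e₃) * (v X₁ * v X₂) ≤ 1 * (v X₁ * v X₂) := by gcongr
        _ = 1 * v X₁ * v X₂ := by rw [mul_assoc]
        _ ≤ v X₁ * v X₁ * v X₂ := by gcongr
        _ = v X₁ ^ 2 * v X₂ := by rw [pow_two]
    have hN : v ((X₁ + X₂) * (X₁ * X₂ + e₂ * e₃) - 2 * (e₂ + e₃) * (X₁ * X₂))
        ≤ v X₁ ^ 2 * v X₂ := v.map_sub_le hA hB
    rw [← this] at hN
    have h3 : 0 < v X₁ ^ 2 := pow_pos ha0 2
    rw [mul_comm] at hN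
    exact le_of_mul_le_mul_left hN h3
  have hnp : v (Xs + Xd) ^ 2 ≤ v Xs * v Xd := by
    rw [hPi]; gcongr
  have heq := trop_np_eq v hnp
  rw [← heq, ← pow_two] at hPi
  have h1 : v Xs = v X₂ := (pow_left_inj₀ zero_le zero_le (by norm_num)).1 hPi
  exact ⟨h1, heq ▸ h1⟩


/-- Newton polygon, both roots small: if `v s * v d ≤ ε²` and `v (s + d) ≤ ε` then
`v s ≤ ε` and `v d ≤ ε`. -/
theorem trop_np_le {s d : K} {ε : Γ₀} (hpi : v s * v d ≤ ε ^ 2) (hs : v (s + d) ≤ ε) :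
    v s ≤ ε ∧ v d ≤ ε := by
  have key : ∀ {s d : K}, v s * v d ≤ ε ^ 2 → v (s + d) ≤ ε → v s ≤ ε := by
    intro s d hpi hs
    by_contra hcon
    rw [not_le] at hcon
    have hs0 : 0 < v s := lt_of_le_of_lt zero_le hcon
    have h1 : v s * v d < v s * v s := by
      calc v s * v d ≤ ε ^ 2 := hpi
        _ = ε * ε := pow_two _
        _ ≤ ε * v s := by gcongr
        _ < v s * v s := mul_lt_mul_of_pos_right hcon hs0
    have h2 : v d < v s := lt_of_mul_lt_mul_left h1 zero_le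
    have h3 : v (s + d) = v s := v.map_add_eq_of_lt_left h2
    rw [h3] at hs
    exact absurd hs (not_le.2 hcon)
  refine ⟨key hpi hs, key (s := d) (d := s) ?_ ?_⟩
  · rw [mul_comm]; exact hpi
  · rw [add_comm]; exact hs

/-- Newton polygon, both roots large: if `1 ≤ v s * v d` and `v (s + d) ≤ v s * v d` then
`1 ≤ v s` and `1 ≤ v d`. -/
theorem trop_np_ge {s d : K} (hpi : 1 ≤ v s * v d) (hs : v (s + d) ≤ v s * v d) :
    1 ≤ v s ∧ 1 ≤ v d := by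
  have key : ∀ {s d : K}, 1 ≤ v s * v d → v (s + d) ≤ v s * v d → 1 ≤ v s := by
    intro s d hpi hs
    by_contra hcon
    rw [not_le] at hcon
    have hd0 : 0 < v d := by
      rw [zero_lt_iff]
      intro h0
      rw [h0, mul_zero] at hpi
      exact absurd hpi (not_le.2 zero_lt_one)
    have h1 : v s * v d < v d := by
      calc v s * v d < 1 * v d := mul_lt_mul_of_pos_right hcon hd0
        _ = v d := one_mul _
    have h2 : v s < v d := lt_of_lt_of_le hcon (le_trans hpi h1.le)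
    have h3 : v (s + d) = v d := v.map_add_eq_of_lt_right h2
    rw [h3] at hs
    exact absurd hs (not_le.2 h1)
  refine ⟨key hpi hs, key (s := d) (d := s) ?_ ?_⟩
  · rw [mul_comm]; exact hpi
  · rw [add_comm, mul_comm]; exact hs

theorem trop_E0_T0 (h2 : v (2 : K) = 1) (he₃ : v e₃ = 1) (he₂ : v e₂ < 1) (he₂0 : e₂ ≠ 0)
    (hne : X₁ ≠ X₂)
    (hS : (Xs + Xd) * (X₁ - X₂) ^ 2 =
      2 * ((X₁ + X₂) * (X₁ * X₂ + e₂ * e₃) - 2 * (e₂ + e₃) * (X₁ * X₂)))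
    (hP : Xs * Xd * (X₁ - X₂) ^ 2 = (X₁ * X₂ - e₂ * e₃) ^ 2)
    (h₁ : 1 ≤ v X₁) (h₂ : v X₂ ≤ v e₂) :
    v Xs ≤ v e₂ ∧ v Xd ≤ v e₂ := by
  have ha0 : 0 < v X₁ := lt_of_lt_of_le zero_lt_one h₁
  have hlt : v X₂ < v X₁ := lt_of_le_of_lt h₂ (lt_of_lt_of_le he₂ h₁)
  have hδ : v (X₁ - X₂) = v X₁ := v.map_sub_eq_of_lt_left hlt
  have hee : v (e₂ * e₃) = v e₂ := by rw [v.map_mul, he₃, mul_one]
  have hprod : v (X₁ * X₂) = v X₁ * v X₂ := v.map_mul _ _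
  have hprod_le : v (X₁ * X₂) ≤ v X₁ * v e₂ := by rw [hprod]; gcongr
  have hee_le : v (e₂ * e₃) ≤ v X₁ * v e₂ := by
    rw [hee]
    calc v e₂ = 1 * v e₂ := (one_mul _).symm
      _ ≤ v X₁ * v e₂ := by gcongr
  have hnum : v (X₁ * X₂ - e₂ * e₃) ≤ v X₁ * v e₂ := v.map_sub_le hprod_le hee_le
  have hnum' : v (X₁ * X₂ + e₂ * e₃) ≤ v X₁ * v e₂ := v.map_add_le hprod_le hee_le
  have h3 : 0 < v X₁ ^ 2 := pow_pos ha0 2
  have hPi : v Xs * v Xd ≤ v e₂ ^ 2 := by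
    have : v (Xs * Xd * (X₁ - X₂) ^ 2) = v ((X₁ * X₂ - e₂ * e₃) ^ 2) := by rw [hP]
    rw [v.map_mul, v.map_mul, v.map_pow, v.map_pow, hδ] at this
    have h4 : v Xs * v Xd * v X₁ ^ 2 ≤ v e₂ ^ 2 * v X₁ ^ 2 := by
      rw [this, ← mul_pow, mul_comm (v e₂)]
      gcongr
    exact le_of_mul_le_mul_right h4 h3
  have hSle : v (Xs + Xd) ≤ v e₂ := by
    have : v ((Xs + Xd) * (X₁ - X₂) ^ 2) =
        v (2 * ((X₁ + X₂) * (X₁ * X₂ + e₂ * e₃) - 2 * (e₂ + e₃) * (X₁ * X₂))) := by rw [hS]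
    rw [v.map_mul, v.map_pow, hδ, v.map_mul, h2, one_mul] at this
    have hA : v ((X₁ + X₂) * (X₁ * X₂ + e₂ * e₃)) ≤ v X₁ ^ 2 * v e₂ := by
      rw [v.map_mul]
      have hA1 : v (X₁ + X₂) ≤ v X₁ := by
        rw [v.map_add_eq_of_lt_left hlt]
      calc v (X₁ + X₂) * v (X₁ * X₂ + e₂ * e₃) ≤ v X₁ * (v X₁ * v e₂) := by gcongr
        _ = v X₁ ^ 2 * v e₂ := by rw [pow_two, mul_assoc]
    have hB : v (2 * (e₂ + e₃) * (X₁ * X₂)) ≤ v X₁ ^ 2 * v e₂ := by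
      rw [v.map_mul, v.map_mul, h2, one_mul]
      have : v (e₂ + e₃) ≤ 1 := v.map_add_le he₂.le he₃.le
      calc v (e₂ + e₃) * v (X₁ * X₂) ≤ 1 * (v X₁ * v e₂) := by gcongr
        _ = 1 * v X₁ * v e₂ := by rw [mul_assoc]
        _ ≤ v X₁ * v X₁ * v e₂ := by gcongr
        _ = v X₁ ^ 2 * v e₂ := by rw [pow_two]
    have hN : v ((X₁ + X₂) * (X₁ * X₂ + e₂ * e₃) - 2 * (e₂ + e₃) * (X₁ * X₂))
        ≤ v X₁ ^ 2 * v e₂ := v.map_sub_le hA hB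
    rw [← this] at hN
    rw [mul_comm] at hN
    exact le_of_mul_le_mul_left hN h3
  exact trop_np_le v hPi hSle

theorem trop_T0_int (h2 : v (2 : K) = 1) (he₃ : v e₃ = 1) (he₂ : v e₂ < 1) (he₂0 : e₂ ≠ 0)
    (hne : X₁ ≠ X₂)
    (hS : (Xs + Xd) * (X₁ - X₂) ^ 2 =
      2 * ((X₁ + X₂) * (X₁ * X₂ + e₂ * e₃) - 2 * (e₂ + e₃) * (X₁ * X₂)))
    (hP : Xs * Xd * (X₁ - X₂) ^ 2 = (X₁ * X₂ - e₂ * e₃) ^ 2)
    (h₁ : v X₁ ≤ v e₂) (h₂l : v e₂ < v X₂) (h₂u : v X₂ < 1) :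
    v Xs * v X₂ = v e₂ ∧ v Xd * v X₂ = v e₂ := by
  have hε0 : 0 < v e₂ := by rw [zero_lt_iff, v.ne_zero_iff]; exact he₂0
  have hb0 : 0 < v X₂ := lt_trans hε0 h₂l
  have hlt : v X₁ < v X₂ := lt_of_le_of_lt h₁ h₂l
  have hδ : v (X₁ - X₂) = v X₂ := v.map_sub_eq_of_lt_right hlt
  have hee : v (e₂ * e₃) = v e₂ := by rw [v.map_mul, he₃, mul_one]
  have hprod : v (X₁ * X₂) = v X₁ * v X₂ := v.map_mul _ _
  have hprod_lt : v (X₁ * X₂) < v (e₂ * e₃) := by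
    rw [hprod, hee]
    calc v X₁ * v X₂ ≤ v e₂ * v X₂ := by gcongr
      _ < v e₂ * 1 := mul_lt_mul_of_pos_left h₂u hε0
      _ = v e₂ := mul_one _
  have hnum : v (X₁ * X₂ - e₂ * e₃) = v e₂ := by
    rw [v.map_sub_eq_of_lt_right hprod_lt, hee]
  have hnum' : v (X₁ * X₂ + e₂ * e₃) = v e₂ := by
    rw [v.map_add_eq_of_lt_right hprod_lt, hee]
  have h3 : 0 < v X₂ ^ 2 := pow_pos hb0 2
  have hPi : v Xs * v Xd * v X₂ ^ 2 = v e₂ ^ 2 := by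
    have : v (Xs * Xd * (X₁ - X₂) ^ 2) = v ((X₁ * X₂ - e₂ * e₃) ^ 2) := by rw [hP]
    rw [v.map_mul, v.map_mul, v.map_pow, v.map_pow, hδ, hnum] at this
    exact this
  have hSle : v (Xs + Xd) * v X₂ ≤ v e₂ := by
    have : v ((Xs + Xd) * (X₁ - X₂) ^ 2) =
        v (2 * ((X₁ + X₂) * (X₁ * X₂ + e₂ * e₃) - 2 * (e₂ + e₃) * (X₁ * X₂))) := by rw [hS]
    rw [v.map_mul, v.map_pow, hδ, v.map_mul, h2, one_mul] at this
    have hA : v ((X₁ + X₂) * (X₁ * X₂ + e₂ * e₃)) ≤ v e₂ * v X₂ := by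
      rw [v.map_mul, hnum', v.map_add_eq_of_lt_right hlt, mul_comm]
    have hB : v (2 * (e₂ + e₃) * (X₁ * X₂)) ≤ v e₂ * v X₂ := by
      rw [v.map_mul, v.map_mul, h2, one_mul, hprod]
      have : v (e₂ + e₃) ≤ 1 := v.map_add_le he₂.le he₃.le
      calc v (e₂ + e₃) * (v X₁ * v X₂) ≤ 1 * (v e₂ * v X₂) := by gcongr
        _ = v e₂ * v X₂ := one_mul _
    have hN : v ((X₁ + X₂) * (X₁ * X₂ + e₂ * e₃) - 2 * (e₂ + e₃) * (X₁ * X₂))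
        ≤ v e₂ * v X₂ := v.map_sub_le hA hB
    rw [← this] at hN
    have hN' : v (Xs + Xd) * v X₂ * v X₂ ≤ v e₂ * v X₂ := by
      rw [mul_assoc, ← pow_two]; exact hN
    exact le_of_mul_le_mul_right hN' hb0
  have hnp : v (Xs + Xd) ^ 2 ≤ v Xs * v Xd := by
    have h5 : v (Xs + Xd) ^ 2 * v X₂ ^ 2 ≤ v Xs * v Xd * v X₂ ^ 2 := by
      rw [hPi, ← mul_pow]
      gcongr
    exact le_of_mul_le_mul_right h5 h3
  have heq := trop_np_eq v hnp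
  have h6 : (v Xs * v X₂) ^ 2 = v e₂ ^ 2 := by
    rw [← hPi, ← heq, mul_pow, pow_two (v Xs)]
  have h1 : v Xs * v X₂ = v e₂ := (pow_left_inj₀ zero_le zero_le (by norm_num)).1 h6
  exact ⟨h1, heq ▸ h1⟩

theorem trop_T0_T0 (h2 : v (2 : K) = 1) (he₃ : v e₃ = 1) (he₂ : v e₂ < 1) (he₂0 : e₂ ≠ 0)
    (hne : X₁ ≠ X₂)
    (hS : (Xs + Xd) * (X₁ - X₂) ^ 2 =
      2 * ((X₁ + X₂) * (X₁ * X₂ + e₂ * e₃) - 2 * (e₂ + e₃) * (X₁ * X₂)))
    (hP : Xs * Xd * (X₁ - X₂) ^ 2 = (X₁ * X₂ - e₂ * e₃) ^ 2)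
    (h₁ : v X₁ ≤ v e₂) (h₂ : v X₂ ≤ v e₂) :
    1 ≤ v Xs ∧ 1 ≤ v Xd := by
  have hε0 : 0 < v e₂ := by rw [zero_lt_iff, v.ne_zero_iff]; exact he₂0
  have hδle : v (X₁ - X₂) ≤ v e₂ := v.map_sub_le h₁ h₂
  have hδ0 : 0 < v (X₁ - X₂) := by
    rw [zero_lt_iff, v.ne_zero_iff]; exact sub_ne_zero.2 hne
  have hee : v (e₂ * e₃) = v e₂ := by rw [v.map_mul, he₃, mul_one]
  have hprod : v (X₁ * X₂) = v X₁ * v X₂ := v.map_mul _ _
  have hprod_le : v (X₁ * X₂) ≤ v e₂ ^ 2 := by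
    rw [hprod, pow_two]; gcongr
  have hsq_lt : v e₂ ^ 2 < v e₂ := by
    calc v e₂ ^ 2 = v e₂ * v e₂ := pow_two _
      _ < v e₂ * 1 := mul_lt_mul_of_pos_left he₂ hε0
      _ = v e₂ := mul_one _
  have hprod_lt : v (X₁ * X₂) < v (e₂ * e₃) := by
    rw [hee]; exact lt_of_le_of_lt hprod_le hsq_lt
  have hnum : v (X₁ * X₂ - e₂ * e₃) = v e₂ := by
    rw [v.map_sub_eq_of_lt_right hprod_lt, hee]
  have hnum' : v (X₁ * X₂ + e₂ * e₃) = v e₂ := by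
    rw [v.map_add_eq_of_lt_right hprod_lt, hee]
  have h3 : 0 < v (X₁ - X₂) ^ 2 := pow_pos hδ0 2
  have hPi : v Xs * v Xd * v (X₁ - X₂) ^ 2 = v e₂ ^ 2 := by
    have : v (Xs * Xd * (X₁ - X₂) ^ 2) = v ((X₁ * X₂ - e₂ * e₃) ^ 2) := by rw [hP]
    rw [v.map_mul, v.map_mul, v.map_pow, v.map_pow, hnum] at this
    exact this
  have hPi1 : 1 ≤ v Xs * v Xd := by
    have h5 : 1 * v (X₁ - X₂) ^ 2 ≤ v Xs * v Xd * v (X₁ - X₂) ^ 2 := by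
      rw [hPi, one_mul]
      gcongr
    exact le_of_mul_le_mul_right h5 h3
  have hSle : v (Xs + Xd) ≤ v Xs * v Xd := by
    have : v ((Xs + Xd) * (X₁ - X₂) ^ 2) =
        v (2 * ((X₁ + X₂) * (X₁ * X₂ + e₂ * e₃) - 2 * (e₂ + e₃) * (X₁ * X₂))) := by rw [hS]
    rw [v.map_mul, v.map_pow, v.map_mul, h2, one_mul] at this
    have hA : v ((X₁ + X₂) * (X₁ * X₂ + e₂ * e₃)) ≤ v e₂ ^ 2 := by
      rw [v.map_mul, hnum', pow_two]
      have : v (X₁ + X₂) ≤ v e₂ := v.map_add_le h₁ h₂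
      gcongr
    have hB : v (2 * (e₂ + e₃) * (X₁ * X₂)) ≤ v e₂ ^ 2 := by
      rw [v.map_mul, v.map_mul, h2, one_mul]
      have : v (e₂ + e₃) ≤ 1 := v.map_add_le he₂.le he₃.le
      calc v (e₂ + e₃) * v (X₁ * X₂) ≤ 1 * v e₂ ^ 2 := by gcongr
        _ = v e₂ ^ 2 := one_mul _
    have hN : v ((X₁ + X₂) * (X₁ * X₂ + e₂ * e₃) - 2 * (e₂ + e₃) * (X₁ * X₂))
        ≤ v e₂ ^ 2 := v.map_sub_le hA hB
    rw [← this, ← hPi] at hN
    exact le_of_mul_le_mul_right hN h3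
  exact trop_np_ge v hPi1 hSle

end Fermat.Agent.S05
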