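/-
S05, tropical step (helper5): the quasi-parallelogram law for the clipped valuation `nu`,
case `x₁ ≠ x₂` (six region cases), from the pure valuation lemmas of
`TropNP`, `TropCases` and the translated `x`-only identities of `TropAlg`.
-/
import Mathlib
import Fermat.Agent.S05.Coords
import Fermat.Agent.S05.TropNP
import Fermat.Agent.S05.TropCases
import Fermat.Agent.S05.TropDefs
import Fermat.Agent.S05.TropAlg

set_option autoImplicit false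

namespace Fermat.Agent.S05

open WeierstrassCurve WeierstrassCurve.Affine

section QP

variable {K : Type*} [Field K] [DecidableEq K] {Γ₀ : Type*} [LinearOrderedCommGroupWithZero Γ₀]
  (v : Valuation K Γ₀) {W : WeierstrassCurve K} {r₁ e₂ e₃ : K}

omit [DecidableEq K] in
lemma tropQP_two_ne_zero (h2 : v (2 : K) = 1) : (2 : K) ≠ 0 := by
  intro h
  rw [h, map_zero] at h2
  exact zero_ne_one h2

/-- `Sim ε 1 (ε * ε)`. -/
lemma sim_one_sq {ε : Γ₀} (hε : ε ≠ 0) : Sim ε 1 (ε * ε) :=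
  Sim.symm hε ⟨1, Or.inl (by rw [one_mul, ← sq]; norm_cast)⟩

/-- From `A * b = ε` with `ε < b < 1`: `ε ≤ A ≤ 1`. -/
lemma tropQP_mid_of_mul {ε A b : Γ₀} (hb0 : 0 < b) (hεb : ε < b) (hb1 : b < 1)
    (hA : A * b = ε) : ε ≤ A ∧ A ≤ 1 := by
  constructor
  · calc ε = A * b := hA.symm
      _ ≤ A * 1 := mul_le_mul' le_rfl hb1.le
      _ = A := mul_one A
  · by_contra h; rw [not_le] at h
    have : b < A * b := by
      calc b = 1 * b := (one_mul b).symm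
        _ < A * b := mul_lt_mul_of_pos_right h hb0
    rw [hA] at this
    exact absurd hεb (not_lt.mpr this.le)

/-- The quasi-parallelogram law, case `x₁ ≠ x₂`. -/
theorem qp_of_X_ne (hb₂ : W.b₂ = -4 * (3 * r₁ + e₂ + e₃))
    (hb₄ : W.b₄ = 2 * (r₁ * (r₁ + e₂) + r₁ * (r₁ + e₃) + (r₁ + e₂) * (r₁ + e₃)))
    (hb₆ : W.b₆ = -4 * (r₁ * (r₁ + e₂) * (r₁ + e₃)))
    (h2 : v (2 : K) = 1) (he₃ : v e₃ = 1) (he₂ : v e₂ < 1) (he₂0 : e₂ ≠ 0)
    {x₁ y₁ x₂ y₂ : K} (h₁ : W.toAffine.Nonsingular x₁ y₁) (h₂ : W.toAffine.Nonsingular x₂ y₂)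
    (hx : x₁ ≠ x₂) (hx₂ : v (x₂ - r₁) < 1) :
    (Sim (v e₂) (nu v r₁ (v e₂) (Point.some x₁ y₁ h₁ + Point.some x₂ y₂ h₂))
        (nu v r₁ (v e₂) (Point.some x₁ y₁ h₁) * nu v r₁ (v e₂) (Point.some x₂ y₂ h₂)) ∧
      Sim (v e₂) (nu v r₁ (v e₂) (Point.some x₁ y₁ h₁ - Point.some x₂ y₂ h₂))
        (nu v r₁ (v e₂) (Point.some x₁ y₁ h₁) / nu v r₁ (v e₂) (Point.some x₂ y₂ h₂))) ∨
    (Sim (v e₂) (nu v r₁ (v e₂) (Point.some x₁ y₁ h₁ + Point.some x₂ y₂ h₂))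
        (nu v r₁ (v e₂) (Point.some x₁ y₁ h₁) / nu v r₁ (v e₂) (Point.some x₂ y₂ h₂)) ∧
      Sim (v e₂) (nu v r₁ (v e₂) (Point.some x₁ y₁ h₁ - Point.some x₂ y₂ h₂))
        (nu v r₁ (v e₂) (Point.some x₁ y₁ h₁) * nu v r₁ (v e₂) (Point.some x₂ y₂ h₂))) := by
  have h2' := tropQP_two_ne_zero v h2
  obtain ⟨xs, ys, hs, xd, yd, hd, hadd, hsub, hS, hP⟩ := add_sub_X h2' h₁ h₂ hx
  have hS' := sum_identity' hb₂ hb₄ hb₆ hS
  have hP' := prod_identity' h2' hb₂ hb₄ hb₆ hS hP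
  rw [hadd, hsub]
  have hne : x₁ - r₁ ≠ x₂ - r₁ := fun h => hx (sub_left_injective h)
  set ε := v e₂ with hε
  have hε0 : 0 < ε := by rw [hε]; exact zero_lt_iff.mpr ((Valuation.ne_zero_iff v).mpr he₂0)
  have hεne : ε ≠ 0 := ne_of_gt hε0
  -- symmetric versions of the identities
  have hS'' : ((xs - r₁) + (xd - r₁)) * ((x₂ - r₁) - (x₁ - r₁)) ^ 2 =
      2 * (((x₂ - r₁) + (x₁ - r₁)) * ((x₂ - r₁) * (x₁ - r₁) + e₂ * e₃)
        - 2 * (e₂ + e₃) * ((x₂ - r₁) * (x₁ - r₁))) := by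
    linear_combination hS'
  have hP'' : (xs - r₁) * (xd - r₁) * ((x₂ - r₁) - (x₁ - r₁)) ^ 2 =
      ((x₂ - r₁) * (x₁ - r₁) - e₂ * e₃) ^ 2 := by
    linear_combination hP'
  rcases le_or_gt 1 (v (x₁ - r₁)) with h1 | h1
  · -- P₁ ∈ E₀
    rw [nu_of_ge v r₁ ε h₁ h1]
    rcases lt_or_ge ε (v (x₂ - r₁)) with h2l | h2l
    · -- (E₀, int)
      obtain ⟨e1, e2⟩ := trop_E0_int v h2 he₃ he₂ he₂0 hne hS' hP' h1 h2l hx₂
      have hb0 : v (x₂ - r₁) ≠ 0 := ne_of_gt (lt_trans hε0 h2l)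
      rw [nu_of_mid v r₁ ε h₂ h2l.le hx₂.le, nu_of_mid v r₁ ε hs (e1 ▸ h2l.le) (e1 ▸ hx₂.le),
        nu_of_mid v r₁ ε hd (e2 ▸ h2l.le) (e2 ▸ hx₂.le), e1, e2]
      left
      exact ⟨Sim.of_eq (one_mul _).symm, Sim.of_mul_eq_one (by rw [one_div, mul_inv_cancel₀ hb0])⟩
    · -- (E₀, T₀)
      obtain ⟨e1, e2⟩ := trop_E0_T0 v h2 he₃ he₂ he₂0 hne hS' hP' h1 h2l
      rw [nu_of_le v r₁ ε he₂.le h₂ h2l, nu_of_le v r₁ ε he₂.le hs e1,
        nu_of_le v r₁ ε he₂.le hd e2]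
      left
      exact ⟨Sim.of_eq (one_mul _).symm, Sim.of_mul_eq_one (by rw [one_div, mul_inv_cancel₀ hεne])⟩
  · rcases lt_or_ge ε (v (x₁ - r₁)) with h1l | h1l
    · -- P₁ interior
      have ha0 : 0 < v (x₁ - r₁) := lt_trans hε0 h1l
      rw [nu_of_mid v r₁ ε h₁ h1l.le h1.le]
      rcases lt_or_ge ε (v (x₂ - r₁)) with h2l | h2l
      · -- (int, int)
        have hb0 : 0 < v (x₂ - r₁) := lt_trans hε0 h2l
        rw [nu_of_mid v r₁ ε h₂ h2l.le hx₂.le]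
        obtain ⟨A, B, hAB, hA, hB⟩ :=
          trop_int_int v h2 he₃ he₂0 hne hS' hP' h1l h1 h2l hx₂
        have hδ0 : 0 < v ((x₁ - r₁) - (x₂ - r₁)) :=
          zero_lt_iff.mpr ((Valuation.ne_zero_iff v).mpr (sub_ne_zero.mpr hne))
        have hδ : (v (x₁ - r₁) < v (x₂ - r₁) → v ((x₁ - r₁) - (x₂ - r₁)) = v (x₂ - r₁)) ∧
            (v (x₂ - r₁) < v (x₁ - r₁) → v ((x₁ - r₁) - (x₂ - r₁)) = v (x₁ - r₁)) ∧
            (v (x₁ - r₁) = v (x₂ - r₁) → v ((x₁ - r₁) - (x₂ - r₁)) ≤ v (x₁ - r₁)) :=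
          ⟨fun h => Valuation.map_sub_eq_of_lt_right v h,
           fun h => Valuation.map_sub_eq_of_lt_left v h,
           fun h => Valuation.map_sub_le v le_rfl h.symm.le⟩
        have hee : v (e₂ * e₃) = ε := by rw [map_mul, he₃, mul_one]
        have hπ : (ε < v (x₁ - r₁) * v (x₂ - r₁) →
              v ((x₁ - r₁) * (x₂ - r₁) - e₂ * e₃) = v (x₁ - r₁) * v (x₂ - r₁)) ∧
            (v (x₁ - r₁) * v (x₂ - r₁) < ε → v ((x₁ - r₁) * (x₂ - r₁) - e₂ * e₃) = ε) ∧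
            (v (x₁ - r₁) * v (x₂ - r₁) = ε → v ((x₁ - r₁) * (x₂ - r₁) - e₂ * e₃) ≤ ε) := by
          refine ⟨fun h => ?_, fun h => ?_, fun h => ?_⟩
          · rw [Valuation.map_sub_eq_of_lt_left v (by rw [hee, map_mul]; exact h), map_mul]
          · rw [Valuation.map_sub_eq_of_lt_right v (by rw [hee, map_mul]; exact h), hee]
          · exact Valuation.map_sub_le v (by rw [map_mul]; exact h.le) hee.le
        have sA := sim_quot hε0 h1l h1 h2l hx₂ hδ0 hδ hA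
        have sB := sim_prod hε0 h1l h1 h2l hx₂ hπ hB
        rcases hAB with ⟨e1, e2⟩ | ⟨e1, e2⟩
        · right
          rw [nu_some, nu_some, e1, e2]
          exact ⟨sA, sB⟩
        · left
          rw [nu_some, nu_some, e1, e2]
          exact ⟨sB, sA⟩
      · -- (int, T₀): swap the roles
        obtain ⟨e1, e2⟩ := trop_T0_int v h2 he₃ he₂ he₂0 hne.symm hS'' hP'' h2l h1l h1
        obtain ⟨m1, m1'⟩ := tropQP_mid_of_mul ha0 h1l h1 e1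
        obtain ⟨m2, m2'⟩ := tropQP_mid_of_mul ha0 h1l h1 e2
        rw [nu_of_le v r₁ ε he₂.le h₂ h2l, nu_of_mid v r₁ ε hs m1 m1',
          nu_of_mid v r₁ ε hd m2 m2']
        left
        refine ⟨Sim.of_mul_eq_sq ?_, Sim.of_mul_eq_one ?_⟩
        · rw [← mul_assoc, e1, sq]
        · rw [div_eq_mul_inv, ← mul_assoc, e2, mul_inv_cancel₀ hεne]
    · -- P₁ ∈ T₀
      rw [nu_of_le v r₁ ε he₂.le h₁ h1l]
      rcases lt_or_ge ε (v (x₂ - r₁)) with h2l | h2l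
      · -- (T₀, int)
        have hb0 : 0 < v (x₂ - r₁) := lt_trans hε0 h2l
        obtain ⟨e1, e2⟩ := trop_T0_int v h2 he₃ he₂ he₂0 hne hS' hP' h1l h2l hx₂
        obtain ⟨m1, m1'⟩ := tropQP_mid_of_mul hb0 h2l hx₂ e1
        obtain ⟨m2, m2'⟩ := tropQP_mid_of_mul hb0 h2l hx₂ e2
        rw [nu_of_mid v r₁ ε h₂ h2l.le hx₂.le, nu_of_mid v r₁ ε hs m1 m1',
          nu_of_mid v r₁ ε hd m2 m2']
        left
        refine ⟨Sim.of_mul_eq_sq ?_, Sim.of_eq ?_⟩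
        · rw [mul_comm ε, ← mul_assoc, e1, sq]
        · exact eq_div_of_mul_eq (ne_of_gt hb0) e2
      · -- (T₀, T₀)
        obtain ⟨e1, e2⟩ := trop_T0_T0 v h2 he₃ he₂ he₂0 hne hS' hP' h1l h2l
        rw [nu_of_le v r₁ ε he₂.le h₂ h2l, nu_of_ge v r₁ ε hs e1, nu_of_ge v r₁ ε hd e2]
        left
        exact ⟨sim_one_sq hεne, Sim.of_eq (div_self hεne).symm⟩

end QP

end Fermat.Agent.S05
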