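/-
S05, tropical step (helper99, statements by helper5): the duplication case.
Pure valuation theory, no curves.  Multiplicative valuations: `v X < 1` means "reduces to the node",
`v X ≤ v e₂` is the region of the 2-torsion point `T`, `v e₂ < v X < 1` is the interior region.
-/
import Fermat.Agent.S05.TropNP

set_option autoImplicit false

namespace Fermat.Agent.S05

section ValDup

variable {K : Type*} [Field K] {Γ₀ : Type*} [LinearOrderedCommGroupWithZero Γ₀]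
  (v : Valuation K Γ₀) {e₂ e₃ X X₃ η : K}

/-- `v 4 = 1` from `v 2 = 1`. -/
lemma tropDup_v_four (h2 : v 2 = 1) : v (4 : K) = 1 := by
  have : (4 : K) = 2 * 2 := by norm_num
  rw [this, map_mul, h2, one_mul]

/-- `v (X - e₃) = 1` when `v X < 1 = v e₃`. -/
lemma tropDup_v_sub_e₃ (he₃ : v e₃ = 1) (hX : v X < 1) : v (X - e₃) = 1 := by
  rw [Valuation.map_sub_eq_of_lt_right v (by rw [he₃]; exact hX), he₃]

/-- Duplication of a point in the region of `T`: the double lies in `E₀`. -/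
theorem trop_dup_T0 (h2 : v 2 = 1) (he₃ : v e₃ = 1) (he₂ : v e₂ < 1) (he₂0 : e₂ ≠ 0)
    (hη : η ^ 2 = 4 * (X * (X - e₂) * (X - e₃)))
    (hD : X₃ * η ^ 2 = (X ^ 2 - e₂ * e₃) ^ 2) (hη0 : η ≠ 0)
    (hX : v X ≤ v e₂) : 1 ≤ v X₃ := by
  set ε := v e₂ with hε
  have hε0 : 0 < ε := by rw [hε]; exact zero_lt_iff.mpr ((Valuation.ne_zero_iff v).mpr he₂0)
  have hXlt : v X < 1 := lt_of_le_of_lt hX he₂
  -- valuation of the numerator
  have hX2 : v (X ^ 2) < ε := by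
    rw [map_pow, sq]
    calc v X * v X ≤ ε * v X := mul_le_mul' hX le_rfl
      _ ≤ ε * ε := mul_le_mul' le_rfl hX
      _ < 1 * ε := mul_lt_mul_of_pos_right he₂ hε0
      _ = ε := one_mul _
  have hee : v (e₂ * e₃) = ε := by rw [map_mul, he₃, mul_one]
  have hnum : v (X ^ 2 - e₂ * e₃) = ε := by
    rw [Valuation.map_sub_eq_of_lt_right v (by rw [hee]; exact hX2), hee]
  -- valuation of `η ^ 2`
  have hηv : v (η ^ 2) ≤ ε ^ 2 := by
    rw [hη, map_mul, map_mul, map_mul, tropDup_v_four v h2, one_mul,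
      tropDup_v_sub_e₃ v he₃ hXlt, mul_one, sq]
    refine mul_le_mul' hX ?_
    exact le_trans (Valuation.map_sub v _ _) (max_le hX le_rfl)
  have hη2pos : 0 < v (η ^ 2) :=
    zero_lt_iff.mpr ((Valuation.ne_zero_iff v).mpr (pow_ne_zero 2 hη0))
  have hDv : v X₃ * v (η ^ 2) = ε ^ 2 := by
    have := congrArg v hD
    rw [map_mul, map_pow (v) (X ^ 2 - e₂ * e₃), hnum] at this
    exact this
  by_contra hlt
  rw [not_le] at hlt
  have : v X₃ * v (η ^ 2) < ε ^ 2 :=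
    calc v X₃ * v (η ^ 2) < 1 * v (η ^ 2) := mul_lt_mul_of_pos_right hlt hη2pos
      _ = v (η ^ 2) := one_mul _
      _ ≤ ε ^ 2 := hηv
  exact absurd hDv (ne_of_lt this)

/-- Duplication of a point in the interior region. -/
theorem trop_dup_int (h2 : v 2 = 1) (he₃ : v e₃ = 1) (he₂ : v e₂ < 1) (he₂0 : e₂ ≠ 0)
    (hη : η ^ 2 = 4 * (X * (X - e₂) * (X - e₃)))
    (hD : X₃ * η ^ 2 = (X ^ 2 - e₂ * e₃) ^ 2) (hη0 : η ≠ 0)
    (hXl : v e₂ < v X) (hXu : v X < 1) :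
    (v e₂ < v X ^ 2 → v X₃ = v X ^ 2) ∧
    (v X ^ 2 < v e₂ → v X₃ * v X ^ 2 = v e₂ ^ 2) ∧
    (v X ^ 2 = v e₂ → v X₃ ≤ v e₂) := by
  set ε := v e₂ with hε
  set a := v X with ha
  have hε0 : 0 < ε := by rw [hε]; exact zero_lt_iff.mpr ((Valuation.ne_zero_iff v).mpr he₂0)
  have ha0 : 0 < a := lt_trans hε0 hXl
  have ha2 : 0 < a ^ 2 := pow_pos ha0 2
  have hee : v (e₂ * e₃) = ε := by rw [map_mul, he₃, mul_one]
  have hXe₂ : v (X - e₂) = a := Valuation.map_sub_eq_of_lt_left v hXl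
  have hηv : v (η ^ 2) = a ^ 2 := by
    rw [hη, map_mul, map_mul, map_mul, tropDup_v_four v h2, one_mul,
      tropDup_v_sub_e₃ v he₃ hXu, mul_one, hXe₂, sq]
  have hDv : v X₃ * a ^ 2 = v (X ^ 2 - e₂ * e₃) ^ 2 := by
    have := congrArg v hD
    rw [map_mul, map_pow (v) (X ^ 2 - e₂ * e₃), hηv] at this
    exact this
  refine ⟨fun h => ?_, fun h => ?_, fun h => ?_⟩
  · -- `ε < a ^ 2`
    have hnum : v (X ^ 2 - e₂ * e₃) = a ^ 2 := by
      rw [Valuation.map_sub_eq_of_lt_left v (by rw [hee, map_pow]; exact h), map_pow]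
    rw [hnum] at hDv
    have h3 : v X₃ * a ^ 2 = a ^ 2 * a ^ 2 := by rw [hDv, sq (a ^ 2)]
    exact mul_right_cancel₀ (ne_of_gt ha2) h3
  · -- `a ^ 2 < ε`
    have hnum : v (X ^ 2 - e₂ * e₃) = ε := by
      rw [Valuation.map_sub_eq_of_lt_right v (by rw [hee, map_pow]; exact h), hee]
    rw [hnum] at hDv
    exact hDv
  · -- `a ^ 2 = ε`
    have hnum : v (X ^ 2 - e₂ * e₃) ≤ ε := by
      refine le_trans (Valuation.map_sub v _ _) (max_le ?_ (le_of_eq hee))
      rw [map_pow]; exact le_of_eq h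
    have h3 : v X₃ * a ^ 2 ≤ ε * a ^ 2 := by
      rw [hDv, sq, h]
      exact mul_le_mul' hnum hnum
    exact le_of_mul_le_mul_right h3 ha2

end ValDup

end Fermat.Agent.S05
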