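/-
S05, tropical step (helper99, statement by helper5): the quasi-parallelogram law for doubling,
at the level of points: `ν(2P) ∼ ν(P)²` for every affine point `P` reducing to the node.
-/
import Fermat.Agent.S05.TropDefs
import Fermat.Agent.S05.TropDup

set_option autoImplicit false

namespace Fermat.Agent.S05

open WeierstrassCurve WeierstrassCurve.Affine

section QPDup

variable {K : Type*} [Field K] [DecidableEq K] {Γ₀ : Type*} [LinearOrderedCommGroupWithZero Γ₀]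
  (v : Valuation K Γ₀) {W : WeierstrassCurve K} {r₁ e₂ e₃ : K}

omit [DecidableEq K] in
/-- The cubic in translated coordinates. -/
lemma qpDup_cub_eq (hb₂ : W.b₂ = -4 * (3 * r₁ + e₂ + e₃))
    (hb₄ : W.b₄ = 2 * (r₁ * (r₁ + e₂) + r₁ * (r₁ + e₃) + (r₁ + e₂) * (r₁ + e₃)))
    (hb₆ : W.b₆ = -4 * (r₁ * (r₁ + e₂) * (r₁ + e₃))) (x : K) :
    cub W x = 4 * ((x - r₁) * ((x - r₁) - e₂) * ((x - r₁) - e₃)) := by
  rw [cub, hb₂, hb₄, hb₆]; ring

omit [DecidableEq K] in
/-- The duplication identity in translated coordinates. -/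
lemma qpDup_identity (h4 : (4 : K) ≠ 0) (hb₂ : W.b₂ = -4 * (3 * r₁ + e₂ + e₃))
    (hb₄ : W.b₄ = 2 * (r₁ * (r₁ + e₂) + r₁ * (r₁ + e₃) + (r₁ + e₂) * (r₁ + e₃)))
    (hb₆ : W.b₆ = -4 * (r₁ * (r₁ + e₂) * (r₁ + e₃))) {x x₃ η : K}
    (hη : η ^ 2 = cub W x) (hD : x₃ * η ^ 2 = dupNum W x) :
    (x₃ - r₁) * η ^ 2 = ((x - r₁) ^ 2 - e₂ * e₃) ^ 2 := by
  have hb₈ := W.b_relation
  simp only [cub] at hη
  simp only [dupNum] at hD
  rw [hb₂, hb₄, hb₆] at hη hb₈
  rw [hb₄, hb₆] at hD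
  have : 4 * ((x₃ - r₁) * η ^ 2 - ((x - r₁) ^ 2 - e₂ * e₃) ^ 2) = 0 := by
    linear_combination 4 * hD - 4 * r₁ * hη - hb₈
  exact sub_eq_zero.mp ((mul_eq_zero.mp this).resolve_left h4)

/-- `1 ∼ ε · ε`. -/
lemma qpDup_sim_one {ε : Γ₀} : Sim ε 1 (ε * ε) :=
  Sim.of_mul_eq_sq (by rw [one_mul, sq])

/-- Quasi-parallelogram law, doubling case: `ν(2P) ∼ ν(P)²`. -/
theorem qp_dup (hb₂ : W.b₂ = -4 * (3 * r₁ + e₂ + e₃))
    (hb₄ : W.b₄ = 2 * (r₁ * (r₁ + e₂) + r₁ * (r₁ + e₃) + (r₁ + e₂) * (r₁ + e₃)))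
    (hb₆ : W.b₆ = -4 * (r₁ * (r₁ + e₂) * (r₁ + e₃)))
    (h2 : v 2 = 1) (he₃ : v e₃ = 1) (he₂ : v e₂ < 1) (he₂0 : e₂ ≠ 0)
    {x y : K} (h : W.toAffine.Nonsingular x y) (hx : v (x - r₁) < 1) :
    Sim (v e₂) (nu v r₁ (v e₂) (Point.some x y h + Point.some x y h))
      (nu v r₁ (v e₂) (Point.some x y h) * nu v r₁ (v e₂) (Point.some x y h)) := by
  set ε := v e₂ with hε
  set X := x - r₁ with hX
  have hε0 : 0 < ε := by rw [hε]; exact zero_lt_iff.mpr ((Valuation.ne_zero_iff v).mpr he₂0)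
  have hv4 : v (4 : K) = 1 := tropDup_v_four v h2
  have h4 : (4 : K) ≠ 0 := by
    intro h0
    rw [h0, map_zero] at hv4
    exact zero_ne_one hv4
  have hηsq : eta W x y ^ 2 = 4 * (X * (X - e₂) * (X - e₃)) := by
    rw [eta_sq W h.1, qpDup_cub_eq hb₂ hb₄ hb₆]
  -- the value of `ν(P)` in the two regions
  have hT0 : v X ≤ ε → nu v r₁ ε (Point.some x y h) = ε := fun hle => nu_of_le v r₁ ε he₂.le h hle
  by_cases hη0 : eta W x y = 0
  · -- `2P = 0`
    rw [add_self_of_eta_eq h hη0, nu_zero]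
    have hprod : X * (X - e₂) * (X - e₃) = 0 := by
      have : 4 * (X * (X - e₂) * (X - e₃)) = 0 := by rw [← hηsq, hη0]; ring
      exact (mul_eq_zero.mp this).resolve_left h4
    have hXle : v X ≤ ε := by
      rcases mul_eq_zero.mp hprod with h' | h'
      · rcases mul_eq_zero.mp h' with h'' | h''
        · rw [h'', map_zero]; exact hε0.le
        · rw [sub_eq_zero.mp h'']
      · exfalso
        rw [sub_eq_zero.mp h', he₃] at hx
        exact lt_irrefl _ hx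
    rw [hT0 hXle]
    exact qpDup_sim_one
  · obtain ⟨x₃, y₃, h₃, hadd, hdup⟩ := add_self_of_eta_ne h hη0
    rw [hadd]
    have hD : (x₃ - r₁) * eta W x y ^ 2 = (X ^ 2 - e₂ * e₃) ^ 2 :=
      qpDup_identity h4 hb₂ hb₄ hb₆ (eta_sq W h.1) hdup
    rcases le_or_gt (v X) ε with hle | hgt
    · -- region of `T`
      have h1 : 1 ≤ v (x₃ - r₁) := trop_dup_T0 v h2 he₃ he₂ he₂0 hηsq hD hη0 hle
      rw [nu_of_ge v r₁ ε h₃ h1, hT0 hle]
      exact qpDup_sim_one
    · -- interior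
      have ha : nu v r₁ ε (Point.some x y h) = v X := nu_of_mid v r₁ ε h hgt.le hx.le
      rw [ha]
      obtain ⟨c1, c2, c3⟩ := trop_dup_int v h2 he₃ he₂ he₂0 hηsq hD hη0 hgt hx
      have ha0 : 0 < v X := lt_trans hε0 hgt
      have ha2 : 0 < v X ^ 2 := pow_pos ha0 2
      have ha21 : v X ^ 2 ≤ 1 := pow_le_one₀ zero_le hx.le
      rcases lt_trichotomy ε (v X ^ 2) with hlt | heq | hlt
      · have e := c1 hlt
        rw [nu_of_mid v r₁ ε h₃ (by rw [e]; exact hlt.le) (by rw [e]; exact ha21), e]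
        exact Sim.of_eq (sq _)
      · have e := c3 heq.symm
        rw [nu_of_le v r₁ ε he₂.le h₃ e]
        exact Sim.of_eq (by rw [heq, sq])
      · have e := c2 hlt
        -- `ε < v X₃ < 1`
        have hlo : ε ≤ v (x₃ - r₁) := by
          by_contra hcon
          rw [not_le] at hcon
          have : v (x₃ - r₁) * v X ^ 2 < ε ^ 2 := by
            calc v (x₃ - r₁) * v X ^ 2 ≤ ε * v X ^ 2 := mul_le_mul' hcon.le le_rfl
              _ = v X ^ 2 * ε := mul_comm _ _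
              _ < ε * ε := mul_lt_mul_of_pos_right hlt hε0
              _ = ε ^ 2 := (sq ε).symm
          exact absurd e (ne_of_lt this)
        have hhi : v (x₃ - r₁) ≤ 1 := by
          by_contra hcon
          rw [not_le] at hcon
          have : ε ^ 2 < v (x₃ - r₁) * v X ^ 2 := by
            calc ε ^ 2 < v X ^ 2 := pow_lt_pow_left₀ hgt zero_le two_ne_zero
              _ = 1 * v X ^ 2 := (one_mul _).symm
              _ < v (x₃ - r₁) * v X ^ 2 := mul_lt_mul_of_pos_right hcon ha2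
          exact absurd e (ne_of_gt this)
        rw [nu_of_mid v r₁ ε h₃ hlo hhi]
        exact Sim.of_mul_eq_sq (by rw [← sq]; exact e)

end QPDup

end Fermat.Agent.S05
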