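/-
S05, tropical step (helper5; pieces by helper63 and helper99): for a Weierstrass curve `W` over a
valued field whose 2-division cubic is `4 (x - r₁) (x - r₁ - e₂) (x - r₁ - e₃)` with
`v 2 = 1 = v e₃`, `0 < v e₂ < 1` (a node at `x ≡ r₁`), an odd `p` and a `p`-torsion point `(x, y)`
with `v (x - r₁) < 1`:   `v e₂ < v (x - r₁)`  and  `v (x - r₁) ^ p ∈ v e₂ ^ (2ℤ)`.

Route: `x`-only (Kummer) identities for `x(P₁ ± P₂)` (`Coords`, `TropAlg`) ⇒ quasi-parallelogram law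
`qp` for the clipped valuation `nu` (`TropNP`, `TropCases`, `TropDup`, `TropQP`, `TropQPDup`)
⇒ induction `nu (m • P) ∼ nu P ^ m` (`TropInd`).
-/
import Mathlib
import Fermat.Agent.S05.TropQP
import Fermat.Agent.S05.TropQPDup
import Fermat.Agent.S05.TropInd

set_option autoImplicit false

namespace Fermat.Agent.S05

open WeierstrassCurve WeierstrassCurve.Affine

section Full

variable {K : Type*} [Field K] [DecidableEq K] {Γ₀ : Type*} [LinearOrderedCommGroupWithZero Γ₀]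
  (v : Valuation K Γ₀) {W : WeierstrassCurve K} {r₁ e₂ e₃ : K}

/-- The quasi-parallelogram law for the clipped valuation `nu`. -/
theorem qp (hb₂ : W.b₂ = -4 * (3 * r₁ + e₂ + e₃))
    (hb₄ : W.b₄ = 2 * (r₁ * (r₁ + e₂) + r₁ * (r₁ + e₃) + (r₁ + e₂) * (r₁ + e₃)))
    (hb₆ : W.b₆ = -4 * (r₁ * (r₁ + e₂) * (r₁ + e₃)))
    (h2 : v (2 : K) = 1) (he₃ : v e₃ = 1) (he₂ : v e₂ < 1) (he₂0 : e₂ ≠ 0)
    (P₁ P₂ : W.toAffine.Point) (hP₂ : nu v r₁ (v e₂) P₂ < 1) :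
    (Sim (v e₂) (nu v r₁ (v e₂) (P₁ + P₂)) (nu v r₁ (v e₂) P₁ * nu v r₁ (v e₂) P₂) ∧
      Sim (v e₂) (nu v r₁ (v e₂) (P₁ - P₂)) (nu v r₁ (v e₂) P₁ / nu v r₁ (v e₂) P₂)) ∨
    (Sim (v e₂) (nu v r₁ (v e₂) (P₁ + P₂)) (nu v r₁ (v e₂) P₁ / nu v r₁ (v e₂) P₂) ∧
      Sim (v e₂) (nu v r₁ (v e₂) (P₁ - P₂)) (nu v r₁ (v e₂) P₁ * nu v r₁ (v e₂) P₂)) := by
  have hε0 : 0 < v e₂ := zero_lt_iff.mpr ((Valuation.ne_zero_iff v).mpr he₂0)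
  have hν0 : nu v r₁ (v e₂) P₂ ≠ 0 := ne_of_gt (lt_of_lt_of_le hε0 (le_nu v r₁ (v e₂) he₂.le P₂))
  obtain ⟨x₂, y₂, h₂, rfl, hx₂⟩ := exists_of_nu_lt_one v r₁ (v e₂) hP₂
  cases P₁ with
  | zero =>
    left
    rw [show (Point.zero : W.toAffine.Point) = 0 from rfl, zero_add, zero_sub, nu_neg, nu_zero]
    exact ⟨Sim.of_eq (one_mul _).symm, Sim.of_mul_eq_one (by rw [one_div, mul_inv_cancel₀ hν0])⟩
  | some x₁ y₁ h₁ =>
    by_cases hx : x₁ = x₂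
    · subst hx
      have hnu : nu v r₁ (v e₂) (Point.some x₁ y₁ h₁) = nu v r₁ (v e₂) (Point.some x₁ y₂ h₂) :=
        rfl
      have hdup := qp_dup v hb₂ hb₄ hb₆ h2 he₃ he₂ he₂0 h₂ hx₂
      rcases Affine.Y_eq_of_X_eq h₁.1 h₂.1 rfl with hy | hy
      · subst hy
        left
        rw [sub_self, nu_zero]
        exact ⟨hdup, Sim.of_eq (div_self hν0).symm⟩
      · have hneg : Point.some x₁ y₁ h₁ = -Point.some x₁ y₂ h₂ := by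
          rw [Point.neg_some]
          congr
        right
        rw [hnu]
        rw [hneg, neg_add_cancel, nu_zero, ← neg_add', nu_neg]
        exact ⟨Sim.of_eq (div_self hν0).symm, hdup⟩
    · exact qp_of_X_ne v hb₂ hb₄ hb₆ h2 he₃ he₂ he₂0 h₁ h₂ hx hx₂


/-- **Tropical step.** A `p`-torsion point (`p` odd) reducing to the node has
`v e₂ < v (x - r₁)` and `v (x - r₁) ^ p ∈ v e₂ ^ (2ℤ)`. -/
theorem tropical_torsion (hb₂ : W.b₂ = -4 * (3 * r₁ + e₂ + e₃))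
    (hb₄ : W.b₄ = 2 * (r₁ * (r₁ + e₂) + r₁ * (r₁ + e₃) + (r₁ + e₂) * (r₁ + e₃)))
    (hb₆ : W.b₆ = -4 * (r₁ * (r₁ + e₂) * (r₁ + e₃)))
    (h2 : v (2 : K) = 1) (he₃ : v e₃ = 1) (he₂ : v e₂ < 1) (he₂0 : e₂ ≠ 0)
    {p : ℕ} (hp : Odd p) {x y : K} (h : W.toAffine.Nonsingular x y)
    (htors : p • (Point.some x y h) = 0) (hx : v (x - r₁) < 1) :
    v e₂ < v (x - r₁) ∧ ∃ k : ℤ, v (x - r₁) ^ p = v e₂ ^ (2 * k) :=
  tropical_torsion_of_qp v he₂ he₂0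
    (fun P₁ P₂ hP₂ => qp v hb₂ hb₄ hb₆ h2 he₃ he₂ he₂0 P₁ P₂ hP₂) hp h htors hx

/-- Variant with `v e₂ = v d ^ p`: then `v (x - r₁) = v d ^ (2k)` for some integer `k`. -/
theorem tropical_torsion_root (hb₂ : W.b₂ = -4 * (3 * r₁ + e₂ + e₃))
    (hb₄ : W.b₄ = 2 * (r₁ * (r₁ + e₂) + r₁ * (r₁ + e₃) + (r₁ + e₂) * (r₁ + e₃)))
    (hb₆ : W.b₆ = -4 * (r₁ * (r₁ + e₂) * (r₁ + e₃)))
    (h2 : v (2 : K) = 1) (he₃ : v e₃ = 1) (he₂ : v e₂ < 1) (he₂0 : e₂ ≠ 0)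
    {p : ℕ} (hp : Odd p) {d : K} (hd : v e₂ = v d ^ p) {x y : K}
    (h : W.toAffine.Nonsingular x y)
    (htors : p • (Point.some x y h) = 0) (hx : v (x - r₁) < 1) :
    v e₂ < v (x - r₁) ∧ ∃ k : ℤ, v (x - r₁) = v (d ^ (2 * k)) := by
  obtain ⟨h1, k, hk⟩ := tropical_torsion v hb₂ hb₄ hb₆ h2 he₃ he₂ he₂0 hp h htors hx
  refine ⟨h1, k, ?_⟩
  have hp0 : p ≠ 0 := by
    rintro rfl
    exact Nat.not_odd_zero hp
  rw [map_zpow₀]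
  have : v (x - r₁) ^ p = (v d ^ (2 * k)) ^ p := by
    rw [hk, hd, ← zpow_natCast (v d) p, ← zpow_mul, ← zpow_natCast (v d ^ (2 * k)) p, ← zpow_mul]
    congr 1; ring
  exact (pow_left_inj₀ zero_le zero_le hp0).mp this

end Full

end Fermat.Agent.S05
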