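import Fermat.Agent.S05.Coords

/-!
# S05, piece K: the key lemma (general Weierstrass curve, `(x, η)`-coordinates)

Two distinct affine points `P`, `P'` whose coordinates are congruent modulo the maximal ideal
("same reduction") differ by a point whose `x`-coordinate is NOT integral, provided either
* the reduction of `P` is nonsingular (`key_nonsing`), or
* `P` is near a node `(r, ·)`, on the same branch as `P'`, and `(x' - r)/(x - r) ≡ 1`
  (`key_node`).
Everything follows from `key_of_slope`: the slope `(η' + η)/(x' - x)` is not integral.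
-/

set_option autoImplicit false
set_option linter.unusedSectionVars false
set_option linter.unusedVariables false

namespace Fermat.Agent.S05

open WeierstrassCurve WeierstrassCurve.Affine

variable {K : Type*} [Field K] [DecidableEq K]
variable {Γ₀ : Type*} [LinearOrderedCommGroupWithZero Γ₀] (v : Valuation K Γ₀)

lemma key_val_two_ne_zero (h2 : v (2 : K) = 1) : (2 : K) ≠ 0 := by
  intro h0
  rw [h0, map_zero] at h2
  exact zero_ne_one h2

lemma key_val_four (h2 : v (2 : K) = 1) : v (4 : K) = 1 := by
  have : (4 : K) = 2 * 2 := by norm_num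
  rw [this, map_mul, h2, one_mul]

/-- **Slope criterion.** If `v (x' - x) < v (η' + η)` then `P' - P` has non-integral `x`. -/
theorem key_of_slope {W : WeierstrassCurve K} (hb₂ : v W.b₂ ≤ 1) (h2 : v (2 : K) = 1)
    {x y x' y' : K} (h : W.toAffine.Nonsingular x y) (h' : W.toAffine.Nonsingular x' y')
    (hx : v x ≤ 1) (hx' : v x' ≤ 1) (hne : x' ≠ x)
    (hlt : v (x' - x) < v (eta W x' y' + eta W x y)) :
    ∃ (x'' y'' : K) (h'' : W.toAffine.Nonsingular x'' y''),
      Point.some x' y' h' - Point.some x y h = Point.some x'' y'' h'' ∧ 1 < v x'' := by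
  obtain ⟨x₃, y₃, h₃, hsub, hX, -⟩ := sub_of_X_ne h' h hne
  refine ⟨x₃, y₃, h₃, hsub, ?_⟩
  have h4 := key_val_four v h2
  have hd0 : 0 < v (x' - x) := by
    rw [v.pos_iff]; exact sub_ne_zero.2 hne
  have hd : x' - x ≠ 0 := sub_ne_zero.2 hne
  -- `4 x₃ = ((η' + η)/(x' - x))² - (b₂ + 4x' + 4x)`
  have hX' : 4 * x₃ = ((eta W x' y' + eta W x y) / (x' - x)) ^ 2 - (W.b₂ + 4 * x' + 4 * x) := by
    field_simp
    linear_combination hX
  have hsl : 1 < v ((eta W x' y' + eta W x y) / (x' - x)) := by
    rw [map_div₀]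
    exact (one_lt_div₀ hd0).2 hlt
  have hsl2 : 1 < v (((eta W x' y' + eta W x y) / (x' - x)) ^ 2) := by
    rw [map_pow]
    exact one_lt_pow₀ hsl (by norm_num)
  have h3 : v (W.b₂ + 4 * x' + 4 * x) ≤ 1 := by
    apply v.map_add_le (v.map_add_le hb₂ _) _
    · rw [map_mul, h4, one_mul]; exact hx'
    · rw [map_mul, h4, one_mul]; exact hx
  have : v (4 * x₃) = v (((eta W x' y' + eta W x y) / (x' - x)) ^ 2) := by
    rw [hX', v.map_sub_eq_of_lt_left (lt_of_le_of_lt h3 hsl2)]
  rw [map_mul, h4, one_mul] at this
  rw [this]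
  exact hsl2

/-- **Key lemma, nonsingular reduction.** -/
theorem key_nonsing {W : WeierstrassCurve K} (hb₂ : v W.b₂ ≤ 1) (hb₄ : v W.b₄ ≤ 1)
    (h2 : v (2 : K) = 1)
    {x y x' y' : K} (h : W.toAffine.Nonsingular x y) (h' : W.toAffine.Nonsingular x' y')
    (hx : v x ≤ 1) (hη : v (eta W x y) ≤ 1)
    (hxx : v (x' - x) < 1) (hηη : v (eta W x' y' - eta W x y) < 1)
    (hne : Point.some x' y' h' ≠ Point.some x y h)
    (hns : v (eta W x y) = 1 ∨ v (dcub W x) = 1) :
    ∃ (x'' y'' : K) (h'' : W.toAffine.Nonsingular x'' y''),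
      Point.some x' y' h' - Point.some x y h = Point.some x'' y'' h'' ∧ 1 < v x'' := by
  have h20 := key_val_two_ne_zero v h2
  have h4 := key_val_four v h2
  have e := eta_sq W h.1
  have e' := eta_sq W h'.1
  have hx' : v x' ≤ 1 := by
    have : x' = (x' - x) + x := by ring
    rw [this]; exact v.map_add_le hxx.le hx
  have hd : v (eta W x y) < 1 → v (dcub W x) = 1 := by
    intro hlt
    rcases hns with h1 | h1
    · exact absurd h1 hlt.ne
    · exact h1
  by_cases hxe : x' = x
  · -- then `η' = -η`, and `P' - P = -(P + P)`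
    have hxe' : x = x' := hxe.symm
    subst hxe'
    have hyy' : y' = W.toAffine.negY x y := by
      rcases Affine.Y_eq_of_X_eq h'.1 h.1 rfl with h1 | h1
      · subst h1; exact absurd rfl hne
      · exact h1
    subst hyy'
    have hP' : Point.some x (W.toAffine.negY x y) h' = -Point.some x y h := by
      rw [Point.neg_some]
    rw [eta_negY] at hηη
    have h2η : v (2 * eta W x y) < 1 := by
      have : -eta W x y - eta W x y = -(2 * eta W x y) := by ring
      rw [this, v.map_neg] at hηη
      exact hηη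
    have hηlt : v (eta W x y) < 1 := by
      rw [map_mul, h2, one_mul] at h2η
      exact h2η
    have hη0 : eta W x y ≠ 0 := by
      intro h0
      apply hne
      have := (eta_eq_zero_iff W x y).1 h0
      rw [hP', Point.neg_some]
      congr 1
      exact this.symm
    obtain ⟨x₃, y₃, h₃, hadd, hX⟩ := add_self_of_eta_ne h hη0
    have hsub : Point.some x (W.toAffine.negY x y) h' - Point.some x y h =
        Point.some x₃ (W.toAffine.negY x₃ y₃) ((Affine.nonsingular_neg ..).mpr h₃) := by
      have hneg3 : Point.some x₃ (W.toAffine.negY x₃ y₃) ((Affine.nonsingular_neg ..).mpr h₃) =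
          -(Point.some x y h + Point.some x y h) := by
        rw [hadd, Point.neg_some]
      rw [hP', hneg3]
      abel
    refine ⟨_, _, _, hsub, ?_⟩
    -- `v (dupNum x) = 1`
    have hdup : v (dupNum W x) = 1 := by
      have h1 : v (4 * dupNum W x) = 1 := by
        rw [four_dupNum, v.map_sub_eq_of_lt_left, map_pow, hd hηlt, one_pow]
        rw [map_pow, hd hηlt, one_pow, ← e, map_mul, map_pow]
        have h8 : v (W.b₂ + 8 * x) ≤ 1 := by
          apply v.map_add_le hb₂
          have : (8 : K) = 2 * 4 := by norm_num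
          rw [this, map_mul, map_mul, h2, h4, one_mul, one_mul]; exact hx
        have hη2 : v (eta W x y) ^ 2 < 1 := pow_lt_one₀ zero_le hηlt (by norm_num)
        calc v (W.b₂ + 8 * x) * v (eta W x y) ^ 2 ≤ 1 * v (eta W x y) ^ 2 := by gcongr
          _ = v (eta W x y) ^ 2 := one_mul _
          _ < 1 := hη2
      rwa [map_mul, h4, one_mul] at h1
    have hη2pos : 0 < v (eta W x y) ^ 2 := by
      apply pow_pos
      rw [v.pos_iff]; exact hη0
    have hη2 : v (eta W x y) ^ 2 < 1 := pow_lt_one₀ zero_le hηlt (by norm_num)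
    have hval : v x₃ * v (eta W x y) ^ 2 = 1 := by
      rw [← map_pow, ← map_mul, hX, hdup]
    by_contra hcon
    rw [not_lt] at hcon
    have : (1 : Γ₀) < 1 := by
      calc (1 : Γ₀) = v x₃ * v (eta W x y) ^ 2 := hval.symm
        _ ≤ 1 * v (eta W x y) ^ 2 := by gcongr
        _ = v (eta W x y) ^ 2 := one_mul _
        _ < 1 := hη2
    exact lt_irrefl _ this
  · apply key_of_slope v hb₂ h2 h h' hx hx' hxe
    have hd0 : 0 < v (x' - x) := by
      rw [v.pos_iff]; exact sub_ne_zero.2 hxe
    by_cases hη1 : v (eta W x y) = 1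
    · have : eta W x' y' + eta W x y = 2 * eta W x y + (eta W x' y' - eta W x y) := by ring
      rw [this, v.map_add_eq_of_lt_left (by rw [map_mul, h2, one_mul, hη1]; exact hηη),
        map_mul, h2, one_mul, hη1]
      exact hxx
    · have hηlt : v (eta W x y) < 1 := lt_of_le_of_ne hη hη1
      have hG : v (4 * (x' ^ 2 + x' * x + x ^ 2) + W.b₂ * (x' + x) + 2 * W.b₄) = 1 := by
        have : 4 * (x' ^ 2 + x' * x + x ^ 2) + W.b₂ * (x' + x) + 2 * W.b₄ =
            2 * dcub W x + (x' - x) * (4 * x' + 8 * x + W.b₂) := by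
          simp only [dcub]; ring
        have h2d : v (2 * dcub W x) = 1 := by rw [map_mul, h2, hd hηlt, one_mul]
        rw [this, v.map_add_eq_of_lt_left, h2d]
        rw [h2d, map_mul]
        have h3 : v (4 * x' + 8 * x + W.b₂) ≤ 1 := by
          apply v.map_add_le (v.map_add_le _ _) hb₂
          · rw [map_mul, h4, one_mul]; exact hx'
          · have : (8 : K) = 2 * 4 := by norm_num
            rw [this, map_mul, map_mul, h2, h4, one_mul, one_mul]; exact hx
        calc v (x' - x) * v (4 * x' + 8 * x + W.b₂) ≤ v (x' - x) * 1 := by gcongr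
          _ = v (x' - x) := mul_one _
          _ < 1 := hxx
      have hprod : v (eta W x' y' - eta W x y) * v (eta W x' y' + eta W x y) = v (x' - x) := by
        rw [← map_mul, ← mul_one (v (x' - x)), ← hG, ← map_mul]
        congr 1
        simp only [cub] at e e'
        linear_combination e' - e
      by_contra hcon
      rw [not_lt] at hcon
      have : v (x' - x) < v (x' - x) := by
        calc v (x' - x) = v (eta W x' y' - eta W x y) * v (eta W x' y' + eta W x y) := hprod.symm
          _ ≤ v (eta W x' y' - eta W x y) * v (x' - x) := by gcongr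
          _ < 1 * v (x' - x) := mul_lt_mul_of_pos_right hηη hd0
          _ = v (x' - x) := one_mul _
      exact lt_irrefl _ this

/-- **Key lemma, at a node.** `r` is the `x`-coordinate of the node; `X = x - r`.
If `η / X` is a unit, `η' / X' ≡ η / X` (same branch) and `v (X' - X) < v X`
(that is `X'/X ≡ 1`), then `P' - P` has non-integral `x`. -/
theorem key_node {W : WeierstrassCurve K} (hb₂ : v W.b₂ ≤ 1) (h2 : v (2 : K) = 1)
    {x y x' y' : K} (h : W.toAffine.Nonsingular x y) (h' : W.toAffine.Nonsingular x' y')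
    (r : K) (hx : v x ≤ 1) (hx' : v x' ≤ 1) (hX0 : x - r ≠ 0) (hxx : v (x' - x) < v (x - r))
    (ht : v (eta W x y / (x - r)) = 1)
    (htt : v (eta W x' y' / (x' - r) - eta W x y / (x - r)) < 1)
    (hne : Point.some x' y' h' ≠ Point.some x y h) :
    ∃ (x'' y'' : K) (h'' : W.toAffine.Nonsingular x'' y''),
      Point.some x' y' h' - Point.some x y h = Point.some x'' y'' h'' ∧ 1 < v x'' := by
  have h20 := key_val_two_ne_zero v h2
  have hvX0 : 0 < v (x - r) := by rw [v.pos_iff]; exact hX0
  have hXX : x' - r = (x - r) + (x' - x) := by ring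
  have hvX' : v (x' - r) = v (x - r) := by
    rw [hXX, v.map_add_eq_of_lt_left hxx]
  have hX'0 : x' - r ≠ 0 := by
    rw [← v.pos_iff, hvX']; exact hvX0
  have ht' : v (eta W x' y' / (x' - r)) = 1 := by
    have := v.map_eq_of_sub_lt (x := eta W x y / (x - r)) (y := eta W x' y' / (x' - r))
      (by rw [ht]; exact htt)
    rw [this, ht]
  have hxe : x' ≠ x := by
    intro hxe
    have hxe' : x = x' := hxe.symm
    subst hxe'
    rcases Affine.Y_eq_of_X_eq h'.1 h.1 rfl with h1 | h1
    · subst h1; exact hne rfl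
    · subst h1
      rw [eta_negY] at htt
      have : -eta W x y / (x - r) - eta W x y / (x - r) = -(2 * (eta W x y / (x - r))) := by ring
      rw [this, v.map_neg, map_mul, h2, one_mul, ht] at htt
      exact lt_irrefl _ htt
  apply key_of_slope v hb₂ h2 h h' hx hx' hxe
  -- `η' + η = X (2t + (t' - t)) + (X' - X) t'`
  have hsum : eta W x' y' + eta W x y =
      (x - r) * (2 * (eta W x y / (x - r)) + (eta W x' y' / (x' - r) - eta W x y / (x - r))) +
        (x' - x) * (eta W x' y' / (x' - r)) := by
    field_simp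
    ring
  have h1 : v (2 * (eta W x y / (x - r)) +
      (eta W x' y' / (x' - r) - eta W x y / (x - r))) = 1 := by
    rw [v.map_add_eq_of_lt_left, map_mul, h2, one_mul, ht]
    rw [map_mul, h2, one_mul, ht]; exact htt
  have h3 : v ((x - r) * (2 * (eta W x y / (x - r)) +
      (eta W x' y' / (x' - r) - eta W x y / (x - r)))) = v (x - r) := by
    rw [map_mul, h1, mul_one]
  have h4 : v ((x' - x) * (eta W x' y' / (x' - r))) < v (x - r) := by
    rw [map_mul, ht', mul_one]; exact hxx
  rw [hsum, v.map_add_eq_of_lt_left (by rw [h3]; exact h4), h3]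
  exact hxx

end Fermat.Agent.S05
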