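import Mathlib
import Fermat.Agent.S05.Key
import Fermat.Agent.S05.Kernel
import Fermat.Agent.S05.Inertia
import Fermat.Agent.S05.FreyArith

/-!
# S05: assembly

`local_fix`: for a Weierstrass curve over `ℚ` base-changed to `L`, a place `A` of `L`, `σ` in the
inertia group of `A`, and a `p`-torsion point `(x, y)` (`p` a unit at `A`), we get
`σ x = x ∧ σ y = y`, provided the cubic `η² = 4 (x - r₁)(x - r₁ - e₂)(x - r₁ - e₃)` has at most
a node at `r₁` (`e₃`, `e₃ - e₂` units) and, in the node case, the "tropical" statement holds.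
-/

set_option autoImplicit false
set_option linter.unusedSectionVars false
set_option linter.unusedVariables false

namespace Fermat.Agent.S05

open WeierstrassCurve WeierstrassCurve.Affine

section Roots

variable {K : Type*} [Field K] [DecidableEq K]

/-- The cubic `4x³ + b₂x² + 2b₄x + b₆` of `W` has the roots `r₁`, `r₁ + e₂`, `r₁ + e₃`. -/
structure RootData (W : WeierstrassCurve K) (r₁ e₂ e₃ : K) : Prop where
  hb₂ : W.b₂ = -4 * (3 * r₁ + e₂ + e₃)
  hb₄ : W.b₄ = 2 * (r₁ * (r₁ + e₂) + r₁ * (r₁ + e₃) + (r₁ + e₂) * (r₁ + e₃))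
  hb₆ : W.b₆ = -4 * (r₁ * (r₁ + e₂) * (r₁ + e₃))

theorem RootData.cub_eq {W : WeierstrassCurve K} {r₁ e₂ e₃ : K} (hr : RootData W r₁ e₂ e₃)
    (x : K) : cub W x = 4 * (x - r₁) * (x - r₁ - e₂) * (x - r₁ - e₃) := by
  rw [cub, hr.hb₂, hr.hb₄, hr.hb₆]; ring

theorem RootData.dcub_eq {W : WeierstrassCurve K} {r₁ e₂ e₃ : K} (hr : RootData W r₁ e₂ e₃)
    (x : K) : dcub W x = 2 * ((x - r₁) * (x - r₁ - e₂) + (x - r₁) * (x - r₁ - e₃)
      + (x - r₁ - e₂) * (x - r₁ - e₃)) := by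
  rw [dcub, hr.hb₂, hr.hb₄]; ring

variable {Γ₀ : Type*} [LinearOrderedCommGroupWithZero Γ₀] (v : Valuation K Γ₀)

/-- if two of the three factors are units and the third is integral, the point is
nonsingular modulo the maximal ideal -/
theorem hns_of_two_units (h2 : v (2 : K) = 1) {η c d u₁ u₂ s : K}
    (hη : η ^ 2 = 4 * (u₁ * u₂ * s)) (hd : d = 2 * (u₁ * u₂ + u₁ * s + u₂ * s))
    (hu₁ : v u₁ = 1) (hu₂ : v u₂ = 1) (hs : v s ≤ 1) :
    v η = 1 ∨ v d = 1 := by
  have h4 : v (4 : K) = 1 := key_val_four v h2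
  rcases hs.lt_or_eq with hs | hs
  · right
    have e : d = 2 * (u₁ * u₂) + 2 * ((u₁ + u₂) * s) := by rw [hd]; ring
    have h1 : v (2 * (u₁ * u₂)) = 1 := by rw [map_mul, map_mul, h2, hu₁, hu₂]; simp
    have h3 : v (2 * ((u₁ + u₂) * s)) < 1 := by
      rw [map_mul, map_mul, h2, one_mul]
      have : v (u₁ + u₂) ≤ 1 := v.map_add_le hu₁.le hu₂.le
      calc v (u₁ + u₂) * v s ≤ 1 * v s := by gcongr
        _ = v s := one_mul _
        _ < 1 := hs
    rw [e, v.map_add_eq_of_lt_left (by rw [h1]; exact h3), h1]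
  · left
    have : v η ^ 2 = 1 := by
      rw [← map_pow, hη, map_mul, map_mul, map_mul, h4, hu₁, hu₂, hs]; simp
    exact (pow_eq_one_iff_of_nonneg zero_le (by norm_num)).1 this

end Roots

end Fermat.Agent.S05
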