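import Mathlib
import Fermat.Agent.S05.Assembly

/-!
# S05: `local_fix` — inertia fixes prime-to-residue-characteristic torsion

For a Weierstrass curve over `ℚ` base-changed to `L`, a place `A` of `L`, `σ` in the inertia group
of `A`, and a `p`-torsion point `(x, y)` (`p` a unit at `A`): `σ x = x ∧ σ y = y`, provided the
cubic `η² = 4 (x - r₁)(x - r₁ - e₂)(x - r₁ - e₃)` has at most a node at `r₁`
(`e₃`, `e₃ - e₂` units) and, in the node case, the "tropical" statement holds.
-/

set_option autoImplicit false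
set_option linter.unusedSectionVars false
set_option linter.unusedVariables false

namespace Fermat.Agent.S05

open WeierstrassCurve WeierstrassCurve.Affine

section GaloisEta

variable {L : Type*} [Field L] [Algebra ℚ L] (W₀ : WeierstrassCurve ℚ) (σ : L ≃ₐ[ℚ] L)

theorem galois_a₁ : σ (W₀.baseChange L).a₁ = (W₀.baseChange L).a₁ := by
  simp [WeierstrassCurve.baseChange]

theorem galois_a₃ : σ (W₀.baseChange L).a₃ = (W₀.baseChange L).a₃ := by
  simp [WeierstrassCurve.baseChange]

/-- `η` is Galois-equivariant (the coefficients are rational). -/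
theorem eta_galois (x y : L) :
    eta (W₀.baseChange L) (σ x) (σ y) = σ (eta (W₀.baseChange L) x y) := by
  simp only [eta, map_add, map_mul, galois_a₁, galois_a₃, map_ofNat]

end GaloisEta

section LocalFix

variable {L : Type*} [Field L] [DecidableEq L] [Algebra ℚ L]

/-- The hypothesis at a node `r₁` (`v e₂ < 1`): `v e₂` is a `p`-th power of the valuation of a
rational number, and the tropical statement for `p`-torsion points reducing to the node. -/
def NodeHyp (A : ValuationSubring L) (W : WeierstrassCurve L) (p : ℕ) (r₁ e₂ : L) : Prop :=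
  (∃ c : ℚ, c ≠ 0 ∧ A.valuation e₂ = A.valuation (algebraMap ℚ L c) ^ p) ∧
    ∀ {x y : L} (h : W.toAffine.Nonsingular x y), p • Point.some x y h = 0 →
      A.valuation (x - r₁) < 1 →
      A.valuation e₂ < A.valuation (x - r₁) ∧
        ∃ k : ℤ, A.valuation (x - r₁) ^ p = A.valuation e₂ ^ (2 * k)

theorem local_fix (A : ValuationSubring L) {σ : L ≃ₐ[ℚ] L} (hσ : σ ∈ A.inertiaSubgroupIn ℚ)
    (W₀ : WeierstrassCurve ℚ)
    (h₁ : (W₀.baseChange L).a₁ ∈ A) (h₂ : (W₀.baseChange L).a₂ ∈ A)
    (h₃ : (W₀.baseChange L).a₃ ∈ A) (h₄ : (W₀.baseChange L).a₄ ∈ A)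
    (h₆ : (W₀.baseChange L).a₆ ∈ A)
    (h2 : A.valuation (2 : L) = 1) (p : ℕ) (hp : (p : L) ∉ A.nonunits)
    (r₁ e₂ e₃ : L) (hσr : σ r₁ = r₁) (hr₁ : r₁ ∈ A)
    (hr : RootData (W₀.baseChange L) r₁ e₂ e₃)
    (he₃ : A.valuation e₃ = 1) (he₂₃ : A.valuation (e₃ - e₂) = 1) (he₂ : A.valuation e₂ ≤ 1)
    (hnode : A.valuation e₂ < 1 → NodeHyp A (W₀.baseChange L) p r₁ e₂)
    {x y : L} (h : (W₀.baseChange L).toAffine.Nonsingular x y)
    (htors : p • Point.some x y h = 0) : σ x = x ∧ σ y = y := by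
  classical
  have hp0 : p ≠ 0 := by
    rintro rfl
    apply hp
    rw [Nat.cast_zero]
    exact zero_mem _
  obtain ⟨hb₂, hb₄, hb₆, hb₈⟩ := kernel_b_mem A h₁ h₂ h₃ h₄ h₆
  have hxA : x ∈ A := no_torsion_of_not_mem A _ h₁ h₂ h₃ h₄ h₆ p hp h htors
  have hyA : y ∈ A := no_torsion_of_not_mem_y A _ h₁ h₂ h₃ h₄ h₆ p hp h htors
  by_contra hcon
  -- the `σ`-translate of the point
  have h' : (W₀.baseChange L).toAffine.Nonsingular (σ x) (σ y) :=
    (WeierstrassCurve.Affine.baseChange_nonsingular W₀ (f := σ.toAlgHom)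
      σ.toAlgHom.injective x y).mpr h
  have hsm : σ • (Point.some x y h : (W₀⁄L).Point) = Point.some (σ x) (σ y) h' :=
    galois_smul_some σ h
  have htors' : p • Point.some (σ x) (σ y) h' = 0 := by
    have := Point.algEquiv_smul_zsmul σ (p : ℤ) (Point.some x y h : (W₀⁄L).Point)
    rw [natCast_zsmul, natCast_zsmul, htors, hsm] at this
    rw [← this]
    rfl
  have hne : Point.some (σ x) (σ y) h' ≠ Point.some x y h := by
    intro heq
    rw [Point.some.injEq] at heq
    exact hcon heq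
  have htorsQ : p • (Point.some (σ x) (σ y) h' - Point.some x y h) = 0 := by
    rw [smul_sub, htors, htors', sub_zero]
  suffices hclaim : ∃ (x'' y'' : L) (h'' : (W₀.baseChange L).toAffine.Nonsingular x'' y''),
      Point.some (σ x) (σ y) h' - Point.some x y h = Point.some x'' y'' h'' ∧
        1 < A.valuation x'' by
    obtain ⟨x'', y'', h'', hQ, hlt⟩ := hclaim
    rw [hQ] at htorsQ
    have := no_torsion_of_not_mem A _ h₁ h₂ h₃ h₄ h₆ p hp h'' htorsQ
    rw [← A.valuation_le_one_iff] at this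
    exact absurd hlt (not_lt.2 this)
  -- valuations
  have hvb₂ : A.valuation (W₀.baseChange L).b₂ ≤ 1 := (A.valuation_le_one_iff _).2 hb₂
  have hvb₄ : A.valuation (W₀.baseChange L).b₄ ≤ 1 := (A.valuation_le_one_iff _).2 hb₄
  have hvx : A.valuation x ≤ 1 := (A.valuation_le_one_iff _).2 hxA
  have hx'A : σ x ∈ A := (inertia_apply_mem_iff hσ x).2 hxA
  have hvx' : A.valuation (σ x) ≤ 1 := (A.valuation_le_one_iff _).2 hx'A
  have hηA : eta (W₀.baseChange L) x y ∈ A := by
    simp only [eta]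
    exact add_mem (add_mem (mul_mem (ofNat_mem A 2) hyA) (mul_mem h₁ hxA)) h₃
  have hvη : A.valuation (eta (W₀.baseChange L) x y) ≤ 1 := (A.valuation_le_one_iff _).2 hηA
  have hxx : A.valuation (σ x - x) < 1 :=
    (A.mem_nonunits_iff).1 (inertia_apply_sub_mem_nonunits hσ hxA)
  have hηη : A.valuation (eta (W₀.baseChange L) (σ x) (σ y) - eta (W₀.baseChange L) x y) < 1 := by
    rw [eta_galois]
    exact (A.mem_nonunits_iff).1 (inertia_apply_sub_mem_nonunits hσ hηA)
  have hη_sq : eta (W₀.baseChange L) x y ^ 2 = 4 * (x - r₁) * (x - r₁ - e₂) * (x - r₁ - e₃) := by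
    rw [eta_sq _ h.1, hr.cub_eq]
  have hdc := hr.dcub_eq x
  have hs₁ : A.valuation (x - r₁) ≤ 1 := (A.valuation_le_one_iff _).2 (sub_mem hxA hr₁)
  have he₂A : e₂ ∈ A := (A.valuation_le_one_iff _).1 he₂
  have he₃A : e₃ ∈ A := (A.valuation_le_one_iff _).1 he₃.le
  have hs₂ : A.valuation (x - r₁ - e₂) ≤ 1 :=
    (A.valuation_le_one_iff _).2 (sub_mem (sub_mem hxA hr₁) he₂A)
  have hs₃ : A.valuation (x - r₁ - e₃) ≤ 1 :=
    (A.valuation_le_one_iff _).2 (sub_mem (sub_mem hxA hr₁) he₃A)
  rcases hs₁.lt_or_eq with hlt | heq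
  · -- `x ≡ r₁`
    have hs₃' : A.valuation (x - r₁ - e₃) = 1 := by
      rw [Valuation.map_sub_eq_of_lt_right _ (by rw [he₃]; exact hlt), he₃]
    rcases he₂.lt_or_eq with he₂lt | he₂eq
    · -- the node case
      obtain ⟨⟨c, hc, hce⟩, htrop⟩ := hnode he₂lt
      obtain ⟨hlow, k, hk⟩ := htrop h htors hlt
      have hX0 : x - r₁ ≠ 0 := by
        intro h0
        rw [h0, map_zero] at hlow
        exact not_lt_zero hlow
      have hvX0 : A.valuation (x - r₁) ≠ 0 := (Valuation.ne_zero_iff _).2 hX0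
      have hs₂' : A.valuation (x - r₁ - e₂) = A.valuation (x - r₁) :=
        Valuation.map_sub_eq_of_lt_left _ hlow
      -- `v η = v (x - r₁)`
      have h4 : A.valuation (4 : L) = 1 := key_val_four _ h2
      have hηv : A.valuation (eta (W₀.baseChange L) x y) = A.valuation (x - r₁) := by
        have : A.valuation (eta (W₀.baseChange L) x y) ^ 2 = A.valuation (x - r₁) ^ 2 := by
          rw [← map_pow, hη_sq, map_mul, map_mul, map_mul, h4, hs₂', hs₃', one_mul, mul_one,
            sq]
        exact (pow_left_inj₀ zero_le zero_le two_ne_zero).1 this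
      have ht : A.valuation (eta (W₀.baseChange L) x y / (x - r₁)) = 1 := by
        rw [map_div₀, hηv, div_self hvX0]
      -- `v (x - r₁)` is the valuation of a rational number
      have hcL : algebraMap ℚ L c ≠ 0 := (map_ne_zero (algebraMap ℚ L)).2 hc
      have hvc : A.valuation (algebraMap ℚ L c) ≠ 0 := (Valuation.ne_zero_iff _).2 hcL
      have hval : A.valuation (x - r₁) = A.valuation (algebraMap ℚ L (c ^ (2 * k))) := by
        have e1 : A.valuation (x - r₁) ^ p =
            (A.valuation (algebraMap ℚ L (c ^ (2 * k)))) ^ p := by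
          rw [hk, hce, map_zpow₀, map_zpow₀, ← zpow_natCast, ← zpow_natCast, ← zpow_mul,
            ← zpow_mul, mul_comm]
        exact (pow_left_inj₀ zero_le zero_le hp0).1 e1
      have hc2k : c ^ (2 * k) ≠ 0 := zpow_ne_zero _ hc
      have hmove := inertia_valuation_apply_sub_lt hσ hc2k hval
      have hxx' : A.valuation (σ x - x) < A.valuation (x - r₁) := by
        have e : σ (x - r₁) - (x - r₁) = σ x - x := by rw [map_sub, hσr]; ring
        rwa [e] at hmove
      have htA : eta (W₀.baseChange L) x y / (x - r₁) ∈ A :=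
        (A.valuation_le_one_iff _).1 ht.le
      have htt : A.valuation (eta (W₀.baseChange L) (σ x) (σ y) / (σ x - r₁) -
          eta (W₀.baseChange L) x y / (x - r₁)) < 1 := by
        have e : eta (W₀.baseChange L) (σ x) (σ y) / (σ x - r₁) =
            σ (eta (W₀.baseChange L) x y / (x - r₁)) := by
          rw [map_div₀, map_sub, hσr, eta_galois]
        rw [e]
        exact (A.mem_nonunits_iff).1 (inertia_apply_sub_mem_nonunits hσ htA)
      exact key_node _ hvb₂ h2 h h' r₁ hvx hvx' hX0 hxx' ht htt hne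
    · -- `e₂` is a unit: no node
      have hs₂' : A.valuation (x - r₁ - e₂) = 1 := by
        rw [Valuation.map_sub_eq_of_lt_right _ (by rw [he₂eq]; exact hlt), he₂eq]
      have hns := hns_of_two_units A.valuation h2 (η := eta (W₀.baseChange L) x y)
        (c := 0) (d := dcub (W₀.baseChange L) x) (u₁ := x - r₁ - e₂) (u₂ := x - r₁ - e₃)
        (s := x - r₁) (hη_sq.trans (by ring)) (hdc.trans (by ring)) hs₂' hs₃' hs₁
      exact key_nonsing _ hvb₂ hvb₄ h2 h h' hvx hvη hxx hηη hne hns
  · -- `x ≢ r₁`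
    rcases hs₂.lt_or_eq with hlt₂ | heq₂
    · have hs₃' : A.valuation (x - r₁ - e₃) = 1 := by
        have e : x - r₁ - e₃ = (x - r₁ - e₂) - (e₃ - e₂) := by ring
        rw [e, Valuation.map_sub_eq_of_lt_right _ (by rw [he₂₃]; exact hlt₂), he₂₃]
      have hns := hns_of_two_units A.valuation h2 (η := eta (W₀.baseChange L) x y)
        (c := 0) (d := dcub (W₀.baseChange L) x) (u₁ := x - r₁) (u₂ := x - r₁ - e₃)
        (s := x - r₁ - e₂) (hη_sq.trans (by ring)) (hdc.trans (by ring)) heq hs₃' hs₂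
      exact key_nonsing _ hvb₂ hvb₄ h2 h h' hvx hvη hxx hηη hne hns
    · have hns := hns_of_two_units A.valuation h2 (η := eta (W₀.baseChange L) x y)
        (c := 0) (d := dcub (W₀.baseChange L) x) (u₁ := x - r₁) (u₂ := x - r₁ - e₂)
        (s := x - r₁ - e₃) (hη_sq.trans (by ring)) (hdc.trans (by ring)) heq heq₂ hs₃
      exact key_nonsing _ hvb₂ hvb₄ h2 h h' hvx hvη hxx hηη hne hns

end LocalFix

end Fermat.Agent.S05
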