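import Mathlib
import Fermat.Agent.S05.LocalFix
import Fermat.Prelude.Def_FLTPrelim_Ramification

/-!
# S05: the Frey curve — inertia at an odd prime `q ≠ p` fixes `E[p]`

`frey_fix`: coordinates of a `p`-torsion point are fixed by inertia at `q`, given the tropical
statement at the node.  `frey_unramified_of_tropical`: the statement S05 from the tropical
statement over `ℚ̄`.
-/

set_option autoImplicit false
set_option linter.unusedSectionVars false
set_option linter.unusedVariables false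

namespace Fermat.Agent.S05

open WeierstrassCurve WeierstrassCurve.Affine

section FreyRoot

variable (P : FreyPackage) (L : Type*) [Field L] [DecidableEq L] [Algebra ℚ L]

/-- roots `0, a^p/4, -b^p/4` (node at `0` when `q ∣ a`). -/
theorem frey_rootData_a :
    RootData (P.freyCurve.baseChange L) 0 ((P.a : L) ^ P.p / 4) (-((P.b : L) ^ P.p) / 4) := by
  have := charZero_of_algebraRat L
  refine ⟨?_, ?_, ?_⟩
  · rw [frey_b₂]; ring
  · rw [frey_b₄]; ring
  · rw [frey_b₆]; ring

/-- roots `0, -b^p/4, a^p/4` (node at `0` when `q ∣ b`). -/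
theorem frey_rootData_b :
    RootData (P.freyCurve.baseChange L) 0 (-((P.b : L) ^ P.p) / 4) ((P.a : L) ^ P.p / 4) := by
  have := charZero_of_algebraRat L
  refine ⟨?_, ?_, ?_⟩
  · rw [frey_b₂]; ring
  · rw [frey_b₄]; ring
  · rw [frey_b₆]; ring

/-- roots `a^p/4, a^p/4 - c^p/4 = -b^p/4, 0` (node at `a^p/4` when `q ∣ c`). -/
theorem frey_rootData_c :
    RootData (P.freyCurve.baseChange L) ((P.a : L) ^ P.p / 4) (-((P.c : L) ^ P.p) / 4)
      (-((P.a : L) ^ P.p) / 4) := by
  have := charZero_of_algebraRat L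
  have hflt := frey_flt_cast P L
  refine ⟨?_, ?_, ?_⟩
  · rw [frey_b₂, ← hflt]; ring
  · rw [frey_b₄, ← hflt]; ring
  · rw [frey_b₆]; ring

end FreyRoot

section FreyFix

variable (P : FreyPackage) {L : Type*} [Field L] [DecidableEq L] [Algebra ℚ L]

/-- The shape of the tropical statement used at the node (for the Frey curve over `L`). -/
def FreyTropical (A : ValuationSubring L) : Prop :=
  ∀ (r₁ e₂ e₃ : L), RootData (P.freyCurve.baseChange L) r₁ e₂ e₃ → r₁ ∈ A →
    A.valuation e₃ = 1 → A.valuation e₂ < 1 → e₂ ≠ 0 →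
    ∀ {x y : L} (h : (P.freyCurve.baseChange L).toAffine.Nonsingular x y),
      P.p • Point.some x y h = 0 → A.valuation (x - r₁) < 1 →
      A.valuation e₂ < A.valuation (x - r₁) ∧
        ∃ k : ℤ, A.valuation (x - r₁) ^ P.p = A.valuation e₂ ^ (2 * k)

theorem frey_fix {q : ℕ} (hq : q.Prime) (hq2 : q ≠ 2) (hqp : q ≠ P.p)
    (A : ValuationSubring L) (hA : A.LiesOverPrime q) {σ : L ≃ₐ[ℚ] L}
    (hσ : σ ∈ A.inertiaSubgroupIn ℚ) (htrop : FreyTropical P A)
    {x y : L} (h : (P.freyCurve.baseChange L).toAffine.Nonsingular x y)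
    (htors : P.p • Point.some x y h = 0) : σ x = x ∧ σ y = y := by
  have hchar := charZero_of_algebraRat L
  obtain ⟨h₁, h₂, h₃, h₄, h₆⟩ := frey_coeff_mem P A hq hq2 hA
  have h2 : A.valuation (2 : L) = 1 := valuation_two_eq_one A hq hA hq2
  have h4 : A.valuation (4 : L) = 1 := valuation_four_eq_one A hq hA hq2
  have hp : (P.p : L) ∉ A.nonunits := by
    rw [natCast_mem_nonunits_iff A hq hA]
    intro hdvd
    exact hqp ((Nat.prime_dvd_prime_iff_eq hq P.pp).1 hdvd)
  have hflt := frey_flt_cast P L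
  have hσint : ∀ n : ℤ, σ ((n : L) ^ P.p / 4) = (n : L) ^ P.p / 4 := by
    intro n
    rw [map_div₀, map_pow, galois_fixes_int, map_ofNat]
  have hmem : ∀ n : ℤ, (n : L) ^ P.p / 4 ∈ A := by
    intro n
    rw [← A.valuation_le_one_iff, valuation_div_of_eq_one A h4, A.valuation_le_one_iff]
    exact pow_mem (intCast_mem A n) _
  -- the node hypothesis in the three multiplicative cases
  have hnodeHyp : ∀ (n : ℤ) (r₁ e₂ e₃ : L), n ≠ 0 → A.valuation e₂ = A.valuation (n : L) ^ P.p →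
      RootData (P.freyCurve.baseChange L) r₁ e₂ e₃ → r₁ ∈ A → A.valuation e₃ = 1 →
      A.valuation e₂ < 1 → NodeHyp A (P.freyCurve.baseChange L) P.p r₁ e₂ := by
    intro n r₁ e₂ e₃ hn hval hr hr₁ he₃ he₂
    refine ⟨⟨(n : ℚ), by exact_mod_cast hn, ?_⟩, ?_⟩
    · rw [hval]
      congr 2
      simp
    · intro x y h ht hlt
      have he₂0 : e₂ ≠ 0 := by
        rw [← Valuation.ne_zero_iff A.valuation, hval]
        exact pow_ne_zero _ ((Valuation.ne_zero_iff _).2 (by exact_mod_cast hn))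
      exact htrop r₁ e₂ e₃ hr hr₁ he₃ he₂ he₂0 h ht hlt
  have hvpow : ∀ n : ℤ, A.valuation ((n : L) ^ P.p / 4) = A.valuation (n : L) ^ P.p := by
    intro n
    rw [valuation_div_of_eq_one A h4, map_pow]
  have hvnpow : ∀ n : ℤ, A.valuation (-((n : L) ^ P.p) / 4) = A.valuation (n : L) ^ P.p := by
    intro n
    rw [valuation_div_of_eq_one A h4, Valuation.map_neg, map_pow]
  rcases frey_cases P hq with ⟨ha, hb, hc⟩ | ⟨ha, hb, hc⟩ | ⟨ha, hb, hc⟩ | ⟨ha, hb, hc⟩
  · -- good reduction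
    refine local_fix A hσ P.freyCurve h₁ h₂ h₃ h₄ h₆ h2 P.p hp 0 ((P.a : L) ^ P.p / 4)
      (-((P.b : L) ^ P.p) / 4) (map_zero σ) (zero_mem A) (frey_rootData_a P L)
      (valuation_neg_pow_div_four_eq_one A hq hq2 hA hb _) ?_
      (valuation_pow_div_four_eq_one A hq hq2 hA ha _).le ?_ h htors
    · have e : -((P.b : L) ^ P.p) / 4 - (P.a : L) ^ P.p / 4 = -((P.c : L) ^ P.p) / 4 := by
        rw [← hflt]; ring
      rw [e]
      exact valuation_neg_pow_div_four_eq_one A hq hq2 hA hc _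
    · intro hlt
      rw [valuation_pow_div_four_eq_one A hq hq2 hA ha _] at hlt
      exact absurd hlt (lt_irrefl _)
  · -- `q ∣ a`
    refine local_fix A hσ P.freyCurve h₁ h₂ h₃ h₄ h₆ h2 P.p hp 0 ((P.a : L) ^ P.p / 4)
      (-((P.b : L) ^ P.p) / 4) (map_zero σ) (zero_mem A) (frey_rootData_a P L)
      (valuation_neg_pow_div_four_eq_one A hq hq2 hA hb _) ?_
      (valuation_pow_div_four_lt_one A hq hq2 hA P.ha0 ha P.hp0).2.le ?_ h htors
    · have e : -((P.b : L) ^ P.p) / 4 - (P.a : L) ^ P.p / 4 = -((P.c : L) ^ P.p) / 4 := by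
        rw [← hflt]; ring
      rw [e]
      exact valuation_neg_pow_div_four_eq_one A hq hq2 hA hc _
    · intro hlt
      exact hnodeHyp P.a 0 _ _ P.ha0 (hvpow _) (frey_rootData_a P L) (zero_mem A)
        (valuation_neg_pow_div_four_eq_one A hq hq2 hA hb _) hlt
  · -- `q ∣ b`
    refine local_fix A hσ P.freyCurve h₁ h₂ h₃ h₄ h₆ h2 P.p hp 0 (-((P.b : L) ^ P.p) / 4)
      ((P.a : L) ^ P.p / 4) (map_zero σ) (zero_mem A) (frey_rootData_b P L)
      (valuation_pow_div_four_eq_one A hq hq2 hA ha _) ?_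
      (valuation_neg_pow_div_four_lt_one A hq hq2 hA P.hb0 hb P.hp0).2.le ?_ h htors
    · have e : (P.a : L) ^ P.p / 4 - -((P.b : L) ^ P.p) / 4 = (P.c : L) ^ P.p / 4 := by
        rw [← hflt]; ring
      rw [e]
      exact valuation_pow_div_four_eq_one A hq hq2 hA hc _
    · intro hlt
      exact hnodeHyp P.b 0 _ _ P.hb0 (hvnpow _) (frey_rootData_b P L) (zero_mem A)
        (valuation_pow_div_four_eq_one A hq hq2 hA ha _) hlt
  · -- `q ∣ c`
    refine local_fix A hσ P.freyCurve h₁ h₂ h₃ h₄ h₆ h2 P.p hp ((P.a : L) ^ P.p / 4)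
      (-((P.c : L) ^ P.p) / 4) (-((P.a : L) ^ P.p) / 4) (hσint _) (hmem _)
      (frey_rootData_c P L)
      (valuation_neg_pow_div_four_eq_one A hq hq2 hA ha _) ?_
      (valuation_neg_pow_div_four_lt_one A hq hq2 hA P.hc0 hc P.hp0).2.le ?_ h htors
    · have e : -((P.a : L) ^ P.p) / 4 - -((P.c : L) ^ P.p) / 4 = (P.b : L) ^ P.p / 4 := by
        rw [← hflt]; ring
      rw [e]
      exact valuation_pow_div_four_eq_one A hq hq2 hA hb _
    · intro hlt
      exact hnodeHyp P.c _ _ _ P.hc0 (hvnpow _) (frey_rootData_c P L) (hmem _)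
        (valuation_neg_pow_div_four_eq_one A hq hq2 hA ha _) hlt

end FreyFix

section Final

open WeierstrassCurve.Affine.Point

/-- **S05 from the tropical statement.** -/
theorem frey_unramified_of_tropical (P : FreyPackage) {q : ℕ} (hq : q.Prime) (hq2 : q ≠ 2)
    (hqp : q ≠ P.p)
    (htrop : ∀ A : ValuationSubring (AlgebraicClosure ℚ), A.LiesOverPrime q →
      FreyTropical P A) :
    P.GaloisRepUnramifiedAt q := by
  intro A hA σ hσ x
  apply Subtype.ext
  obtain ⟨Pt, hPt⟩ := x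
  change σ • Pt = Pt
  rw [Submodule.mem_torsionBy_iff] at hPt
  cases Pt with
  | zero => rfl
  | some x y h =>
    have htors : P.p • (Point.some x y h : (P.freyCurve⁄(AlgebraicClosure ℚ)).Point) = 0 := by
      rw [← natCast_zsmul]; exact hPt
    obtain ⟨hx, hy⟩ := frey_fix P hq hq2 hqp A hA hσ (htrop A hA) h htors
    exact galois_smul_some_eq_self σ h hx hy

end Final

end Fermat.Agent.S05
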