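import Fermat.Agent.S05.Setting

/-!
# S05: closed formulas for the group law on `y² = x³ + γ x² + κ x`
-/

set_option autoImplicit false
set_option linter.unusedSectionVars false

namespace Fermat.Agent.S05

open WeierstrassCurve

variable {L : Type*} [Field L] [DecidableEq L]

lemma some_eq_some {W : Affine L} {x y x' y' : L} {h : W.Nonsingular x y} {h' : W.Nonsingular x' y'}
    (hx : x = x') (hy : y = y') : Affine.Point.some x y h = Affine.Point.some x' y' h' := by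
  subst hx hy
  rfl

lemma shortW_eqn {γ κ x y : L} (h : (shortW γ κ).Nonsingular x y) :
    y ^ 2 = x ^ 3 + γ * x ^ 2 + κ * x :=
  (shortW_equation_iff γ κ x y).1 h.1

/-- `δ = (x₁x₂ - κ)/(x₂y₁ + x₁y₂)`. -/
noncomputable def sumD (κ x₁ y₁ x₂ y₂ : L) : L :=
  (x₁ * x₂ - κ) / (x₂ * y₁ + x₁ * y₂)

/-- The slope, in closed form. -/
noncomputable def sumL (κ x₁ y₁ x₂ y₂ : L) : L :=
  y₁ / x₁ + x₂ * sumD κ x₁ y₁ x₂ y₂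

/-- The `x`-coordinate of the sum, in closed form. -/
noncomputable def sumX (κ x₁ y₁ x₂ y₂ : L) : L :=
  x₁ * x₂ * sumD κ x₁ y₁ x₂ y₂ ^ 2

/-- The `y`-coordinate of the sum, in closed form. -/
noncomputable def sumY (κ x₁ y₁ x₂ y₂ : L) : L :=
  sumD κ x₁ y₁ x₂ y₂ *
    (x₁ * x₂ - x₂ * y₁ * sumD κ x₁ y₁ x₂ y₂ - x₁ * x₂ ^ 2 * sumD κ x₁ y₁ x₂ y₂ ^ 2)

lemma ne_zero_of_S_ne_zero {γ κ x₁ y₁ x₂ y₂ : L}
    (e₁ : y₁ ^ 2 = x₁ ^ 3 + γ * x₁ ^ 2 + κ * x₁)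
    (hS : x₂ * y₁ + x₁ * y₂ ≠ 0) : x₁ ≠ 0 := by
  rintro rfl
  have : y₁ = 0 := by simpa using e₁
  simp [this] at hS

lemma slope_secant_eq {γ κ x₁ y₁ x₂ y₂ : L}
    (e₁ : y₁ ^ 2 = x₁ ^ 3 + γ * x₁ ^ 2 + κ * x₁)
    (e₂ : y₂ ^ 2 = x₂ ^ 3 + γ * x₂ ^ 2 + κ * x₂)
    (hx : x₁ ≠ x₂) (hS : x₂ * y₁ + x₁ * y₂ ≠ 0) :
    (y₁ - y₂) / (x₁ - x₂) = sumL κ x₁ y₁ x₂ y₂ := by
  have hx₁ : x₁ ≠ 0 := ne_zero_of_S_ne_zero e₁ hS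
  have hx' : x₁ - x₂ ≠ 0 := sub_ne_zero.2 hx
  unfold sumL sumD
  generalize hSdef : x₂ * y₁ + x₁ * y₂ = S at hS ⊢
  field_simp
  subst hSdef
  linear_combination (x₂^2) * e₁ + (-x₁^2) * e₂

lemma slope_tangent_eq {γ κ x₁ y₁ : L}
    (e₁ : y₁ ^ 2 = x₁ ^ 3 + γ * x₁ ^ 2 + κ * x₁)
    (hS : x₁ * y₁ + x₁ * y₁ ≠ 0) :
    (3 * x₁ ^ 2 + 2 * γ * x₁ + κ) / (y₁ - -y₁) = sumL κ x₁ y₁ x₁ y₁ := by
  have hx₁ : x₁ ≠ 0 := ne_zero_of_S_ne_zero e₁ hS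
  have h2xy : 2 * x₁ * y₁ ≠ 0 := by
    intro h; apply hS; linear_combination h
  have h2 : (2 : L) ≠ 0 := fun h => h2xy (by rw [h]; ring)
  have hy₁ : y₁ ≠ 0 := fun h => h2xy (by rw [h]; ring)
  unfold sumL sumD
  have h1 : y₁ - -y₁ = 2 * y₁ := by ring
  have h' : x₁ * y₁ + x₁ * y₁ = 2 * x₁ * y₁ := by ring
  rw [h1, h']
  field_simp
  linear_combination (-2) * e₁

lemma sumL_sq {γ κ x₁ y₁ x₂ y₂ : L}
    (e₁ : y₁ ^ 2 = x₁ ^ 3 + γ * x₁ ^ 2 + κ * x₁)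
    (e₂ : y₂ ^ 2 = x₂ ^ 3 + γ * x₂ ^ 2 + κ * x₂)
    (hS : x₂ * y₁ + x₁ * y₂ ≠ 0) :
    sumL κ x₁ y₁ x₂ y₂ ^ 2 - γ - x₁ - x₂ = sumX κ x₁ y₁ x₂ y₂ := by
  have hx₁ : x₁ ≠ 0 := ne_zero_of_S_ne_zero e₁ hS
  unfold sumL sumX sumD
  generalize hSdef : x₂ * y₁ + x₁ * y₂ = S at hS ⊢
  field_simp
  subst hSdef
  linear_combination (x₁^2 * x₂^3 + x₁^2 * y₂^2 + 2 * x₁ * y₁ * x₂ * y₂ - x₁ * x₂^2 * κ + y₁^2 * x₂^2) * e₁ + (-x₁^4 * x₂ + x₁^3 * κ) * e₂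

lemma sumY_eq {κ x₁ y₁ x₂ y₂ : L} (hx₁ : x₁ ≠ 0) :
    -(sumL κ x₁ y₁ x₂ y₂ * (sumX κ x₁ y₁ x₂ y₂ - x₁) + y₁) = sumY κ x₁ y₁ x₂ y₂ := by
  unfold sumL sumX sumY
  generalize sumD κ x₁ y₁ x₂ y₂ = d
  field_simp
  ring

theorem add_eq_some_of_ne_zero {γ κ x₁ y₁ x₂ y₂ : L}
    (h₁ : (shortW γ κ).Nonsingular x₁ y₁) (h₂ : (shortW γ κ).Nonsingular x₂ y₂)
    (hS : x₂ * y₁ + x₁ * y₂ ≠ 0) :
    ∃ h₃, Affine.Point.some x₁ y₁ h₁ + Affine.Point.some x₂ y₂ h₂ =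
      Affine.Point.some (sumX κ x₁ y₁ x₂ y₂) (sumY κ x₁ y₁ x₂ y₂) h₃ := by
  have e₁ := shortW_eqn h₁
  have e₂ := shortW_eqn h₂
  have hx₁ : x₁ ≠ 0 := ne_zero_of_S_ne_zero e₁ hS
  have key : ∀ ℓ : L, ℓ = sumL κ x₁ y₁ x₂ y₂ →
      (shortW γ κ).addX x₁ x₂ ℓ = sumX κ x₁ y₁ x₂ y₂ ∧
      (shortW γ κ).addY x₁ x₂ y₁ ℓ = sumY κ x₁ y₁ x₂ y₂ := by
    rintro ℓ rfl
    have hX : (shortW γ κ).addX x₁ x₂ (sumL κ x₁ y₁ x₂ y₂) = sumX κ x₁ y₁ x₂ y₂ := by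
      rw [← sumL_sq e₁ e₂ hS]
      simp [Affine.addX]
    refine ⟨hX, ?_⟩
    rw [Affine.addY, Affine.negAddY, hX, shortW_negY]
    exact sumY_eq hx₁
  by_cases hx : x₁ = x₂
  · subst hx
    rcases Affine.Y_eq_of_X_eq h₁.1 h₂.1 rfl with hy | hy
    · subst hy
      have h2y : y₁ + y₁ ≠ 0 := by
        intro h
        apply hS
        linear_combination x₁ * h
      have hy' : y₁ ≠ (shortW γ κ).negY x₁ y₁ := by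
        rw [shortW_negY]
        intro h
        apply h2y
        linear_combination h
      have hsl : (shortW γ κ).slope x₁ x₁ y₁ y₁ = sumL κ x₁ y₁ x₁ y₁ := by
        rw [Affine.slope_of_Y_ne rfl hy', shortW_negY]
        simp only [shortW_a₁, shortW_a₂, shortW_a₄, zero_mul, sub_zero]
        exact slope_tangent_eq e₁ hS
      obtain ⟨hX, hY⟩ := key _ hsl
      rw [Affine.Point.add_self_of_Y_ne hy']
      exact ⟨hX ▸ hY ▸ Affine.nonsingular_add h₁ h₁ fun hxy => hy' hxy.right, some_eq_some hX hY⟩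
    · exfalso
      apply hS
      rw [hy, shortW_negY]
      ring
  · have hsl : (shortW γ κ).slope x₁ x₂ y₁ y₂ = sumL κ x₁ y₁ x₂ y₂ := by
      rw [Affine.slope_of_X_ne hx]
      exact slope_secant_eq e₁ e₂ hx hS
    obtain ⟨hX, hY⟩ := key _ hsl
    rw [Affine.Point.add_of_X_ne hx]
    exact ⟨hX ▸ hY ▸ Affine.nonsingular_add h₁ h₂ fun hxy => hx hxy.left, some_eq_some hX hY⟩

end Fermat.Agent.S05
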