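import Mathlib.AlgebraicGeometry.EllipticCurve.Affine.Point
import Mathlib.RingTheory.Valuation.Basic

/-!
# S05: common setting for the local analysis of the Frey curve

The short model `y² = x³ + γ x² + κ x` over a field `L` (with a valuation `v`).
-/

set_option autoImplicit false

namespace Fermat.Agent.S05

open WeierstrassCurve

variable {L : Type*} [Field L]

/-- The short Weierstrass model `y² = x³ + γ x² + κ x`. -/
def shortW (γ κ : L) : WeierstrassCurve.Affine L := ⟨0, γ, 0, κ, 0⟩

@[simp] lemma shortW_a₁ (γ κ : L) : (shortW γ κ).a₁ = 0 := rfl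
@[simp] lemma shortW_a₂ (γ κ : L) : (shortW γ κ).a₂ = γ := rfl
@[simp] lemma shortW_a₃ (γ κ : L) : (shortW γ κ).a₃ = 0 := rfl
@[simp] lemma shortW_a₄ (γ κ : L) : (shortW γ κ).a₄ = κ := rfl
@[simp] lemma shortW_a₆ (γ κ : L) : (shortW γ κ).a₆ = 0 := rfl

lemma shortW_equation_iff (γ κ x y : L) :
    (shortW γ κ).Equation x y ↔ y ^ 2 = x ^ 3 + γ * x ^ 2 + κ * x := by
  rw [Affine.equation_iff]
  simp

lemma shortW_negY (γ κ x y : L) : (shortW γ κ).negY x y = -y := by
  simp [Affine.negY]

end Fermat.Agent.S05
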