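import Fermat.Agent.S05.MultFormula

/-!
# S05: key lemma on the short model

Two distinct points with "the same reduction" differ by a point with non-integral `x`-coordinate.
-/

set_option autoImplicit false
set_option linter.unusedSectionVars false
set_option linter.unusedVariables false

namespace Fermat.Agent.S05

open WeierstrassCurve

variable {L : Type*} [Field L] [DecidableEq L]
variable {Γ₀ : Type*} [LinearOrderedCommGroupWithZero Γ₀] (v : Valuation L Γ₀)

/-- If the slope is non-integral and everything else is integral, the sum has non-integral `x`. -/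
lemma one_lt_val_addX {γ κ x₁ x₂ ℓ : L} (hγ : v γ ≤ 1) (h₁ : v x₁ ≤ 1) (h₂ : v x₂ ≤ 1)
    (hℓ : 1 < v ℓ) : 1 < v ((shortW γ κ).addX x₁ x₂ ℓ) := by
  have hℓ2 : 1 < v (ℓ ^ 2) := by
    rw [map_pow]
    exact one_lt_pow₀ hℓ (by norm_num)
  have h3 : v (γ + x₁ + x₂) ≤ 1 := v.map_add_le (v.map_add_le hγ h₁) h₂
  have : (shortW γ κ).addX x₁ x₂ ℓ = ℓ ^ 2 - (γ + x₁ + x₂) := by
    simp [Affine.addX]; ring
  rw [this, v.map_sub_eq_of_lt_left (lt_of_le_of_lt h3 hℓ2)]
  exact hℓ2

/-- Subtraction of points on the short model, when the `x`-coordinates differ. -/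
lemma sub_eq_some_of_X_ne {γ κ x y x' y' : L}
    (h : (shortW γ κ).Nonsingular x y) (h' : (shortW γ κ).Nonsingular x' y') (hx : x' ≠ x) :
    ∃ h'', Affine.Point.some x' y' h' - Affine.Point.some x y h =
      Affine.Point.some ((shortW γ κ).addX x' x ((y' + y) / (x' - x)))
        ((shortW γ κ).addY x' x y' ((y' + y) / (x' - x))) h'' := by
  have hn : (shortW γ κ).Nonsingular x (-y) := by
    have := (Affine.nonsingular_neg (W' := shortW γ κ) x y).mpr h
    rwa [shortW_negY] at this
  have hneg : -Affine.Point.some x y h = Affine.Point.some x (-y) hn := by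
    rw [Affine.Point.neg_some]
    exact some_eq_some rfl (shortW_negY γ κ x y)
  have hsl : (shortW γ κ).slope x' x y' (-y) = (y' + y) / (x' - x) := by
    rw [Affine.slope_of_X_ne hx, sub_neg_eq_add]
  rw [sub_eq_add_neg (Affine.Point.some x' y' h'), hneg, Affine.Point.add_of_X_ne hx]
  have hns := Affine.nonsingular_add h' hn fun hxy => hx hxy.left
  rw [hsl] at hns
  exact ⟨hns, some_eq_some (by rw [hsl]) (by rw [hsl])⟩

/-- **Key lemma, nonsingular reduction.** -/
theorem short_key_nonsing {γ κ x y x' y' : L} (hγ : v γ ≤ 1) (hκ : v κ ≤ 1) (h2 : v 2 = 1)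
    (h : (shortW γ κ).Nonsingular x y) (h' : (shortW γ κ).Nonsingular x' y')
    (hx : v x ≤ 1) (hy : v y ≤ 1) (hxx : v (x' - x) < 1) (hyy : v (y' - y) < 1)
    (hne : Affine.Point.some x' y' h' ≠ Affine.Point.some x y h)
    (hns : v y = 1 ∨ v (3 * x ^ 2 + 2 * γ * x + κ) = 1) :
    ∃ x'' y'' h'', Affine.Point.some x' y' h' - Affine.Point.some x y h =
      Affine.Point.some x'' y'' h'' ∧ 1 < v x'' := by
  have e := shortW_eqn h
  have e' := shortW_eqn h'
  have hx' : v x' ≤ 1 := by
    have : x' = (x' - x) + x := by ring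
    rw [this]; exact v.map_add_le hxx.le hx
  have hy' : v y' ≤ 1 := by
    have : y' = (y' - y) + y := by ring
    rw [this]; exact v.map_add_le hyy.le hy
  -- the case `v y < 1`: the `x`-derivative is a unit
  have hFx : v y < 1 → v (3 * x ^ 2 + 2 * γ * x + κ) = 1 := by
    intro hlt
    rcases hns with h1 | h1
    · exact absurd h1 hlt.ne
    · exact h1
  by_cases hxe : x' = x
  · -- then `y' = -y`, and the difference is `2 • (-P)`
    have hxe' : x = x' := hxe.symm
    subst hxe'
    have hyy' : y' = -y := by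
      rcases Affine.Y_eq_of_X_eq h'.1 h.1 rfl with h1 | h1
      · exact absurd (some_eq_some rfl h1) hne
      · rw [h1, shortW_negY]
    subst hyy'
    have h2y : v (2 * y) < 1 := by
      have : -y - y = -(2 * y) := by ring
      rw [this, v.map_neg] at hyy
      exact hyy
    have hylt : v y < 1 := by
      rw [map_mul, h2, one_mul] at h2y
      exact h2y
    have hy0 : y ≠ 0 := by
      rintro rfl
      exact hne (some_eq_some rfl (by simp))
    have h20 : (2 : L) ≠ 0 := by
      intro h0
      rw [h0, map_zero] at h2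
      exact zero_ne_one h2
    have hneg : -Affine.Point.some x y h = Affine.Point.some x (-y) h' := by
      rw [Affine.Point.neg_some]
      exact some_eq_some rfl (shortW_negY γ κ x y)
    have hyne : -y ≠ (shortW γ κ).negY x (-y) := by
      rw [shortW_negY, neg_neg]
      intro h0
      apply hy0
      have : 2 * y = 0 := by linear_combination -h0
      rcases mul_eq_zero.1 this with h3 | h3
      · exact absurd h3 h20
      · exact h3
    rw [sub_eq_add_neg (Affine.Point.some x (-y) h'), hneg, Affine.Point.add_self_of_Y_ne hyne]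
    refine ⟨_, _, _, rfl, ?_⟩
    apply one_lt_val_addX v hγ hx hx
    rw [Affine.slope_of_Y_ne rfl hyne, shortW_negY, neg_neg]
    simp only [shortW_a₁, shortW_a₂, shortW_a₄, zero_mul, sub_zero]
    have : -y - y = -(2 * y) := by ring
    rw [this, map_div₀, v.map_neg, hFx hylt]
    have h2y0 : 0 < v (2 * y) := by
      rw [v.pos_iff]; exact mul_ne_zero h20 hy0
    exact (one_lt_div₀ h2y0).2 h2y
  · obtain ⟨h'', hsub⟩ := sub_eq_some_of_X_ne h h' hxe
    refine ⟨_, _, h'', hsub, ?_⟩
    apply one_lt_val_addX v hγ hx' hx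
    have hd0 : 0 < v (x' - x) := by
      rw [v.pos_iff]; exact sub_ne_zero.2 hxe
    rw [map_div₀]
    apply (one_lt_div₀ hd0).2
    by_cases hy1 : v y = 1
    · have : y' + y = 2 * y + (y' - y) := by ring
      rw [this, v.map_add_eq_of_lt_left (by rw [map_mul, h2, one_mul, hy1]; exact hyy),
        map_mul, h2, one_mul, hy1]
      exact hxx
    · have hylt : v y < 1 := lt_of_le_of_ne hy hy1
      have hG : v (x' ^ 2 + x' * x + x ^ 2 + γ * (x' + x) + κ) = 1 := by
        have : x' ^ 2 + x' * x + x ^ 2 + γ * (x' + x) + κ =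
            (3 * x ^ 2 + 2 * γ * x + κ) + (x' - x) * (x' + 2 * x + γ) := by ring
        rw [this, v.map_add_eq_of_lt_left, hFx hylt]
        rw [hFx hylt, map_mul]
        have h3 : v (x' + 2 * x + γ) ≤ 1 := by
          apply v.map_add_le (v.map_add_le hx' _) hγ
          rw [map_mul, h2, one_mul]; exact hx
        calc v (x' - x) * v (x' + 2 * x + γ) ≤ v (x' - x) * 1 := by gcongr
          _ = v (x' - x) := mul_one _
          _ < 1 := hxx
      have hprod : v (y' - y) * v (y' + y) = v (x' - x) := by
        rw [← map_mul, ← mul_one (v (x' - x)), ← hG, ← map_mul]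
        congr 1
        linear_combination e' - e
      by_contra hcon
      rw [not_lt] at hcon
      have : v (x' - x) < v (x' - x) := by
        calc v (x' - x) = v (y' - y) * v (y' + y) := hprod.symm
          _ ≤ v (y' - y) * v (x' - x) := by gcongr
          _ < 1 * v (x' - x) := mul_lt_mul_of_pos_right hyy hd0
          _ = v (x' - x) := one_mul _
      exact lt_irrefl _ this

/-- **Key lemma, at the node.** Two distinct points near the node, on the same branch and with
`x'/x ≡ 1`, differ by a point with non-integral `x`-coordinate. -/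
theorem short_key_node {γ κ x y x' y' : L} (hγ : v γ ≤ 1) (h2 : v 2 = 1)
    (h : (shortW γ κ).Nonsingular x y) (h' : (shortW γ κ).Nonsingular x' y')
    (hx0 : x ≠ 0) (hx : v x ≤ 1) (hxx : v (x' - x) < v x)
    (ht : v (y / x) = 1) (htt : v (y' / x' - y / x) < 1)
    (hne : Affine.Point.some x' y' h' ≠ Affine.Point.some x y h) :
    ∃ x'' y'' h'', Affine.Point.some x' y' h' - Affine.Point.some x y h =
      Affine.Point.some x'' y'' h'' ∧ 1 < v x'' := by
  have hvx0 : 0 < v x := by rw [v.pos_iff]; exact hx0
  have hvx' : v x' = v x := v.map_eq_of_sub_lt hxx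
  have hx'0 : x' ≠ 0 := by
    rw [← v.pos_iff, hvx']; exact hvx0
  have hx' : v x' ≤ 1 := hvx' ▸ hx
  have ht' : v (y' / x') = 1 := by
    have := v.map_eq_of_sub_lt (x := y / x) (y := y' / x') (by rw [ht]; exact htt)
    rw [this, ht]
  have hxe : x' ≠ x := by
    rintro rfl
    rcases Affine.Y_eq_of_X_eq h'.1 h.1 rfl with h1 | h1
    · exact hne (some_eq_some rfl h1)
    · rw [shortW_negY] at h1
      subst h1
      have : -y / x' - y / x' = -(2 * (y / x')) := by ring
      rw [this, v.map_neg, map_mul, h2, one_mul, ht] at htt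
      exact lt_irrefl _ htt
  obtain ⟨h'', hsub⟩ := sub_eq_some_of_X_ne h h' hxe
  refine ⟨_, _, h'', hsub, ?_⟩
  apply one_lt_val_addX v hγ hx' hx
  have hd0 : 0 < v (x' - x) := by
    rw [v.pos_iff]; exact sub_ne_zero.2 hxe
  rw [map_div₀]
  apply (one_lt_div₀ hd0).2
  -- `y' + y = x (2t + (t' - t)) + (x' - x) t'`
  have hsum : y' + y = x * (2 * (y / x) + (y' / x' - y / x)) + (x' - x) * (y' / x') := by
    field_simp
    ring
  have h1 : v (2 * (y / x) + (y' / x' - y / x)) = 1 := by
    rw [v.map_add_eq_of_lt_left, map_mul, h2, one_mul, ht]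
    rw [map_mul, h2, one_mul, ht]; exact htt
  have h3 : v (x * (2 * (y / x) + (y' / x' - y / x))) = v x := by
    rw [map_mul, h1, mul_one]
  have h4 : v ((x' - x) * (y' / x')) < v x := by
    rw [map_mul, ht', mul_one]; exact hxx
  rw [hsum, v.map_add_eq_of_lt_left (by rw [h3]; exact h4), h3]
  exact hxx

end Fermat.Agent.S05
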